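/-
S56 marathon, block "Euler characteristics" (helper1), file 2.
**The ker/coker sequence of multiplication by `p`** on a short exact sequence of `R`-modules
(`R` any ring), and the invariant `δ(B) = ψ(B[p]) − ψ(B/p)`:
* `delta_add` : `δ` is additive on short exact sequences;
* `delta_eq_zero_of_finite` : `δ(T) = 0` for finite `T`;
* `bn_lattice` : (Brauer–Nesbitt for lattices) `P ↪ Q` with finite cokernel, both without
  `p`-torsion ⇒ `ψ(P/p) = ψ(Q/p)`.
-/
import Mathlib
import Fermat.Agent.S56lib.Euler.AddInv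

set_option autoImplicit false

namespace Fermat.Agent.S56lib.Euler

open Function

section Defs

variable (R : Type) [Ring R] (p : ℕ) (B : Type) [AddCommGroup B] [Module R B]

/-- multiplication by `p` as an `R`-linear endomorphism -/
def mulP : B →ₗ[R] B where
  toFun b := p • b
  map_add' := smul_add _
  map_smul' _ _ := smul_comm _ _ _

@[simp] theorem mulP_apply (b : B) : mulP R p B b = p • b := rfl

/-- the `p`-torsion `B[p]` -/
def tors : Submodule R B := LinearMap.ker (mulP R p B)

/-- the cotorsion `B/p` -/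
abbrev Cot : Type := B ⧸ LinearMap.range (mulP R p B)

variable {R p B}

theorem mem_tors {b : B} : b ∈ tors R p B ↔ p • b = 0 := Iff.rfl

theorem cot_mk_eq_zero {b : B} :
    (Submodule.Quotient.mk b : Cot R p B) = 0 ↔ ∃ b', p • b' = b := by
  rw [Submodule.Quotient.mk_eq_zero]
  exact Iff.rfl

variable (R p B)

/-- both `B[p]` and `B/p` are finite -/
class PGood : Prop where
  fin_tors : Finite (tors R p B)
  fin_cot : Finite (Cot R p B)

instance PGood.of_finite [Finite B] : PGood R p B :=
  ⟨inferInstance, Finite.of_surjective _ (Submodule.Quotient.mk_surjective _)⟩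

instance isPFin_tors [h : PGood R p B] : IsPFin p (tors R p B) where
  finite := h.fin_tors
  nsmul_eq_zero v := Subtype.ext v.2

instance isPFin_cot [h : PGood R p B] : IsPFin p (Cot R p B) where
  finite := h.fin_cot
  nsmul_eq_zero v := by
    obtain ⟨b, rfl⟩ := Submodule.Quotient.mk_surjective _ v
    rw [← Submodule.Quotient.mk_smul, cot_mk_eq_zero]
    exact ⟨b, rfl⟩

/-- `δ(B) = ψ(B[p]) − ψ(B/p)` -/
def delta (ψ : AddInvariant R p) : ℤ := ψ.val (tors R p B) - ψ.val (Cot R p B)

end Defs

section Maps

variable {R : Type} [Ring R] {p : ℕ} {A B C : Type} [AddCommGroup A] [Module R A]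
  [AddCommGroup B] [Module R B] [AddCommGroup C] [Module R C]

/-- the map induced on `p`-torsion -/
def torsMap (f : A →ₗ[R] B) : tors R p A →ₗ[R] tors R p B :=
  f.restrict (fun a ha => by
    rw [mem_tors] at ha ⊢
    rw [← map_nsmul, ha, map_zero])

@[simp] theorem torsMap_coe (f : A →ₗ[R] B) (a : tors R p A) : (torsMap f a : B) = f a := rfl

/-- the map induced on cotorsion -/
def cotMap (f : A →ₗ[R] B) : Cot R p A →ₗ[R] Cot R p B :=
  Submodule.mapQ _ _ f (by
    rintro _ ⟨a, rfl⟩
    exact ⟨f a, by simp⟩)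

@[simp] theorem cotMap_mk (f : A →ₗ[R] B) (a : A) :
    cotMap (p := p) f (Submodule.Quotient.mk a) = Submodule.Quotient.mk (f a) := rfl

variable (f : A →ₗ[R] B) (g : B →ₗ[R] C) (hf : Injective f) (hg : Surjective g) (hfg : Exact f g)

include hf in
theorem torsMap_injective : Injective (torsMap (p := p) f) := by
  intro x y h
  apply Subtype.ext
  apply hf
  exact congrArg Subtype.val h

include hf hfg in
theorem torsMap_exact : Exact (torsMap (p := p) f) (torsMap (p := p) g) := by
  intro y
  constructor
  · intro hy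
    have hy' : g y.1 = 0 := congrArg Subtype.val hy
    obtain ⟨a, ha⟩ := (hfg _).1 hy'
    refine ⟨⟨a, ?_⟩, Subtype.ext ha⟩
    rw [mem_tors]
    apply hf
    rw [map_nsmul, ha, map_zero]
    exact y.2
  · rintro ⟨x, rfl⟩
    apply Subtype.ext
    exact hfg.apply_apply_eq_zero _

include hg in
theorem cotMap_surjective : Surjective (cotMap (p := p) g) := by
  intro y
  obtain ⟨c, rfl⟩ := Submodule.Quotient.mk_surjective _ y
  obtain ⟨b, rfl⟩ := hg c
  exact ⟨Submodule.Quotient.mk b, rfl⟩

include hg hfg in
theorem cotMap_exact : Exact (cotMap (p := p) f) (cotMap (p := p) g) := by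
  intro y
  obtain ⟨b, rfl⟩ := Submodule.Quotient.mk_surjective _ y
  constructor
  · intro hy
    rw [cotMap_mk, cot_mk_eq_zero] at hy
    obtain ⟨c, hc⟩ := hy
    obtain ⟨b', rfl⟩ := hg c
    have h0 : g (b - p • b') = 0 := by rw [map_sub, map_nsmul, hc, sub_self]
    obtain ⟨a, ha⟩ := (hfg _).1 h0
    refine ⟨Submodule.Quotient.mk a, ?_⟩
    rw [cotMap_mk, ha, Submodule.Quotient.mk_sub, sub_eq_self, cot_mk_eq_zero]
    exact ⟨b', rfl⟩
  · rintro ⟨x, hx⟩
    obtain ⟨a, rfl⟩ := Submodule.Quotient.mk_surjective _ x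
    rw [← hx, cotMap_mk, cotMap_mk, hfg.apply_apply_eq_zero]
    rfl

include hg hfg in
theorem exists_snake_lift (c : tors R p C) : ∃ ba : B × A, g ba.1 = c ∧ f ba.2 = p • ba.1 := by
  obtain ⟨b, hb⟩ := hg c.1
  have h0 : g (p • b) = 0 := by rw [map_nsmul, hb]; exact c.2
  obtain ⟨a, ha⟩ := (hfg _).1 h0
  exact ⟨(b, a), hb, ha⟩

include hf hfg in
theorem snake_wd {c : C} {b b' : B} {a a' : A} (hb : g b = c) (ha : f a = p • b)
    (hb' : g b' = c) (ha' : f a' = p • b') :
    (Submodule.Quotient.mk a : Cot R p A) = Submodule.Quotient.mk a' := by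
  have h0 : g (b - b') = 0 := by rw [map_sub, hb, hb', sub_self]
  obtain ⟨a₀, ha₀⟩ := (hfg _).1 h0
  rw [← sub_eq_zero, ← Submodule.Quotient.mk_sub, cot_mk_eq_zero]
  refine ⟨a₀, hf ?_⟩
  rw [map_nsmul, ha₀, map_sub, ha, ha', smul_sub]

/-- the connecting map `C[p] → A/p` as a function -/
noncomputable def snakeFun (c : tors R p C) : Cot R p A :=
  Submodule.Quotient.mk (exists_snake_lift (p := p) f g hg hfg c).choose.2

include hf in
theorem snakeFun_eq (c : tors R p C) {b : B} {a : A} (hb : g b = c) (ha : f a = p • b) :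
    snakeFun f g hg hfg c = Submodule.Quotient.mk a := by
  have h := (exists_snake_lift (p := p) f g hg hfg c).choose_spec
  exact snake_wd f g hf hfg h.1 h.2 hb ha

/-- the connecting map `C[p] → A/p` -/
noncomputable def snake : tors R p C →ₗ[R] Cot R p A where
  toFun := snakeFun f g hg hfg
  map_add' c c' := by
    obtain ⟨⟨b, a⟩, hb, ha⟩ := exists_snake_lift (p := p) f g hg hfg c
    obtain ⟨⟨b', a'⟩, hb', ha'⟩ := exists_snake_lift (p := p) f g hg hfg c'
    rw [snakeFun_eq f g hf hg hfg c hb ha, snakeFun_eq f g hf hg hfg c' hb' ha',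
      snakeFun_eq f g hf hg hfg (c + c') (b := b + b') (a := a + a')
        (by rw [map_add, hb, hb']; rfl) (by rw [map_add, ha, ha', smul_add])]
    rfl
  map_smul' r c := by
    obtain ⟨⟨b, a⟩, hb, ha⟩ := exists_snake_lift (p := p) f g hg hfg c
    rw [snakeFun_eq f g hf hg hfg c hb ha,
      snakeFun_eq f g hf hg hfg (r • c) (b := r • b) (a := r • a)
        (by rw [map_smul, hb]; rfl) (by rw [map_smul, ha, smul_comm])]
    rfl

theorem snake_eq (c : tors R p C) {b : B} {a : A} (hb : g b = c) (ha : f a = p • b) :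
    snake f g hf hg hfg c = Submodule.Quotient.mk a :=
  snakeFun_eq f g hf hg hfg c hb ha

theorem torsMap_snake_exact : Exact (torsMap (p := p) g) (snake f g hf hg hfg) := by
  intro c
  obtain ⟨⟨b, a⟩, hb, ha⟩ := exists_snake_lift (p := p) f g hg hfg c
  rw [snake_eq f g hf hg hfg c hb ha]
  constructor
  · intro h
    rw [cot_mk_eq_zero] at h
    obtain ⟨a', rfl⟩ := h
    refine ⟨⟨b - f a', ?_⟩, ?_⟩
    · rw [mem_tors, smul_sub, ← ha, map_nsmul, sub_self]
    · apply Subtype.ext
      change g (b - f a') = c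
      rw [map_sub, hfg.apply_apply_eq_zero, sub_zero, hb]
  · rintro ⟨x, rfl⟩
    have hx : p • (x : B) = 0 := x.2
    have h2 := snake_wd (p := p) f g hf hfg (c := g x) (b := b) (a := a) (b' := x) (a' := 0)
      hb ha rfl (by rw [map_zero, hx])
    rw [h2]
    rfl

theorem snake_cotMap_exact : Exact (snake f g hf hg hfg) (cotMap (p := p) f) := by
  intro y
  obtain ⟨a, rfl⟩ := Submodule.Quotient.mk_surjective _ y
  constructor
  · intro h
    rw [cotMap_mk, cot_mk_eq_zero] at h
    obtain ⟨b, hb⟩ := h
    have hc : g b ∈ tors R p C := by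
      rw [mem_tors, ← map_nsmul, hb, hfg.apply_apply_eq_zero]
    exact ⟨⟨g b, hc⟩, snake_eq f g hf hg hfg ⟨g b, hc⟩ rfl hb.symm⟩
  · rintro ⟨c, hc⟩
    obtain ⟨⟨b, a'⟩, hb, ha⟩ := exists_snake_lift (p := p) f g hg hfg c
    rw [snake_eq f g hf hg hfg c hb ha] at hc
    rw [← hc, cotMap_mk, ha, cot_mk_eq_zero]
    exact ⟨b, rfl⟩

end Maps

section Delta

variable {R : Type} [Ring R] {p : ℕ} (ψ : AddInvariant R p)

/-- **`δ` is additive on short exact sequences** -/
theorem delta_add {A B C : Type} [AddCommGroup A] [Module R A]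
    [AddCommGroup B] [Module R B] [AddCommGroup C] [Module R C] [PGood R p A] [PGood R p B]
    [PGood R p C] (f : A →ₗ[R] B) (g : B →ₗ[R] C) (hf : Injective f) (hg : Surjective g)
    (hfg : Exact f g) : delta R p B ψ = delta R p A ψ + delta R p C ψ := by
  have h := ψ.six_term (torsMap (p := p) f) (torsMap (p := p) g) (snake f g hf hg hfg)
    (cotMap (p := p) f) (cotMap (p := p) g) (torsMap_injective f hf) (torsMap_exact f g hf hfg)
    (torsMap_snake_exact f g hf hg hfg) (snake_cotMap_exact f g hf hg hfg)
    (cotMap_exact f g hg hfg) (cotMap_surjective g hg)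
  unfold delta
  omega

/-- `δ` is invariant under isomorphisms -/
theorem delta_congr {A B : Type} [AddCommGroup A] [Module R A] [AddCommGroup B] [Module R B]
    [PGood R p A] [PGood R p B] (e : A ≃ₗ[R] B) : delta R p A ψ = delta R p B ψ := by
  have h := delta_add ψ (0 : PUnit →ₗ[R] A) e.toLinearMap
    (fun x y _ => Subsingleton.elim _ _) e.surjective (by
      intro a
      constructor
      · intro ha
        exact ⟨0, (e.injective (by simpa using ha)).symm ▸ rfl⟩
      · rintro ⟨x, rfl⟩
        simp)
  have h0 : delta R p PUnit ψ = 0 := by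
    unfold delta
    rw [ψ.eq_zero_of_subsingleton, ψ.eq_zero_of_subsingleton, sub_zero]
  omega

instance finite_quotient {T : Type} [AddCommGroup T] [Module R T] [Finite T]
    (N : Submodule R T) : Finite (T ⧸ N) :=
  Finite.of_surjective _ (Submodule.Quotient.mk_surjective _)

/-- Lagrange for submodules -/
theorem card_eq_card_quotient_mul_card {T : Type} [AddCommGroup T] [Module R T]
    (N : Submodule R T) : Nat.card T = Nat.card (T ⧸ N) * Nat.card N :=
  AddSubgroup.card_eq_card_quotient_mul_card_addSubgroup N.toAddSubgroup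

theorem delta_eq_zero_of_card_le : ∀ (n : ℕ) (T : Type) [AddCommGroup T] [Module R T] [Finite T],
    Nat.card T ≤ n → delta R p T ψ = 0 := by
  intro n
  induction n with
  | zero =>
    intro T _ _ _ h
    have := Nat.card_pos (α := T)
    omega
  | succ n ih =>
    intro T _ _ _ hT
    by_cases hbot : LinearMap.range (mulP R p T) = ⊥
    · -- `pT = 0`
      have hker : tors R p T = ⊤ := by
        rw [tors, LinearMap.ker_eq_top, ← LinearMap.range_eq_bot, hbot]
      have h1 : ψ.val (tors R p T) = ψ.val T :=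
        ψ.iso _ _ (LinearEquiv.ofTop _ hker)
      have h2 : ψ.val (Cot R p T) = ψ.val T :=
        ψ.iso _ _ (Submodule.quotEquivOfEqBot _ hbot)
      unfold delta
      omega
    · by_cases htop : LinearMap.range (mulP R p T) = ⊤
      · -- `pT = T`
        have hsurj : Surjective (mulP R p T) := LinearMap.range_eq_top.1 htop
        have hinj : Injective (mulP R p T) := Finite.injective_iff_surjective.2 hsurj
        haveI : Subsingleton (tors R p T) := by
          rw [tors, LinearMap.ker_eq_bot.2 hinj]
          infer_instance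
        haveI : Subsingleton (Cot R p T) :=
          Submodule.Quotient.subsingleton_iff.2 htop
        unfold delta
        rw [ψ.eq_zero_of_subsingleton, ψ.eq_zero_of_subsingleton, sub_zero]
      · -- `T' = pT` is proper and nonzero
        set T' := LinearMap.range (mulP R p T) with hT'
        have hcard := card_eq_card_quotient_mul_card T'
        haveI : Finite (T ⧸ T') := Finite.of_surjective _ (Submodule.Quotient.mk_surjective _)
        have hq : 1 < Nat.card (T ⧸ T') := by
          rw [Finite.one_lt_card_iff_nontrivial]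
          exact Submodule.Quotient.nontrivial_iff.2 htop
        have hs : 1 < Nat.card T' := by
          rw [Finite.one_lt_card_iff_nontrivial]
          exact Submodule.nontrivial_iff_ne_bot.2 hbot
        have h1 : Nat.card T' ≤ n := by nlinarith
        have h2 : Nat.card (T ⧸ T') ≤ n := by nlinarith
        have h := delta_add ψ T'.subtype T'.mkQ T'.injective_subtype T'.mkQ_surjective
          (LinearMap.exact_subtype_mkQ T')
        rw [h, ih T' h1, ih (T ⧸ T') h2, add_zero]

/-- **`δ(T) = 0` for finite `T`** -/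
theorem delta_eq_zero_of_finite (T : Type) [AddCommGroup T] [Module R T] [Finite T] :
    delta R p T ψ = 0 :=
  delta_eq_zero_of_card_le ψ _ T le_rfl

/-- `δ(P) = −ψ(P/p)` for a module without `p`-torsion -/
theorem delta_of_tors_eq_bot (P : Type) [AddCommGroup P] [Module R P] (hP : tors R p P = ⊥) :
    delta R p P ψ = - ψ.val (Cot R p P) := by
  haveI : Subsingleton (tors R p P) := by rw [hP]; infer_instance
  unfold delta
  rw [ψ.eq_zero_of_subsingleton, zero_sub]

theorem pGood_of_tors_eq_bot (P : Type) [AddCommGroup P] [Module R P] (hP : tors R p P = ⊥)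
    [Finite (Cot R p P)] : PGood R p P :=
  ⟨by rw [hP]; infer_instance, inferInstance⟩

/-- **Brauer–Nesbitt for lattices**: an injection `P ↪ Q` with finite cokernel between modules without
`p`-torsion induces `ψ(P/p) = ψ(Q/p)`. -/
theorem bn_lattice {P Q : Type} [AddCommGroup P] [Module R P] [AddCommGroup Q] [Module R Q]
    (f : P →ₗ[R] Q) (hf : Injective f) [Finite (Q ⧸ LinearMap.range f)]
    (hP : tors R p P = ⊥) (hQ : tors R p Q = ⊥) [Finite (Cot R p P)] [Finite (Cot R p Q)] :
    ψ.val (Cot R p P) = ψ.val (Cot R p Q) := by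
  haveI := pGood_of_tors_eq_bot (R := R) (p := p) P hP
  haveI := pGood_of_tors_eq_bot (R := R) (p := p) Q hQ
  have h := delta_add ψ f (LinearMap.range f).mkQ hf (LinearMap.range f).mkQ_surjective
    (LinearMap.exact_map_mkQ_range f)
  rw [delta_eq_zero_of_finite ψ (Q ⧸ LinearMap.range f), delta_of_tors_eq_bot ψ P hP,
    delta_of_tors_eq_bot ψ Q hQ] at h
  omega

end Delta

end Fermat.Agent.S56lib.Euler
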