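/-
S56 marathon, block "Euler characteristics" (helper1), file 3.
* `cardInv` : `V ↦ v_p |V|` is an additive invariant (the `𝔽_p`-dimension);
* `nilp_filtration` : if `τ` is an `R`-linear endomorphism of a finite module `Y` killed by `p` with
  `τ ^ q = 0` and `|Y| = |ker τ| ^ q`, then `ψ(Y) = q · ψ(ker τ)` for every additive invariant `ψ`
  (counting argument on the kernel filtration; `Y` is "free over `𝔽_p[τ]/τ^q`").
-/
import Mathlib
import Fermat.Agent.S56lib.Euler.SixTerm

set_option autoImplicit false

namespace Fermat.Agent.S56lib.Euler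

open Function

section Card

variable {R : Type} [Ring R] {p : ℕ} [hp : Fact p.Prime]

/-- cardinalities are multiplicative on short exact sequences -/
theorem card_eq_mul_of_exact {A B C : Type} [AddCommGroup A] [Module R A] [AddCommGroup B]
    [Module R B] [AddCommGroup C] [Module R C] (f : A →ₗ[R] B) (g : B →ₗ[R] C)
    (hf : Injective f) (hg : Surjective g) (hfg : Exact f g) :
    Nat.card B = Nat.card A * Nat.card C := by
  rw [card_eq_card_quotient_mul_card (LinearMap.ker g),
    Nat.card_congr (g.quotKerEquivOfSurjective hg).toEquiv, mul_comm]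
  congr 1
  rw [hfg.linearMap_ker_eq]
  exact (Nat.card_congr (LinearEquiv.ofInjective f hf).toEquiv).symm

theorem IsPFin.exists_card_eq (V : Type) [AddCommGroup V] [IsPFin p V] :
    ∃ n : ℕ, Nat.card V = p ^ n := by
  haveI : Finite V := IsPFin.finite p
  haveI : Finite (Multiplicative V) := inferInstanceAs (Finite V)
  have h : IsPGroup p (Multiplicative V) := by
    intro g
    refine ⟨1, ?_⟩
    rw [pow_one]
    exact congrArg Multiplicative.ofAdd (IsPFin.nsmul_eq_zero (p := p) (Multiplicative.toAdd g))
  obtain ⟨n, hn⟩ := IsPGroup.iff_card.1 h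
  exact ⟨n, hn⟩

theorem IsPFin.card_eq_pow (V : Type) [AddCommGroup V] [IsPFin p V] :
    Nat.card V = p ^ padicValNat p (Nat.card V) := by
  obtain ⟨n, hn⟩ := IsPFin.exists_card_eq (p := p) V
  rw [hn, padicValNat.prime_pow]

variable (R p)

/-- the `𝔽_p`-dimension as an additive invariant -/
noncomputable def cardInv : AddInvariant R p where
  val V _ _ := (padicValNat p (Nat.card V) : ℤ)
  iso V W _ _ _ _ _ e := by rw [Nat.card_congr e.toEquiv]
  add V' V V'' _ _ _ _ _ _ _ f g hf hg hfg := by
    haveI : Finite V := IsPFin.finite p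
    haveI : Finite V' := Finite.of_injective f hf
    haveI : Finite V'' := Finite.of_surjective g hg
    rw [card_eq_mul_of_exact f g hf hg hfg, padicValNat.mul Nat.card_pos.ne' Nat.card_pos.ne']
    push_cast
    rfl

variable {R p}

theorem cardInv_val (V : Type) [AddCommGroup V] [Module R V] :
    (cardInv R p).val V = (padicValNat p (Nat.card V) : ℤ) := rfl

theorem card_eq_pow_cardInv (V : Type) [AddCommGroup V] [Module R V] [IsPFin p V] :
    Nat.card V = p ^ ((cardInv R p).val V).toNat := by
  rw [cardInv_val, Int.toNat_natCast]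
  exact IsPFin.card_eq_pow V

theorem cardInv_nonneg (V : Type) [AddCommGroup V] [Module R V] : 0 ≤ (cardInv R p).val V := by
  rw [cardInv_val]
  exact Int.natCast_nonneg _

/-- a submodule of a finite `p`-killed module with the same dimension is everything -/
theorem eq_top_of_cardInv_eq {V : Type} [AddCommGroup V] [Module R V] [IsPFin p V]
    (N : Submodule R V) (h : (cardInv R p).val N = (cardInv R p).val V) : N = ⊤ := by
  haveI : Finite V := IsPFin.finite p
  have h1 : Nat.card N = Nat.card V := by
    rw [card_eq_pow_cardInv (R := R) (p := p) N, card_eq_pow_cardInv (R := R) (p := p) V, h]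
  have h2 := AddSubgroup.eq_top_of_card_eq N.toAddSubgroup h1
  refine eq_top_iff.2 (fun v _ => ?_)
  have : v ∈ N.toAddSubgroup := h2 ▸ AddSubgroup.mem_top v
  exact this

theorem cardInv_submodule_le {V : Type} [AddCommGroup V] [Module R V] [IsPFin p V]
    (N : Submodule R V) : (cardInv R p).val N ≤ (cardInv R p).val V := by
  have h := (cardInv R p).add N V (V ⧸ N) N.subtype N.mkQ N.injective_subtype N.mkQ_surjective
    (LinearMap.exact_subtype_mkQ N)
  have := cardInv_nonneg (R := R) (p := p) (V ⧸ N)
  omega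

end Card

section Nilp

variable {R : Type} [Ring R] {p : ℕ} [hp : Fact p.Prime] (ψ : AddInvariant R p)
  {Y : Type} [AddCommGroup Y] [Module R Y] [IsPFin p Y] (τ : Y →ₗ[R] Y)

/-- the kernel filtration -/
def kerPow (k : ℕ) : Submodule R Y := LinearMap.ker (τ ^ k)

theorem kerPow_le_succ (k : ℕ) : kerPow τ k ≤ kerPow τ (k + 1) := by
  intro y hy
  change (τ ^ (k + 1)) y = 0
  rw [pow_succ', Module.End.mul_apply, show (τ ^ k) y = 0 from hy, map_zero]

/-- `τ ^ k : ker τ^{k+1} → ker τ` -/
def kerPowMap (k : ℕ) : kerPow τ (k + 1) →ₗ[R] kerPow τ 1 :=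
  (τ ^ k).restrict (fun y hy => by
    change (τ ^ 1) ((τ ^ k) y) = 0
    rw [← Module.End.mul_apply, ← pow_add, add_comm]
    exact hy)

theorem kerPowMap_exact (k : ℕ) :
    Exact (Submodule.inclusion (kerPow_le_succ τ k)) (kerPowMap τ k) := by
  intro y
  constructor
  · intro hy
    have hy' : (τ ^ k) y.1 = 0 := congrArg Subtype.val hy
    exact ⟨⟨y.1, hy'⟩, rfl⟩
  · rintro ⟨x, rfl⟩
    apply Subtype.ext
    exact x.2

omit hp in
/-- one step of the filtration -/
theorem val_kerPow_succ (k : ℕ) :
    ψ.val (kerPow τ (k + 1)) = ψ.val (kerPow τ k) + ψ.val (LinearMap.range (kerPowMap τ k)) := by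
  rw [ψ.eq_add_of_exact _ _ (kerPowMap_exact τ k),
    ψ.range_eq_of_injective _ (Submodule.inclusion_injective _)]

omit hp [IsPFin p Y] in
theorem val_kerPow_zero : ψ.val (kerPow τ 0) = 0 := by
  haveI : Subsingleton (kerPow τ 0) := by
    have : kerPow τ 0 = ⊥ := by
      rw [kerPow, pow_zero]
      exact LinearMap.ker_id
    rw [this]
    infer_instance
  exact ψ.eq_zero_of_subsingleton _

/-- `dim ker τ^k ≤ k · dim ker τ` -/
theorem cardInv_kerPow_le (k : ℕ) :
    (cardInv R p).val (kerPow τ k) ≤ k * (cardInv R p).val (kerPow τ 1) := by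
  induction k with
  | zero => rw [val_kerPow_zero]; simp
  | succ k ih =>
    rw [val_kerPow_succ]
    have := cardInv_submodule_le (R := R) (p := p) (LinearMap.range (kerPowMap τ k))
    push_cast
    linarith

/-- `dim ker τ^{k+j} ≤ dim ker τ^k + j · dim ker τ` -/
theorem cardInv_kerPow_add_le (k j : ℕ) :
    (cardInv R p).val (kerPow τ (k + j))
      ≤ (cardInv R p).val (kerPow τ k) + j * (cardInv R p).val (kerPow τ 1) := by
  induction j with
  | zero => simp
  | succ j ih =>
    rw [← add_assoc, val_kerPow_succ]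
    have := cardInv_submodule_le (R := R) (p := p) (LinearMap.range (kerPowMap τ (k + j)))
    push_cast
    linarith

/-- **the nilpotent filtration lemma** -/
theorem nilp_filtration (q : ℕ) (hτ : τ ^ q = 0)
    (hcard : (cardInv R p).val Y = q * (cardInv R p).val (LinearMap.ker τ)) :
    ψ.val Y = q * ψ.val (LinearMap.ker τ) := by
  have hk1 : kerPow τ 1 = LinearMap.ker τ := by rw [kerPow, pow_one]
  have htop : kerPow τ q = ⊤ := by rw [kerPow, hτ]; exact LinearMap.ker_zero
  have hY : ∀ φ : AddInvariant R p, φ.val (kerPow τ q) = φ.val Y := fun φ =>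
    φ.iso _ _ (LinearEquiv.ofTop _ htop)
  rw [← hk1] at hcard
  -- every step of the filtration is onto `ker τ`
  have hstep : ∀ k, k < q → LinearMap.range (kerPowMap τ k) = ⊤ := by
    intro k hk
    apply eq_top_of_cardInv_eq (R := R) (p := p)
    have h1 := cardInv_kerPow_le (p := p) τ k
    have h2 := cardInv_kerPow_add_le (p := p) τ (k + 1) (q - (k + 1))
    rw [show k + 1 + (q - (k + 1)) = q by omega, hY, hcard] at h2
    have h3 := val_kerPow_succ (cardInv R p) τ k
    have h4 := cardInv_submodule_le (R := R) (p := p) (LinearMap.range (kerPowMap τ k))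
    have h5 : ((q - (k + 1) : ℕ) : ℤ) = q - (k + 1) := by
      rw [Nat.cast_sub (by omega)]; push_cast; ring
    rw [h5] at h2
    nlinarith
  have hind : ∀ k, k ≤ q → ψ.val (kerPow τ k) = k * ψ.val (kerPow τ 1) := by
    intro k
    induction k with
    | zero => intro _; rw [val_kerPow_zero]; simp
    | succ k ih =>
      intro hk
      rw [val_kerPow_succ, ih (by omega)]
      have h1 : ψ.val (LinearMap.range (kerPowMap τ k)) = ψ.val (kerPow τ 1) :=
        ψ.iso (LinearMap.range (kerPowMap τ k)) (kerPow τ 1)
          (LinearEquiv.ofTop _ (hstep k (by omega)))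
      rw [h1]
      push_cast
      ring
  rw [← hY ψ, hind q le_rfl, hk1]

end Nilp

end Fermat.Agent.S56lib.Euler
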