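/-
S56 marathon, block "Euler characteristics" (helper1), file 1.
**Additive invariants of finite `R`-modules killed by `p`** (`R` any ring, e.g. `ℤ[Γ]`), K₀-free:
* `IsPFin p V` : the class of finite abelian groups killed by `p`;
* `AddInvariant R p` : a function `ψ` on (types with) `R`-module structures, invariant under isomorphisms
  and additive on short exact sequences of `IsPFin` modules;
* `AddInvariant.eq_add_of_exact` : `ψ B = ψ (range f) + ψ (range g)` for `A → B → C` exact at `B`;
* `AddInvariant.six_term` : the alternating sum over a six-term exact sequence vanishes.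
-/
import Mathlib

set_option autoImplicit false

namespace Fermat.Agent.S56lib.Euler

open Function

/-- finite abelian groups killed by `p` -/
class IsPFin (p : ℕ) (V : Type) [AddCommGroup V] : Prop where
  finite : Finite V
  nsmul_eq_zero : ∀ v : V, p • v = 0

namespace IsPFin

variable {p : ℕ} {V W : Type} [AddCommGroup V] [AddCommGroup W]

theorem of_injective [IsPFin p W] (f : V →+ W) (hf : Injective f) : IsPFin p V where
  finite := haveI := IsPFin.finite (p := p) (V := W); Finite.of_injective f hf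
  nsmul_eq_zero v := hf (by rw [map_nsmul, IsPFin.nsmul_eq_zero, map_zero])

theorem of_surjective [IsPFin p V] (f : V →+ W) (hf : Surjective f) : IsPFin p W where
  finite := haveI := IsPFin.finite (p := p) (V := V); Finite.of_surjective f hf
  nsmul_eq_zero w := by
    obtain ⟨v, rfl⟩ := hf w
    rw [← map_nsmul, IsPFin.nsmul_eq_zero, map_zero]

theorem of_subsingleton [Subsingleton V] : IsPFin p V :=
  ⟨inferInstance, fun _ => Subsingleton.elim _ _⟩

variable {R : Type} [Ring R] [Module R V] [Module R W]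

instance submodule [IsPFin p V] (N : Submodule R V) : IsPFin p N :=
  of_injective N.subtype.toAddMonoidHom N.injective_subtype

instance quotient [IsPFin p V] (N : Submodule R V) : IsPFin p (V ⧸ N) :=
  of_surjective N.mkQ.toAddMonoidHom N.mkQ_surjective

instance prod [IsPFin p V] [IsPFin p W] : IsPFin p (V × W) where
  finite := haveI := IsPFin.finite (p := p) (V := V); haveI := IsPFin.finite (p := p) (V := W)
    inferInstance
  nsmul_eq_zero v := by
    ext
    · simp [IsPFin.nsmul_eq_zero]
    · simp [IsPFin.nsmul_eq_zero]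

theorem of_linearEquiv [IsPFin p V] (e : V ≃ₗ[R] W) : IsPFin p W :=
  of_surjective e.toLinearMap.toAddMonoidHom e.surjective

end IsPFin

/-- an additive invariant of finite `R`-modules killed by `p` (values on other modules are junk) -/
structure AddInvariant (R : Type) [Ring R] (p : ℕ) where
  /-- the value on a module -/
  val : ∀ (V : Type) [AddCommGroup V] [Module R V], ℤ
  iso : ∀ (V W : Type) [AddCommGroup V] [Module R V] [AddCommGroup W] [Module R W] [IsPFin p V],
    (V ≃ₗ[R] W) → val V = val W
  add : ∀ (V' V V'' : Type) [AddCommGroup V'] [Module R V'] [AddCommGroup V] [Module R V]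
    [AddCommGroup V''] [Module R V''] [IsPFin p V] (f : V' →ₗ[R] V) (g : V →ₗ[R] V''),
    Injective f → Surjective g → Exact f g → val V = val V' + val V''

namespace AddInvariant

variable {R : Type} [Ring R] {p : ℕ} (ψ : AddInvariant R p)

/-- an additive invariant vanishes on the zero module -/
theorem eq_zero_of_subsingleton (V : Type) [AddCommGroup V] [Module R V] [Subsingleton V] :
    ψ.val V = 0 := by
  haveI : IsPFin p V := IsPFin.of_subsingleton
  have h := ψ.add V V V (LinearMap.id) (0 : V →ₗ[R] V) injective_id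
    (fun v => ⟨v, Subsingleton.elim _ _⟩)
    (fun v => ⟨fun _ => ⟨v, rfl⟩, fun _ => Subsingleton.elim _ _⟩)
  omega

/-- `ψ B = ψ (range f) + ψ (range g)` for `A → B → C` exact at `B` -/
theorem eq_add_of_exact {A B C : Type} [AddCommGroup A] [Module R A] [AddCommGroup B]
    [Module R B] [AddCommGroup C] [Module R C] [IsPFin p B] (f : A →ₗ[R] B) (g : B →ₗ[R] C)
    (h : Exact f g) : ψ.val B = ψ.val (LinearMap.range f) + ψ.val (LinearMap.range g) := by
  refine ψ.add (LinearMap.range f) B (LinearMap.range g) (LinearMap.range f).subtype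
    g.rangeRestrict (Submodule.injective_subtype _) g.surjective_rangeRestrict ?_
  intro b
  constructor
  · intro hb
    have hb' : g b = 0 := congrArg Subtype.val hb
    obtain ⟨a, ha⟩ := (h b).1 hb'
    exact ⟨⟨b, ⟨a, ha⟩⟩, rfl⟩
  · rintro ⟨⟨b', a, ha⟩, rfl⟩
    apply Subtype.ext
    change g b' = 0
    rw [← ha]
    exact h.apply_apply_eq_zero a

theorem range_eq_of_injective {A B : Type} [AddCommGroup A] [Module R A] [AddCommGroup B]
    [Module R B] [IsPFin p A] (f : A →ₗ[R] B) (hf : Injective f) :
    ψ.val (LinearMap.range f) = ψ.val A :=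
  (ψ.iso A (LinearMap.range f) (LinearEquiv.ofInjective f hf)).symm

theorem range_eq_of_surjective {A B : Type} [AddCommGroup A] [Module R A] [AddCommGroup B]
    [Module R B] [IsPFin p B] (f : A →ₗ[R] B) (hf : Surjective f) :
    ψ.val (LinearMap.range f) = ψ.val B := by
  have h : LinearMap.range f = ⊤ := LinearMap.range_eq_top.2 hf
  exact ψ.iso (LinearMap.range f) B ((LinearEquiv.ofEq _ _ h).trans Submodule.topEquiv)

/-- `ψ B = ψ A + ψ C` for a short exact sequence -/
theorem eq_add_of_shortExact {A B C : Type} [AddCommGroup A] [Module R A] [AddCommGroup B]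
    [Module R B] [AddCommGroup C] [Module R C] [IsPFin p B] (f : A →ₗ[R] B) (g : B →ₗ[R] C)
    (hf : Injective f) (hg : Surjective g) (h : Exact f g) : ψ.val B = ψ.val A + ψ.val C :=
  ψ.add A B C f g hf hg h

/-- the alternating sum of an additive invariant over a six-term exact sequence vanishes -/
theorem six_term {X₁ X₂ X₃ X₄ X₅ X₆ : Type}
    [AddCommGroup X₁] [Module R X₁] [AddCommGroup X₂] [Module R X₂] [AddCommGroup X₃] [Module R X₃]
    [AddCommGroup X₄] [Module R X₄] [AddCommGroup X₅] [Module R X₅] [AddCommGroup X₆] [Module R X₆]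
    [IsPFin p X₁] [IsPFin p X₂] [IsPFin p X₃] [IsPFin p X₄] [IsPFin p X₅] [IsPFin p X₆]
    (a₁ : X₁ →ₗ[R] X₂) (a₂ : X₂ →ₗ[R] X₃) (a₃ : X₃ →ₗ[R] X₄) (a₄ : X₄ →ₗ[R] X₅)
    (a₅ : X₅ →ₗ[R] X₆) (h₁ : Injective a₁) (h₁₂ : Exact a₁ a₂) (h₂₃ : Exact a₂ a₃)
    (h₃₄ : Exact a₃ a₄) (h₄₅ : Exact a₄ a₅) (h₅ : Surjective a₅) :
    ψ.val X₁ - ψ.val X₂ + ψ.val X₃ = ψ.val X₄ - ψ.val X₅ + ψ.val X₆ := by
  have e2 := ψ.eq_add_of_exact a₁ a₂ h₁₂
  have e3 := ψ.eq_add_of_exact a₂ a₃ h₂₃
  have e4 := ψ.eq_add_of_exact a₃ a₄ h₃₄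
  have e5 := ψ.eq_add_of_exact a₄ a₅ h₄₅
  have e1 := ψ.range_eq_of_injective a₁ h₁
  have e6 := ψ.range_eq_of_surjective a₅ h₅
  omega

end AddInvariant

end Fermat.Agent.S56lib.Euler
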