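/-
S56 marathon, block "Euler characteristics" (helper1), file 6.
Toolkit: `ℤ[Γ]`-modules from actions by additive automorphisms (`Representation ℤ Γ V`), and
`ℤ[Γ]`-linear maps from additive maps commuting with the group.
-/
import Mathlib

set_option autoImplicit false

namespace Fermat.Agent.S56lib.Euler

open Function

variable {Γ : Type} [Group Γ]

/-- the integral group ring -/
abbrev ZG (Γ : Type) [Group Γ] : Type := MonoidAlgebra ℤ Γ

/-- the action of a group element on a `ℤ[Γ]`-module -/
noncomputable def gsm {V : Type} [AddCommGroup V] [Module (ZG Γ) V] (g : Γ) (v : V) : V :=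
  MonoidAlgebra.of ℤ Γ g • v

section gsm

variable {V W : Type} [AddCommGroup V] [Module (ZG Γ) V] [AddCommGroup W] [Module (ZG Γ) W]

@[simp] theorem gsm_one (v : V) : gsm (1 : Γ) v = v := by
  rw [gsm, map_one, one_smul]

theorem gsm_mul (g h : Γ) (v : V) : gsm (g * h) v = gsm g (gsm h v) := by
  rw [gsm, gsm, gsm, map_mul, mul_smul]

@[simp] theorem gsm_add (g : Γ) (v w : V) : gsm g (v + w) = gsm g v + gsm g w := smul_add _ _ _

@[simp] theorem gsm_zero (g : Γ) : gsm g (0 : V) = 0 := smul_zero _

@[simp] theorem gsm_neg (g : Γ) (v : V) : gsm g (-v) = -gsm g v := smul_neg _ _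

@[simp] theorem gsm_sub (g : Γ) (v w : V) : gsm g (v - w) = gsm g v - gsm g w := smul_sub _ _ _

@[simp] theorem gsm_inv_gsm (g : Γ) (v : V) : gsm g⁻¹ (gsm g v) = v := by
  rw [← gsm_mul, inv_mul_cancel, gsm_one]

@[simp] theorem gsm_gsm_inv (g : Γ) (v : V) : gsm g (gsm g⁻¹ v) = v := by
  rw [← gsm_mul, mul_inv_cancel, gsm_one]

theorem gsm_nsmul (g : Γ) (n : ℕ) (v : V) : gsm g (n • v) = n • gsm g v := smul_comm _ _ _

theorem gsm_zsmul (g : Γ) (n : ℤ) (v : V) : gsm g (n • v) = n • gsm g v := smul_comm _ _ _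

theorem gsm_linear (f : V →ₗ[ZG Γ] W) (g : Γ) (v : V) : f (gsm g v) = gsm g (f v) :=
  map_smul f _ _

/-- the action of `g` as an additive automorphism -/
noncomputable def gsmHom (g : Γ) : V →+ V where
  toFun := gsm g
  map_zero' := gsm_zero g
  map_add' := gsm_add g

/-- an additive map commuting with the group is `ℤ[Γ]`-linear -/
noncomputable def linOfComm (f : V →+ W) (hf : ∀ (g : Γ) (v : V), f (gsm g v) = gsm g (f v)) : V →ₗ[ZG Γ] W where
  toFun := f
  map_add' := map_add f
  map_smul' a x := by
    simp only [RingHom.id_apply]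
    induction a using MonoidAlgebra.induction_on with
    | of g => exact hf g x
    | add a b ha hb => rw [add_smul, map_add, ha, hb, add_smul]
    | smul c a ha => rw [smul_assoc, map_zsmul, ha, smul_assoc]

@[simp] theorem linOfComm_apply (f : V →+ W) (hf : ∀ (g : Γ) (v : V), f (gsm g v) = gsm g (f v)) (v : V) :
    linOfComm f hf v = f v := rfl

/-- an additive equivalence commuting with the group is a `ℤ[Γ]`-linear equivalence -/
noncomputable def equivOfComm (f : V ≃+ W) (hf : ∀ (g : Γ) (v : V), f (gsm g v) = gsm g (f v)) : V ≃ₗ[ZG Γ] W :=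
  { linOfComm f.toAddMonoidHom hf with
    invFun := f.symm
    left_inv := f.left_inv
    right_inv := f.right_inv }

@[simp] theorem equivOfComm_apply (f : V ≃+ W) (hf : ∀ (g : Γ) (v : V), f (gsm g v) = gsm g (f v)) (v : V) :
    equivOfComm f hf v = f v := rfl

end gsm

section asModule

variable {V : Type} [AddCommGroup V] (ρ : Representation ℤ Γ V)

/-- in `ρ.asModule`, the group acts through `ρ` -/
theorem gsm_asModule (g : Γ) (v : ρ.asModule) :
    gsm g v = ρ.asModuleEquiv.symm (ρ g (ρ.asModuleEquiv v)) := by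
  rw [gsm, MonoidAlgebra.of_apply, Representation.single_smul, one_smul]
  rfl

end asModule

end Fermat.Agent.S56lib.Euler
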