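/-
S56 marathon, block "Euler characteristics" (helper1), file 9.
**The Hom-module** `Hom(V, M) = (V →+ M)` of two `ℤ[Γ]`-modules with the conjugation action
`(g·F)(v) = g·F(g⁻¹·v)`; it is contravariant and exact in `V` on finite modules killed by `p`, so
`V ↦ ψ(Hom(V, M))` is again an additive invariant (`homInv`).
-/
import Mathlib
import Fermat.Agent.S56lib.Euler.AddInv
import Fermat.Agent.S56lib.Euler.RepMod

set_option autoImplicit false

namespace Fermat.Agent.S56lib.Euler

open Function

section Defs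

variable {Γ : Type} [Group Γ] (V W M : Type) [AddCommGroup V] [Module (ZG Γ) V]
  [AddCommGroup W] [Module (ZG Γ) W] [AddCommGroup M] [Module (ZG Γ) M]

/-- the conjugation action on additive maps -/
noncomputable def homRep : Representation ℤ Γ (V →+ M) where
  toFun g :=
    { toFun := fun F => (gsmHom g).comp (F.comp (gsmHom g⁻¹))
      map_add' := fun F F' => by
        ext v
        simp [gsmHom]
      map_smul' := fun n F => by
        ext v
        simp [gsmHom, gsm_zsmul] }
  map_one' := by
    ext F v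
    simp [gsmHom]
  map_mul' g h := by
    ext F v
    simp [gsmHom, gsm_mul]

/-- `Hom(V, M)` as a `ℤ[Γ]`-module -/
abbrev HomMod : Type := (homRep (Γ := Γ) V M).asModule

variable {V W M}

/-- the underlying additive map -/
noncomputable def HomMod.fn : HomMod (Γ := Γ) V M ≃+ (V →+ M) := (homRep (Γ := Γ) V M).asModuleEquiv.toAddEquiv

@[simp] theorem HomMod.fn_gsm (g : Γ) (F : HomMod (Γ := Γ) V M) (v : V) :
    HomMod.fn (gsm g F) v = gsm g (HomMod.fn F (gsm g⁻¹ v)) := by
  rw [gsm_asModule]
  rfl

theorem HomMod.ext {F F' : HomMod (Γ := Γ) V M} (h : ∀ v, HomMod.fn F v = HomMod.fn F' v) :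
    F = F' :=
  HomMod.fn.injective (AddMonoidHom.ext h)

/-- contravariant functoriality -/
noncomputable def HomMod.comap (f : V →ₗ[ZG Γ] W) : HomMod (Γ := Γ) W M →ₗ[ZG Γ] HomMod (Γ := Γ) V M :=
  linOfComm ((HomMod.fn.symm.toAddMonoidHom.comp
      (AddMonoidHom.compHom' f.toAddMonoidHom)).comp HomMod.fn.toAddMonoidHom)
    (fun g F => by
      apply HomMod.ext
      intro v
      simp [gsm_linear])

@[simp] theorem HomMod.fn_comap (f : V →ₗ[ZG Γ] W) (F : HomMod (Γ := Γ) W M) (v : V) :
    HomMod.fn (HomMod.comap f F) v = HomMod.fn F (f v) := by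
  simp [HomMod.comap]

/-- functoriality for equivalences -/
noncomputable def HomMod.comapEquiv (e : V ≃ₗ[ZG Γ] W) :
    HomMod (Γ := Γ) W M ≃ₗ[ZG Γ] HomMod (Γ := Γ) V M :=
  LinearEquiv.ofLinearMap (HomMod.comap e.toLinearMap) (HomMod.comap e.symm.toLinearMap)
    (by
      ext F
      apply HomMod.ext
      intro v
      simp)
    (by
      ext F
      apply HomMod.ext
      intro v
      simp)

end Defs

section Exact

variable {Γ : Type} [Group Γ] {V' V V'' M : Type} [AddCommGroup V'] [Module (ZG Γ) V']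
  [AddCommGroup V] [Module (ZG Γ) V] [AddCommGroup V''] [Module (ZG Γ) V'']
  [AddCommGroup M] [Module (ZG Γ) M]

theorem HomMod.comap_injective (g : V →ₗ[ZG Γ] V'') (hg : Surjective g) :
    Injective (HomMod.comap (M := M) g) := by
  intro F F' h
  apply HomMod.ext
  intro w
  obtain ⟨v, rfl⟩ := hg w
  have := congrArg (fun G => HomMod.fn G v) h
  simpa using this

theorem HomMod.comap_exact (f : V' →ₗ[ZG Γ] V) (g : V →ₗ[ZG Γ] V'') (hg : Surjective g)
    (hfg : Exact f g) : Exact (HomMod.comap (M := M) g) (HomMod.comap (M := M) f) := by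
  intro F
  constructor
  · intro hF
    have hker : g.toAddMonoidHom.ker ≤ (HomMod.fn F).ker := by
      intro v hv
      obtain ⟨v', rfl⟩ := (hfg v).1 hv
      have := congrArg (fun G => HomMod.fn G v') hF
      simpa using this
    let G₀ : V'' →+ M := g.toAddMonoidHom.liftOfRightInverse (surjInv hg)
      (rightInverse_surjInv hg) ⟨HomMod.fn F, hker⟩
    refine ⟨HomMod.fn.symm G₀, ?_⟩
    apply HomMod.ext
    intro v
    rw [HomMod.fn_comap, AddEquiv.apply_symm_apply]
    exact g.toAddMonoidHom.liftOfRightInverse_comp_apply (surjInv hg)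
      (rightInverse_surjInv hg) ⟨HomMod.fn F, hker⟩ v
  · rintro ⟨G, rfl⟩
    apply HomMod.ext
    intro v
    simp [hfg.apply_apply_eq_zero]

omit [Module (ZG Γ) V'] [Module (ZG Γ) V] in
/-- an injective additive map between groups killed by `p` has an additive retraction -/
theorem exists_additive_retraction {p : ℕ} [hp : Fact p.Prime] (f : V' →+ V) (hf : Injective f)
    (hV : ∀ v : V, p • v = 0) : ∃ r : V →+ V', ∀ v, r (f v) = v := by
  have hV' : ∀ v : V', p • v = 0 := fun v => hf (by rw [map_nsmul, hV, map_zero])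
  letI : Module (ZMod p) V := AddCommGroup.zmodModule hV
  letI : Module (ZMod p) V' := AddCommGroup.zmodModule hV'
  let fL : V' →ₗ[ZMod p] V := f.toZModLinearMap p
  obtain ⟨r, hr⟩ := fL.exists_leftInverse_of_injective (LinearMap.ker_eq_bot.2 hf)
  refine ⟨r.toAddMonoidHom, fun v => ?_⟩
  exact LinearMap.congr_fun hr v

theorem HomMod.comap_surjective {p : ℕ} [hp : Fact p.Prime] (f : V' →ₗ[ZG Γ] V) (hf : Injective f)
    (hV : ∀ v : V, p • v = 0) : Surjective (HomMod.comap (M := M) f) := by
  intro F'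
  obtain ⟨r, hr⟩ := exists_additive_retraction (p := p) f.toAddMonoidHom hf hV
  refine ⟨HomMod.fn.symm ((HomMod.fn F').comp r), ?_⟩
  apply HomMod.ext
  intro v
  rw [HomMod.fn_comap, AddEquiv.apply_symm_apply]
  exact congrArg (HomMod.fn F') (hr v)

end Exact

section HomInv

variable {Γ : Type} [Group Γ] {p : ℕ} [hp : Fact p.Prime]

instance HomMod.isPFin (V M : Type) [AddCommGroup V] [Module (ZG Γ) V] [AddCommGroup M]
    [Module (ZG Γ) M] [IsPFin p V] [IsPFin p M] : IsPFin p (HomMod (Γ := Γ) V M) where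
  finite := by
    haveI : Finite V := IsPFin.finite p
    haveI : Finite M := IsPFin.finite p
    haveI : Finite (V →+ M) := Finite.of_injective (fun F => (F : V → M)) DFunLike.coe_injective
    exact Finite.of_injective _ (HomMod.fn (Γ := Γ) (V := V) (M := M)).injective
  nsmul_eq_zero F := by
    apply HomMod.ext
    intro v
    rw [map_nsmul, AddMonoidHom.nsmul_apply, IsPFin.nsmul_eq_zero, map_zero, AddMonoidHom.zero_apply]

/-- `V ↦ ψ(Hom(V, M))` is an additive invariant -/
noncomputable def homInv (ψ : AddInvariant (ZG Γ) p) (M : Type) [AddCommGroup M] [Module (ZG Γ) M]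
    [IsPFin p M] : AddInvariant (ZG Γ) p where
  val V _ _ := ψ.val (HomMod (Γ := Γ) V M)
  iso V W _ _ _ _ _ e := by
    haveI : IsPFin p W := IsPFin.of_linearEquiv e
    exact (ψ.iso (HomMod (Γ := Γ) W M) (HomMod (Γ := Γ) V M) (HomMod.comapEquiv e)).symm
  add V' V V'' _ _ _ _ _ _ _ f g hf hg hfg := by
    haveI : IsPFin p V' := IsPFin.of_injective f.toAddMonoidHom hf
    haveI : IsPFin p V'' := IsPFin.of_surjective g.toAddMonoidHom hg
    have h := ψ.add (HomMod (Γ := Γ) V'' M) (HomMod (Γ := Γ) V M) (HomMod (Γ := Γ) V' M)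
      (HomMod.comap g) (HomMod.comap f) (HomMod.comap_injective g hg)
      (HomMod.comap_surjective f hf (IsPFin.nsmul_eq_zero (p := p))) (HomMod.comap_exact f g hg hfg)
    rw [h, add_comm]

theorem homInv_val (ψ : AddInvariant (ZG Γ) p) (M : Type) [AddCommGroup M] [Module (ZG Γ) M]
    [IsPFin p M] (V : Type) [AddCommGroup V] [Module (ZG Γ) V] :
    (homInv ψ M).val V = ψ.val (HomMod (Γ := Γ) V M) := rfl

end HomInv

end Fermat.Agent.S56lib.Euler
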