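/-
S56 marathon, block "Euler characteristics" (helper1), file 5.
**Finite-dimensional representations of a finite group over a field of characteristic `0` with equal
characters are isomorphic.**
* Part 1 (`exists_linearEquiv_of_homFinrankEq`): semisimple modules `P`, `Q` over a `k`-algebra `A`
  with `dim Hom_A(P,V) = dim Hom_A(Q,V)` for all test modules `V` are isomorphic.
* Part 2 (`Representation.exists_equiv_of_character_eq`).
-/
import Mathlib

set_option autoImplicit false

namespace Fermat.Agent.S56lib.Euler

open Function Module

section SS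

variable (k : Type) [Field k] (A : Type) [Ring A] [Algebra k A]

/-- `dim Hom_A(P,V) = dim Hom_A(Q,V)` for all finite-dimensional test modules `V` -/
def HomFinrankEq (P Q : Type) [AddCommGroup P] [Module k P] [Module A P] [IsScalarTower k A P]
    [AddCommGroup Q] [Module k Q] [Module A Q] [IsScalarTower k A Q] : Prop :=
  ∀ (V : Type) [AddCommGroup V] [Module k V] [Module A V] [IsScalarTower k A V]
    [FiniteDimensional k V], finrank k (P →ₗ[A] V) = finrank k (Q →ₗ[A] V)

variable {k A}

section

variable {P V : Type} [AddCommGroup P] [Module k P] [Module A P] [IsScalarTower k A P]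
  [AddCommGroup V] [Module k V] [Module A V] [IsScalarTower k A V]

/-- restriction of scalars on `Hom`, as a `k`-linear map -/
def homRestrict : (P →ₗ[A] V) →ₗ[k] (P →ₗ[k] V) where
  toFun f := f.restrictScalars k
  map_add' _ _ := rfl
  map_smul' _ _ := rfl

theorem homRestrict_injective : Injective (homRestrict (k := k) (A := A) (P := P) (V := V)) :=
  fun _ _ h => LinearMap.ext (fun x => LinearMap.congr_fun h x)

instance finiteDimensional_hom [FiniteDimensional k P] [FiniteDimensional k V] :
    FiniteDimensional k (P →ₗ[A] V) :=
  FiniteDimensional.of_injective homRestrict homRestrict_injective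

instance finiteDimensional_submodule [FiniteDimensional k P] (S : Submodule A P) :
    FiniteDimensional k S :=
  FiniteDimensional.of_injective (S.subtype.restrictScalars k) S.injective_subtype

end

theorem finrank_hom_prod {S P' V : Type} [AddCommGroup S] [Module k S] [Module A S]
    [IsScalarTower k A S] [AddCommGroup P'] [Module k P'] [Module A P'] [IsScalarTower k A P']
    [AddCommGroup V] [Module k V] [Module A V] [IsScalarTower k A V]
    [FiniteDimensional k S] [FiniteDimensional k P'] [FiniteDimensional k V] :
    finrank k (S × P' →ₗ[A] V) = finrank k (S →ₗ[A] V) + finrank k (P' →ₗ[A] V) := by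
  rw [← (LinearMap.coprodEquiv k (R := A) (M := S) (M₂ := P') (M₃ := V)).finrank_eq,
    Module.finrank_prod]

theorem finrank_hom_congr {P P₂ V : Type} [AddCommGroup P] [Module A P]
    [AddCommGroup P₂] [Module A P₂]
    [AddCommGroup V] [Module k V] [Module A V] [IsScalarTower k A V] (e : P ≃ₗ[A] P₂) :
    finrank k (P →ₗ[A] V) = finrank k (P₂ →ₗ[A] V) :=
  (LinearEquiv.congrLeft V k e).finrank_eq

theorem exists_linearEquiv_of_homFinrankEq_aux : ∀ (n : ℕ) (P Q : Type)
    [AddCommGroup P] [Module k P] [Module A P] [IsScalarTower k A P]
    [AddCommGroup Q] [Module k Q] [Module A Q] [IsScalarTower k A Q]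
    [FiniteDimensional k P] [FiniteDimensional k Q] [IsSemisimpleModule A P]
    [IsSemisimpleModule A Q], finrank k P ≤ n → HomFinrankEq k A P Q → Nonempty (P ≃ₗ[A] Q) := by
  intro n
  induction n with
  | zero =>
    intro P Q _ _ _ _ _ _ _ _ _ _ _ _ hn h
    have hP : Subsingleton P := Module.finrank_zero_iff.1 (Nat.le_zero.1 hn)
    have h1 := h Q
    have h2 : finrank k (P →ₗ[A] Q) = 0 := by
      haveI : Subsingleton (P →ₗ[A] Q) := ⟨fun f g => LinearMap.ext (fun x => by
        rw [Subsingleton.elim x 0, map_zero, map_zero])⟩
      exact Module.finrank_zero_of_subsingleton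
    rw [h2] at h1
    have h3 : Subsingleton (Q →ₗ[A] Q) := Module.finrank_zero_iff.1 h1.symm
    have hQ : Subsingleton Q := ⟨fun x y => by
      have := LinearMap.congr_fun (Subsingleton.elim (LinearMap.id : Q →ₗ[A] Q) 0) (x - y)
      simpa [sub_eq_zero] using this⟩
    exact ⟨LinearEquiv.ofSubsingleton P Q⟩
  | succ n ih =>
    intro P Q _ _ _ _ _ _ _ _ _ _ _ _ hn h
    by_cases hP : Subsingleton P
    · have h1 := h Q
      have h2 : finrank k (P →ₗ[A] Q) = 0 := by
        haveI : Subsingleton (P →ₗ[A] Q) := ⟨fun f g => LinearMap.ext (fun x => by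
          rw [Subsingleton.elim x 0, map_zero, map_zero])⟩
        exact Module.finrank_zero_of_subsingleton
      rw [h2] at h1
      have h3 : Subsingleton (Q →ₗ[A] Q) := Module.finrank_zero_iff.1 h1.symm
      have hQ : Subsingleton Q := ⟨fun x y => by
        have := LinearMap.congr_fun (Subsingleton.elim (LinearMap.id : Q →ₗ[A] Q) 0) (x - y)
        simpa [sub_eq_zero] using this⟩
      exact ⟨LinearEquiv.ofSubsingleton P Q⟩
    · haveI : Nontrivial P := not_subsingleton_iff_nontrivial.1 hP
      obtain ⟨S, hS⟩ := IsSemisimpleModule.exists_simple_submodule A P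
      obtain ⟨P', hP'⟩ := exists_isCompl S
      -- a nonzero map `P → S`
      haveI : Nontrivial S := IsSimpleModule.nontrivial A S
      have hproj : Submodule.projectionOnto S P' hP' ≠ 0 := by
        intro h0
        obtain ⟨s, hs⟩ := exists_ne (0 : S)
        have := Submodule.projectionOnto_apply_left hP' s
        rw [h0, LinearMap.zero_apply] at this
        exact hs this.symm
      have h1 : finrank k (P →ₗ[A] S) ≠ 0 := by
        intro h0
        have : Subsingleton (P →ₗ[A] S) := Module.finrank_zero_iff.1 h0
        exact hproj (Subsingleton.elim _ _)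
      rw [h S] at h1
      have h2 : Nontrivial (Q →ₗ[A] S) := by
        by_contra hc
        rw [not_nontrivial_iff_subsingleton] at hc
        exact h1 Module.finrank_zero_of_subsingleton
      obtain ⟨f, hf⟩ := exists_ne (0 : Q →ₗ[A] S)
      have hfs : Surjective f := by
        rw [← LinearMap.range_eq_top]
        rcases eq_bot_or_eq_top (LinearMap.range f) with h0 | h0
        · exact absurd (LinearMap.range_eq_bot.1 h0) hf
        · exact h0
      obtain ⟨Q'', hQ''⟩ := exists_isCompl (LinearMap.ker f)
      -- decompositions
      let eP : (S × P') ≃ₗ[A] P := Submodule.prodEquivOfIsCompl S P' hP'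
      let eS : S ≃ₗ[A] Q'' := (f.quotKerEquivOfSurjective hfs).symm.trans
        (Submodule.quotientEquivOfIsCompl (LinearMap.ker f) Q'' hQ'')
      let eQ : (S × LinearMap.ker f) ≃ₗ[A] Q :=
        (LinearEquiv.prodCongr eS (LinearEquiv.refl A _)).trans
          (Submodule.prodEquivOfIsCompl Q'' (LinearMap.ker f) hQ''.symm)
      -- the hypothesis for `P'`, `ker f`
      have h' : HomFinrankEq k A P' (LinearMap.ker f) := by
        intro V _ _ _ _ _
        have e1 := finrank_hom_congr (k := k) (V := V) eP
        have e2 := finrank_hom_congr (k := k) (V := V) eQ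
        rw [finrank_hom_prod] at e1 e2
        have := h V
        omega
      have hdim : finrank k P' ≤ n := by
        have e1 : finrank k (S × P') = finrank k P :=
          LinearEquiv.finrank_eq (eP.restrictScalars k)
        rw [Module.finrank_prod] at e1
        have hpos : 0 < finrank k S := Module.finrank_pos
        omega
      obtain ⟨e⟩ := ih P' (LinearMap.ker f) hdim h'
      exact ⟨eP.symm.trans ((LinearEquiv.prodCongr (LinearEquiv.refl A S) e).trans eQ)⟩

/-- **semisimple modules with the same `Hom`-dimensions into every test module are isomorphic** -/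
theorem exists_linearEquiv_of_homFinrankEq (P Q : Type)
    [AddCommGroup P] [Module k P] [Module A P] [IsScalarTower k A P]
    [AddCommGroup Q] [Module k Q] [Module A Q] [IsScalarTower k A Q]
    [FiniteDimensional k P] [FiniteDimensional k Q] [IsSemisimpleModule A P]
    [IsSemisimpleModule A Q] (h : HomFinrankEq k A P Q) : Nonempty (P ≃ₗ[A] Q) :=
  exists_linearEquiv_of_homFinrankEq_aux _ P Q le_rfl h

end SS

section Char

variable {k : Type} [Field k] {Γ : Type} [Group Γ]

/-- the representation attached to a `k[Γ]`-module with compatible `k`-structure -/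
noncomputable def repOf (V : Type) [AddCommGroup V] [Module k V] [Module (MonoidAlgebra k Γ) V]
    [IsScalarTower k (MonoidAlgebra k Γ) V] : Representation k Γ V where
  toFun g :=
    { toFun := fun v => MonoidAlgebra.of k Γ g • v
      map_add' := smul_add _
      map_smul' := fun c v => smul_comm _ _ _ }
  map_one' := by
    ext v
    show MonoidAlgebra.of k Γ 1 • v = v
    rw [map_one, one_smul]
  map_mul' g h := by
    ext v
    show MonoidAlgebra.of k Γ (g * h) • v = MonoidAlgebra.of k Γ g • MonoidAlgebra.of k Γ h • v
    rw [map_mul, mul_smul]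

@[simp] theorem repOf_apply (V : Type) [AddCommGroup V] [Module k V] [Module (MonoidAlgebra k Γ) V]
    [IsScalarTower k (MonoidAlgebra k Γ) V] (g : Γ) (v : V) :
    repOf (k := k) V g v = MonoidAlgebra.of k Γ g • v := rfl

section

variable {P V : Type} [AddCommGroup P] [Module k P] [Module (MonoidAlgebra k Γ) P]
  [IsScalarTower k (MonoidAlgebra k Γ) P] [AddCommGroup V] [Module k V]
  [Module (MonoidAlgebra k Γ) V] [IsScalarTower k (MonoidAlgebra k Γ) V]

/-- a `k`-linear map commuting with the group is `k[Γ]`-linear -/
noncomputable def linearMapOfIntertwining (φ : Representation.IntertwiningMap (repOf (k := k) (Γ := Γ) P) (repOf V)) :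
    P →ₗ[MonoidAlgebra k Γ] V where
  toFun := φ
  map_add' := map_add φ
  map_smul' a x := by
    simp only [RingHom.id_apply]
    induction a using MonoidAlgebra.induction_on with
    | of g =>
      have := Representation.IntertwiningMap.isIntertwining _ _ φ g x
      simpa using this
    | add a b ha hb => rw [add_smul, map_add, ha, hb, add_smul]
    | smul c a ha => rw [smul_assoc, map_smul, ha, smul_assoc]

/-- `Hom_{k[Γ]}(P,V)` is the space of intertwining maps -/
noncomputable def homEquivIntertwining :
    (P →ₗ[MonoidAlgebra k Γ] V) ≃ₗ[k]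
      Representation.IntertwiningMap (repOf (k := k) (Γ := Γ) P) (repOf V) where
  toFun f := ⟨f.restrictScalars k, fun g => by
    ext x
    simp⟩
  map_add' _ _ := rfl
  map_smul' _ _ := rfl
  invFun φ := linearMapOfIntertwining φ
  left_inv _ := rfl
  right_inv _ := rfl

end

variable [Fintype Γ] [CharZero k]

theorem homFinrankEq_of_character_eq (P Q : Type) [AddCommGroup P] [Module k P]
    [Module (MonoidAlgebra k Γ) P] [IsScalarTower k (MonoidAlgebra k Γ) P]
    [AddCommGroup Q] [Module k Q] [Module (MonoidAlgebra k Γ) Q]
    [IsScalarTower k (MonoidAlgebra k Γ) Q] [FiniteDimensional k P] [FiniteDimensional k Q]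
    (h : (repOf (k := k) (Γ := Γ) P).character = (repOf Q).character) :
    HomFinrankEq k (MonoidAlgebra k Γ) P Q := by
  intro V _ _ _ _ _
  haveI : Invertible (Nat.card Γ : k) :=
    invertibleOfNonzero (Nat.cast_ne_zero.2 Nat.card_pos.ne')
  have h1 := Representation.card_inv_mul_sum_char_mul_char_eq_finrank
    (repOf (k := k) (Γ := Γ) P) (repOf V)
  have h2 := Representation.card_inv_mul_sum_char_mul_char_eq_finrank
    (repOf (k := k) (Γ := Γ) Q) (repOf V)
  rw [h] at h1
  have h3 : (finrank k (Representation.IntertwiningMap (repOf (k := k) (Γ := Γ) P) (repOf V)) : k)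
      = finrank k (Representation.IntertwiningMap (repOf (k := k) (Γ := Γ) Q) (repOf V)) :=
    h1.symm.trans h2
  rw [(homEquivIntertwining (k := k) (Γ := Γ) (P := P) (V := V)).finrank_eq,
    (homEquivIntertwining (k := k) (Γ := Γ) (P := Q) (V := V)).finrank_eq]
  exact_mod_cast h3

/-- **equal characters ⇒ isomorphic** (module form) -/
theorem exists_linearEquiv_of_character_eq (P Q : Type) [AddCommGroup P] [Module k P]
    [Module (MonoidAlgebra k Γ) P] [IsScalarTower k (MonoidAlgebra k Γ) P]
    [AddCommGroup Q] [Module k Q] [Module (MonoidAlgebra k Γ) Q]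
    [IsScalarTower k (MonoidAlgebra k Γ) Q] [FiniteDimensional k P] [FiniteDimensional k Q]
    (h : (repOf (k := k) (Γ := Γ) P).character = (repOf Q).character) :
    Nonempty (P ≃ₗ[MonoidAlgebra k Γ] Q) := by
  haveI : NeZero (Nat.card Γ : k) := ⟨Nat.cast_ne_zero.2 Nat.card_pos.ne'⟩
  exact exists_linearEquiv_of_homFinrankEq P Q (homFinrankEq_of_character_eq P Q h)

/-- **equal characters ⇒ isomorphic** (representation form): a `k`-linear equivalence commuting with
the group action -/
theorem exists_equiv_of_character_eq {V W : Type} [AddCommGroup V] [Module k V]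
    [AddCommGroup W] [Module k W] [FiniteDimensional k V] [FiniteDimensional k W]
    (ρ : Representation k Γ V) (σ : Representation k Γ W) (h : ρ.character = σ.character) :
    ∃ e : V ≃ₗ[k] W, ∀ g v, e (ρ g v) = σ g (e v) := by
  have h1 : (repOf (k := k) (Γ := Γ) ρ.asModule).character = ρ.character := by
    funext g
    simp only [Representation.character]
    congr 1
    ext v
    simp only [repOf_apply, MonoidAlgebra.of_apply]
    exact (Representation.single_smul ρ 1 g v).trans (one_smul _ _)
  have h2 : (repOf (k := k) (Γ := Γ) σ.asModule).character = σ.character := by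
    funext g
    simp only [Representation.character]
    congr 1
    ext v
    simp only [repOf_apply, MonoidAlgebra.of_apply]
    exact (Representation.single_smul σ 1 g v).trans (one_smul _ _)
  obtain ⟨e⟩ := exists_linearEquiv_of_character_eq (k := k) (Γ := Γ) ρ.asModule σ.asModule
    (by rw [h1, h2, h])
  refine ⟨ρ.asModuleEquiv.symm.trans ((e.restrictScalars k).trans σ.asModuleEquiv), fun g v => ?_⟩
  have := map_smul e (MonoidAlgebra.single g (1 : k)) (ρ.asModuleEquiv.symm v)
  rw [Representation.single_smul, Representation.single_smul, one_smul, one_smul] at this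
  exact this

end Char

end Fermat.Agent.S56lib.Euler
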