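/-
S56 marathon, block "Euler characteristics" (helper1), file 7.
**Permutation modules** `A[X] = (X → A)` over `ℤ[Γ]` (`X` a `Γ`-set), their reduction mod `p`, and
Brauer–Nesbitt for them: two finite `Γ`-sets with the same fixed-point counts have
`ψ(𝔽_p[X₁]) = ψ(𝔽_p[X₂])` for every additive invariant `ψ`.
-/
import Mathlib
import Fermat.Agent.S56lib.Euler.SixTerm
import Fermat.Agent.S56lib.Euler.RepMod
import Fermat.Agent.S56lib.Euler.CharIso

set_option autoImplicit false

namespace Fermat.Agent.S56lib.Euler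

open Function

section Defs

variable {Γ : Type} [Group Γ]

/-- the permutation representation on `X → A`: `(g·u)(x) = u(g⁻¹x)` -/
def permRep (k : Type) [CommSemiring k] (A : Type) [AddCommMonoid A] [Module k A] (X : Type)
    [MulAction Γ X] : Representation k Γ (X → A) where
  toFun g := LinearMap.funLeft k A (fun x => g⁻¹ • x)
  map_one' := by
    ext u x
    simp [LinearMap.funLeft]
  map_mul' g h := by
    ext u x
    simp [LinearMap.funLeft, mul_smul]

@[simp] theorem permRep_apply (k : Type) [CommSemiring k] (A : Type) [AddCommMonoid A] [Module k A]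
    (X : Type) [MulAction Γ X] (g : Γ) (u : X → A) (x : X) :
    permRep k A X g u x = u (g⁻¹ • x) := rfl

/-- the permutation module `A[X]` over `ℤ[Γ]` -/
abbrev PermMod (Γ : Type) [Group Γ] (A : Type) [AddCommGroup A] (X : Type) [MulAction Γ X] : Type :=
  (permRep (Γ := Γ) ℤ A X).asModule

variable {A B : Type} [AddCommGroup A] [AddCommGroup B] {X : Type} [MulAction Γ X]

/-- the underlying function -/
def PermMod.fn : PermMod Γ A X ≃+ (X → A) := (permRep (Γ := Γ) ℤ A X).asModuleEquiv.toAddEquiv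

@[simp] theorem PermMod.fn_gsm (g : Γ) (u : PermMod Γ A X) (x : X) :
    PermMod.fn (gsm g u) x = PermMod.fn u (g⁻¹ • x) := by
  rw [gsm_asModule]
  rfl

theorem PermMod.ext {u v : PermMod Γ A X} (h : ∀ x, PermMod.fn u x = PermMod.fn v x) : u = v :=
  PermMod.fn.injective (funext h)

/-- functoriality in the coefficients -/
noncomputable def PermMod.mapCoeff (f : A →+ B) : PermMod Γ A X →ₗ[ZG Γ] PermMod Γ B X :=
  linOfComm ((PermMod.fn.symm.toAddMonoidHom.comp (f.compLeft X)).comp PermMod.fn.toAddMonoidHom)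
    (fun g u => by
      apply PermMod.ext
      intro x
      simp)

@[simp] theorem PermMod.fn_mapCoeff (f : A →+ B) (u : PermMod Γ A X) (x : X) :
    PermMod.fn (PermMod.mapCoeff f u) x = f (PermMod.fn u x) := by
  simp [PermMod.mapCoeff]

end Defs

section Reduction

variable {Γ : Type} [Group Γ] (p : ℕ) [hp : Fact p.Prime] (X : Type) [MulAction Γ X]

/-- reduction mod `p` -/
noncomputable def PermMod.red : PermMod Γ ℤ X →ₗ[ZG Γ] PermMod Γ (ZMod p) X :=
  PermMod.mapCoeff (Int.castAddHom (ZMod p))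

theorem PermMod.red_surjective : Surjective (PermMod.red (Γ := Γ) p X) := by
  intro v
  refine ⟨PermMod.fn.symm (fun x => (ZMod.cast (PermMod.fn v x) : ℤ)), ?_⟩
  apply PermMod.ext
  intro x
  simp [PermMod.red]

theorem PermMod.ker_red : LinearMap.ker (PermMod.red (Γ := Γ) p X) =
    LinearMap.range (mulP (ZG Γ) p (PermMod Γ ℤ X)) := by
  ext u
  rw [LinearMap.mem_ker, LinearMap.mem_range]
  constructor
  · intro h
    have h1 : ∀ x, (p : ℤ) ∣ PermMod.fn u x := by
      intro x
      have := congrArg (fun w => PermMod.fn w x) h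
      simp only [PermMod.red, PermMod.fn_mapCoeff, Int.coe_castAddHom, map_zero,
        Pi.zero_apply] at this
      exact (ZMod.intCast_zmod_eq_zero_iff_dvd _ _).1 this
    choose w hw using h1
    refine ⟨PermMod.fn.symm w, ?_⟩
    apply PermMod.ext
    intro x
    rw [mulP_apply, map_nsmul, AddEquiv.apply_symm_apply, Pi.smul_apply, hw x]
    simp
  · rintro ⟨w, rfl⟩
    apply PermMod.ext
    intro x
    simp [PermMod.red, map_nsmul]

/-- `ℤ[X]/p ≅ 𝔽_p[X]` -/
noncomputable def PermMod.cotEquiv : Cot (ZG Γ) p (PermMod Γ ℤ X) ≃ₗ[ZG Γ] PermMod Γ (ZMod p) X :=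
  (Submodule.quotEquivOfEq _ _ (PermMod.ker_red p X).symm).trans
    ((PermMod.red p X).quotKerEquivOfSurjective (PermMod.red_surjective p X))

theorem PermMod.tors_eq_bot : tors (ZG Γ) p (PermMod Γ ℤ X) = ⊥ := by
  rw [eq_bot_iff]
  intro u hu
  rw [mem_tors] at hu
  rw [Submodule.mem_bot]
  apply PermMod.ext
  intro x
  have := congrArg (fun w => PermMod.fn w x) hu
  simp only [map_nsmul, Pi.smul_apply, map_zero, Pi.zero_apply, smul_eq_mul, nsmul_eq_mul] at this
  rcases mul_eq_zero.1 this with h | h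
  · exact absurd (by exact_mod_cast h) hp.out.ne_zero
  · simpa using h

instance PermMod.finite [Finite X] (A : Type) [AddCommGroup A] [Finite A] :
    Finite (PermMod Γ A X) :=
  Finite.of_injective (PermMod.fn (Γ := Γ) (A := A) (X := X)) PermMod.fn.injective

instance PermMod.isPFin [Finite X] : IsPFin p (PermMod Γ (ZMod p) X) where
  finite := inferInstance
  nsmul_eq_zero v := by
    apply PermMod.ext
    intro x
    rw [map_nsmul, Pi.smul_apply, map_zero, Pi.zero_apply]
    simp

instance PermMod.finite_cot [Finite X] : Finite (Cot (ZG Γ) p (PermMod Γ ℤ X)) :=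
  Finite.of_injective _ (PermMod.cotEquiv (Γ := Γ) p X).injective

end Reduction

section Character

variable {Γ : Type} [Group Γ] (X : Type) [MulAction Γ X] [Fintype X]

/-- the number of fixed points of `g` on `X` -/
noncomputable def fixCard (g : Γ) : ℕ := Nat.card (MulAction.fixedBy X g)

open Classical in
theorem fixCard_eq_card_filter (g : Γ) :
    fixCard X g = (Finset.univ.filter (fun x : X => g • x = x)).card := by
  rw [fixCard, Nat.card_eq_fintype_card, Fintype.card_subtype]
  rfl

omit [Fintype X] in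
theorem fixCard_inv (g : Γ) : fixCard X g⁻¹ = fixCard X g := by
  rw [fixCard, fixCard, MulAction.fixedBy_inv]

/-- the character of the permutation representation is the number of fixed points -/
theorem character_permRep (k : Type) [Field k] (g : Γ) :
    (permRep (Γ := Γ) k k X).character g = (fixCard X g : k) := by
  classical
  rw [Representation.character, LinearMap.trace_eq_matrix_trace k (Pi.basisFun k X),
    LinearMap.toMatrix_eq_toMatrix', Matrix.trace]
  simp only [Matrix.diag_apply, LinearMap.toMatrix'_apply, permRep_apply]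
  rw [← fixCard_inv, fixCard_eq_card_filter, Finset.card_filter, Nat.cast_sum]
  apply Finset.sum_congr rfl
  intro x _
  by_cases h : g⁻¹ • x = x
  · simp [h]
  · simp [h]

end Character

section Isogeny

variable {Γ : Type} [Group Γ] [Fintype Γ] (X₁ X₂ : Type) [MulAction Γ X₁] [MulAction Γ X₂]
  [Fintype X₁] [Fintype X₂]

/-- coefficientwise cast `ℤ → ℚ` -/
def castQ (X : Type) (u : X → ℤ) : X → ℚ := fun x => (u x : ℚ)

theorem castQ_injective (X : Type) : Injective (castQ X) := fun u v h =>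
  funext fun x => by
    have := congrFun h x
    simp only [castQ] at this
    exact_mod_cast this

/-- two finite `Γ`-sets with the same fixed-point counts: an equivariant isomorphism over `ℚ` -/
theorem exists_rat_equiv (h : ∀ g : Γ, fixCard X₁ g = fixCard X₂ g) :
    ∃ e : (X₁ → ℚ) ≃ₗ[ℚ] (X₂ → ℚ), ∀ (g : Γ) u, e (permRep ℚ ℚ X₁ g u) = permRep ℚ ℚ X₂ g (e u) := by
  apply exists_equiv_of_character_eq
  funext g
  rw [character_permRep, character_permRep, h]

/-- two finite `Γ`-sets with the same fixed-point counts: an integral equivariant isogeny -/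
theorem exists_int_isogeny (h : ∀ g : Γ, fixCard X₁ g = fixCard X₂ g) :
    ∃ F : (X₁ → ℤ) →+ (X₂ → ℤ), Injective F ∧
      (∀ (g : Γ) u, F (permRep ℤ ℤ X₁ g u) = permRep ℤ ℤ X₂ g (F u)) ∧
      ∃ (b : ℤ) (e : (X₁ → ℚ) ≃ₗ[ℚ] (X₂ → ℚ)), b ≠ 0 ∧ ∀ u, castQ X₂ (F u) = b • e (castQ X₁ u) := by
  classical
  obtain ⟨e, he⟩ := exists_rat_equiv X₁ X₂ h
  obtain ⟨b, hb⟩ := IsLocalization.exist_integer_multiples_of_finite (nonZeroDivisors ℤ)
    (fun xy : X₁ × X₂ => e (Pi.single xy.1 1) xy.2)
  have hb0 : (b : ℤ) ≠ 0 := nonZeroDivisors.coe_ne_zero b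
  choose z hz using hb
  have hz' : ∀ x y, (z (x, y) : ℚ) = (b : ℤ) * e (Pi.single x 1) y := by
    intro x y
    have := hz (x, y)
    simpa [Algebra.smul_def] using this
  -- the integral map
  let F : (X₁ → ℤ) →+ (X₂ → ℤ) :=
    { toFun := fun u y => ∑ x, u x * z (x, y)
      map_zero' := by
        funext y
        simp
      map_add' := fun u v => by
        funext y
        simp [add_mul, Finset.sum_add_distrib] }
  have hF : ∀ u, castQ X₂ (F u) = (b : ℤ) • e (castQ X₁ u) := by
    intro u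
    funext y
    have h1 : castQ X₁ u = ∑ x, (u x : ℚ) • (Pi.single x (1 : ℚ) : X₁ → ℚ) := by
      funext x'
      simp [castQ, Finset.sum_apply, Pi.single_apply]
    rw [h1, map_sum]
    simp only [castQ, F, AddMonoidHom.coe_mk, ZeroHom.coe_mk, map_smul, Pi.smul_apply,
      Finset.sum_apply, smul_eq_mul, zsmul_eq_mul, Int.cast_sum, Int.cast_mul, hz',
      Finset.mul_sum]
    apply Finset.sum_congr rfl
    intro x _
    ring
  refine ⟨F, ?_, ?_, b, e, hb0, hF⟩
  · intro u v huv
    apply castQ_injective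
    have h1 := hF u
    have h2 := hF v
    rw [huv, h2] at h1
    have h3 : e (castQ X₁ v) = e (castQ X₁ u) := smul_right_injective _ hb0 h1
    exact (e.injective h3).symm
  · intro g u
    apply castQ_injective
    have hc : ∀ (X : Type) [MulAction Γ X] (w : X → ℤ),
        castQ X (permRep ℤ ℤ X g w) = permRep ℚ ℚ X g (castQ X w) := fun _ _ _ => rfl
    rw [hF, hc, he, hc, hF, map_zsmul]

/-- the isogeny as a `ℤ[Γ]`-linear map with finite cokernel -/
theorem exists_permMod_isogeny (h : ∀ g : Γ, fixCard X₁ g = fixCard X₂ g) :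
    ∃ f : PermMod Γ ℤ X₁ →ₗ[ZG Γ] PermMod Γ ℤ X₂, Injective f ∧
      Finite (PermMod Γ ℤ X₂ ⧸ LinearMap.range f) := by
  obtain ⟨F, hFinj, hFeq, b, e, hb, hFe⟩ := exists_int_isogeny X₁ X₂ h
  let f : PermMod Γ ℤ X₁ →ₗ[ZG Γ] PermMod Γ ℤ X₂ :=
    linOfComm ((PermMod.fn.symm.toAddMonoidHom.comp F).comp PermMod.fn.toAddMonoidHom)
      (fun g u => by
        rw [gsm_asModule, gsm_asModule]
        show PermMod.fn.symm (F (permRep ℤ ℤ X₁ g (PermMod.fn u)))
          = PermMod.fn.symm (permRep ℤ ℤ X₂ g (F (PermMod.fn u)))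
        rw [hFeq])
  have hf : Injective f := by
    intro u v huv
    apply PermMod.fn.injective
    apply hFinj
    exact PermMod.fn.symm.injective huv
  refine ⟨f, hf, ?_⟩
  -- ranks
  have hcard : Fintype.card X₁ = Fintype.card X₂ := by
    have := e.finrank_eq
    simpa using this
  let eP : PermMod Γ ℤ X₁ ≃ₗ[ℤ] (X₁ → ℤ) := (permRep (Γ := Γ) ℤ ℤ X₁).asModuleEquiv
  let eQ : PermMod Γ ℤ X₂ ≃ₗ[ℤ] (X₂ → ℤ) := (permRep (Γ := Γ) ℤ ℤ X₂).asModuleEquiv
  haveI : Module.Free ℤ (PermMod Γ ℤ X₂) := Module.Free.of_equiv eQ.symm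
  haveI : Module.Finite ℤ (PermMod Γ ℤ X₂) := Module.Finite.equiv eQ.symm
  let N : Submodule ℤ (PermMod Γ ℤ X₂) := (LinearMap.range f).restrictScalars ℤ
  have hN : Module.finrank ℤ N = Module.finrank ℤ (PermMod Γ ℤ X₂) := by
    have h1 : Module.finrank ℤ N = Module.finrank ℤ (PermMod Γ ℤ X₁) :=
      (LinearEquiv.ofInjective (f.restrictScalars ℤ) hf).finrank_eq.symm
    rw [h1, eP.finrank_eq, eQ.finrank_eq, Module.finrank_pi, Module.finrank_pi, hcard]
  haveI : Finite (PermMod Γ ℤ X₂ ⧸ N) := Submodule.finiteQuotientOfFreeOfRankEq N hN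
  exact Finite.of_equiv _ (Submodule.Quotient.restrictScalarsEquiv ℤ (LinearMap.range f)).toEquiv

/-- **Brauer–Nesbitt for permutation modules**: equal fixed-point counts ⇒ equal invariants of the
reductions mod `p`. -/
theorem perm_bn {p : ℕ} [hp : Fact p.Prime] (ψ : AddInvariant (ZG Γ) p)
    (h : ∀ g : Γ, fixCard X₁ g = fixCard X₂ g) :
    ψ.val (PermMod Γ (ZMod p) X₁) = ψ.val (PermMod Γ (ZMod p) X₂) := by
  obtain ⟨f, hf, hfin⟩ := exists_permMod_isogeny X₁ X₂ h
  have h1 := bn_lattice ψ f hf (PermMod.tors_eq_bot p X₁) (PermMod.tors_eq_bot p X₂)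
  rw [ψ.iso _ _ (PermMod.cotEquiv (Γ := Γ) p X₁).symm, ψ.iso _ _ (PermMod.cotEquiv (Γ := Γ) p X₂).symm]
  exact h1

end Isogeny

end Fermat.Agent.S56lib.Euler
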