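/-
S56 marathon, block "Euler characteristics" (helper1), file 11.
**Twisted function modules** `Tw(X, M) = (X → M)` with `(g·u)(x) = g·u(g⁻¹x)` (`X` a `Γ`-set, `M` a
`ℤ[Γ]`-module); `Hom(𝔽_p[X], M) ≅ Tw(X, M)` for `pM = 0`; `Tw(pt, M) ≅ M`.
-/
import Mathlib
import Fermat.Agent.S56lib.Euler.Perm
import Fermat.Agent.S56lib.Euler.HomMod

set_option autoImplicit false

namespace Fermat.Agent.S56lib.Euler

open Function

section Defs

variable (Γ : Type) [Group Γ] (X : Type) [MulAction Γ X] (M : Type) [AddCommGroup M]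
  [Module (ZG Γ) M]

/-- the twisted action on functions -/
noncomputable def twRep : Representation ℤ Γ (X → M) where
  toFun g :=
    { toFun := fun u x => gsm g (u (g⁻¹ • x))
      map_add' := fun u v => by
        funext x
        simp
      map_smul' := fun n u => by
        funext x
        simp [gsm_zsmul] }
  map_one' := by
    ext u x
    simp
  map_mul' g h := by
    ext u x
    simp [gsm_mul, mul_smul]

/-- `Tw(X, M)` -/
abbrev TwMod : Type := (twRep Γ X M).asModule

variable {Γ X M}

/-- the underlying function -/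
noncomputable def TwMod.fn : TwMod Γ X M ≃+ (X → M) := (twRep Γ X M).asModuleEquiv.toAddEquiv

@[simp] theorem TwMod.fn_gsm (g : Γ) (u : TwMod Γ X M) (x : X) :
    TwMod.fn (gsm g u) x = gsm g (TwMod.fn u (g⁻¹ • x)) := by
  rw [gsm_asModule]
  rfl

theorem TwMod.ext {u v : TwMod Γ X M} (h : ∀ x, TwMod.fn u x = TwMod.fn v x) : u = v :=
  TwMod.fn.injective (funext h)

end Defs

section HomPerm

variable {Γ : Type} [Group Γ] {X : Type} [MulAction Γ X] [Fintype X] [DecidableEq X]
  {M : Type} [AddCommGroup M] [Module (ZG Γ) M] {p : ℕ} [hp : Fact p.Prime]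

/-- the basis function `δ_x` of `𝔽_p[X]` -/
noncomputable def PermMod.delta (x : X) : PermMod Γ (ZMod p) X :=
  PermMod.fn.symm (Pi.single x 1)

theorem PermMod.gsm_delta (g : Γ) (x : X) :
    gsm g (PermMod.delta (Γ := Γ) (p := p) x) = PermMod.delta (g • x) := by
  apply PermMod.ext
  intro y
  rw [PermMod.fn_gsm]
  simp only [PermMod.delta, AddEquiv.apply_symm_apply, Pi.single_apply]
  by_cases h : y = g • x
  · subst h
    simp
  · rw [if_neg h, if_neg]
    intro h'
    apply h
    rw [← h', smul_inv_smul]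

/-- evaluation on the basis: `Hom(𝔽_p[X], M) → Tw(X, M)` -/
noncomputable def homPermMap : HomMod (Γ := Γ) (PermMod Γ (ZMod p) X) M →ₗ[ZG Γ] TwMod Γ X M :=
  linOfComm ((TwMod.fn.symm.toAddMonoidHom.comp
      ({ toFun := fun F x => F (PermMod.delta x), map_zero' := rfl, map_add' := fun _ _ => rfl } :
        (PermMod Γ (ZMod p) X →+ M) →+ (X → M))).comp HomMod.fn.toAddMonoidHom)
    (fun g F => by
      apply TwMod.ext
      intro x
      simp [PermMod.gsm_delta])

@[simp] theorem fn_homPermMap (F : HomMod (Γ := Γ) (PermMod Γ (ZMod p) X) M) (x : X) :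
    TwMod.fn (homPermMap F) x = HomMod.fn F (PermMod.delta x) := by
  simp [homPermMap]

omit [MulAction Γ X] [Module (ZG Γ) M] in
/-- additive maps out of `X → ZMod p` into a group killed by `p` are determined by, and can be
prescribed on, the basis functions -/
theorem exists_unique_addHom_pi (hM : ∀ m : M, p • m = 0) (u : X → M) :
    ∃! F : (X → ZMod p) →+ M, ∀ x, F (Pi.single x 1) = u x := by
  letI : Module (ZMod p) M := AddCommGroup.zmodModule hM
  refine ⟨((Pi.basisFun (ZMod p) X).constr ℤ u).toAddMonoidHom, fun x => ?_, fun F hF => ?_⟩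
  · have := (Pi.basisFun (ZMod p) X).constr_basis ℤ u x
    rwa [Pi.basisFun_apply] at this
  · have h1 : F.toZModLinearMap p = (Pi.basisFun (ZMod p) X).constr ℤ u := by
      apply (Pi.basisFun (ZMod p) X).ext
      intro x
      rw [(Pi.basisFun (ZMod p) X).constr_basis ℤ u x, Pi.basisFun_apply]
      exact hF x
    apply AddMonoidHom.ext
    intro w
    exact LinearMap.congr_fun h1 w

theorem homPermMap_bijective (hM : ∀ m : M, p • m = 0) :
    Bijective (homPermMap (Γ := Γ) (X := X) (M := M) (p := p)) := by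
  constructor
  · intro F F' h
    apply HomMod.fn.injective
    have h1 : ∀ x, HomMod.fn F (PermMod.delta x) = HomMod.fn F' (PermMod.delta x) := by
      intro x
      have := congrArg (fun w => TwMod.fn w x) h
      simpa using this
    obtain ⟨G, _, hG⟩ := exists_unique_addHom_pi (p := p) hM
      (fun x => HomMod.fn F (PermMod.delta (Γ := Γ) x))
    have e1 := hG ((HomMod.fn F).comp
      (PermMod.fn (Γ := Γ) (A := ZMod p) (X := X)).symm.toAddMonoidHom) (fun x => rfl)
    have e2 := hG ((HomMod.fn F').comp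
      (PermMod.fn (Γ := Γ) (A := ZMod p) (X := X)).symm.toAddMonoidHom) (fun x => (h1 x).symm)
    apply AddMonoidHom.ext
    intro w
    have := DFunLike.congr_fun (e1.trans e2.symm) (PermMod.fn w)
    simpa using this
  · intro u
    obtain ⟨G, hG, _⟩ := exists_unique_addHom_pi (p := p) hM (TwMod.fn u)
    refine ⟨HomMod.fn.symm (G.comp
      (PermMod.fn (Γ := Γ) (A := ZMod p) (X := X)).toAddMonoidHom), ?_⟩
    apply TwMod.ext
    intro x
    rw [fn_homPermMap, AddEquiv.apply_symm_apply]
    simpa [PermMod.delta] using hG x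

/-- `Hom(𝔽_p[X], M) ≅ Tw(X, M)` -/
noncomputable def homPermEquiv (hM : ∀ m : M, p • m = 0) :
    HomMod (Γ := Γ) (PermMod Γ (ZMod p) X) M ≃ₗ[ZG Γ] TwMod Γ X M :=
  LinearEquiv.ofBijective homPermMap (homPermMap_bijective hM)

end HomPerm

section Point

variable {Γ : Type} [Group Γ] {X : Type} [MulAction Γ X] [Unique X]
  {M : Type} [AddCommGroup M] [Module (ZG Γ) M]

/-- `Tw(pt, M) ≅ M` -/
noncomputable def twPointEquiv : TwMod Γ X M ≃ₗ[ZG Γ] M :=
  equivOfComm
    { toFun := fun u => TwMod.fn u default
      invFun := fun m => TwMod.fn.symm (fun _ => m)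
      left_inv := fun u => by
        apply TwMod.ext
        intro x
        rw [AddEquiv.apply_symm_apply, Subsingleton.elim x default]
      right_inv := fun m => by simp
      map_add' := fun u v => by simp }
    (fun g u => by
      show TwMod.fn (gsm g u) default = gsm g (TwMod.fn u default)
      rw [TwMod.fn_gsm, Subsingleton.elim (g⁻¹ • (default : X)) default])

end Point

section Fin

variable {Γ : Type} [Group Γ] {X : Type} [MulAction Γ X] [Finite X]
  {M : Type} [AddCommGroup M] [Module (ZG Γ) M] {p : ℕ}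

instance TwMod.isPFin [IsPFin p M] : IsPFin p (TwMod Γ X M) where
  finite := by
    haveI : Finite M := IsPFin.finite p
    exact Finite.of_injective _ (TwMod.fn (Γ := Γ) (X := X) (M := M)).injective
  nsmul_eq_zero u := by
    apply TwMod.ext
    intro x
    rw [map_nsmul, Pi.smul_apply, IsPFin.nsmul_eq_zero, map_zero, Pi.zero_apply]

end Fin

end Fermat.Agent.S56lib.Euler
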