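/-
S56 marathon, block "Euler characteristics" (helper1), file 19.
**Projective presentations over `𝔽_p[Γ]`.**  `Q₁ = 𝔽_p[Γ]` (regular permutation module) is free on `e₁ = δ_1`
among `ℤ[Γ]`-modules killed by `p`; a `Pres p P` exhibits `P` as a retract of `Q₁^d`.  For such `P`:
`Hom_{ℤ[Γ]}(P, −)` is exact on modules killed by `p`, so `H ↦ dim Hom_{ℤ[Γ]}(P, H)` is an additive invariant
(`homCov`).
-/
import Mathlib
import Fermat.Agent.S56lib.Euler.TwMod
import Fermat.Agent.S56lib.Euler.Nilp

set_option autoImplicit false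
set_option linter.unusedSectionVars false

noncomputable section

namespace Fermat.Agent.S56lib.Euler

open Function

/-- a finite group killed by `p` is `(ℤ/p)^d` -/
lemma exists_addEquiv_pi {p : ℕ} [hp : Fact p.Prime] {N : Type} [AddCommGroup N] [IsPFin p N] :
    ∃ d : ℕ, Nonempty (N ≃+ (Fin d → ZMod p)) := by
  haveI : Finite N := IsPFin.finite p
  let inst : Module (ZMod p) N := AddCommGroup.zmodModule (IsPFin.nsmul_eq_zero (p := p))
  have hfin : @Module.Finite (ZMod p) N _ _ inst := @Module.Finite.of_finite (ZMod p) N _ _ inst _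
  have hfree : @Module.Free (ZMod p) N _ _ inst := @Module.Free.of_divisionRing (ZMod p) N _ _ inst
  have b := @Module.finBasis (ZMod p) N _ _ inst hfree _ hfin
  exact ⟨@Module.finrank (ZMod p) N _ _ inst,
    ⟨(@Module.Basis.equivFun _ (ZMod p) N _ _ inst _ b).toAddEquiv⟩⟩

variable {Γ : Type} [Group Γ] [Fintype Γ] [DecidableEq Γ] (p : ℕ) [hp : Fact p.Prime]

/-- the regular module `𝔽_p[Γ]` -/
abbrev Reg (Γ : Type) [Group Γ] (p : ℕ) : Type := PermMod Γ (ZMod p) Γ

/-- the generator `δ_1` -/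
def Reg.e : Reg Γ p := PermMod.delta (Γ := Γ) (p := p) (1 : Γ)

lemma Reg.gsm_e (δ : Γ) : gsm δ (Reg.e (Γ := Γ) p) = PermMod.delta (Γ := Γ) (p := p) δ := by
  unfold Reg.e
  rw [PermMod.gsm_delta, smul_eq_mul, mul_one]

section Free

variable {H : Type} [AddCommGroup H] [Module (ZG Γ) H] (hH : ∀ h : H, p • h = 0)
include hH

/-- an additive map out of `𝔽_p[Γ]` is determined by its values on the `δ_γ` -/
lemma Reg.addHom_ext {F F' : Reg Γ p →+ H}
    (h : ∀ δ : Γ, F (PermMod.delta (Γ := Γ) (p := p) δ) = F' (PermMod.delta (Γ := Γ) (p := p) δ)) :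
    F = F' := by
  obtain ⟨G, _, hG⟩ := exists_unique_addHom_pi (p := p) hH
    (fun δ : Γ => F (PermMod.delta (Γ := Γ) (p := p) δ))
  have e1 := hG (F.comp (PermMod.fn (Γ := Γ) (A := ZMod p) (X := Γ)).symm.toAddMonoidHom)
    (fun x => rfl)
  have e2 := hG (F'.comp (PermMod.fn (Γ := Γ) (A := ZMod p) (X := Γ)).symm.toAddMonoidHom)
    (fun x => (h x).symm)
  apply AddMonoidHom.ext
  intro w
  have := DFunLike.congr_fun (e1.trans e2.symm) (PermMod.fn w)
  simpa using this

/-- `𝔽_p[Γ]` is free on `e₁` among `ℤ[Γ]`-modules killed by `p` -/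
theorem Reg.eval_bijective : Bijective (fun lam : Reg Γ p →ₗ[ZG Γ] H => lam (Reg.e p)) := by
  constructor
  · intro lam lam' h
    have h' : lam (Reg.e p) = lam' (Reg.e p) := h
    have : lam.toAddMonoidHom = lam'.toAddMonoidHom := by
      apply Reg.addHom_ext p hH
      intro δ
      show lam (PermMod.delta δ) = lam' (PermMod.delta δ)
      rw [← Reg.gsm_e, gsm_linear, gsm_linear, h']
    apply LinearMap.ext
    intro w
    exact DFunLike.congr_fun this w
  · intro h
    obtain ⟨F, hF, _⟩ := exists_unique_addHom_pi (p := p) hH (fun δ : Γ => gsm δ h)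
    let F' : Reg Γ p →+ H := F.comp (PermMod.fn (Γ := Γ) (A := ZMod p) (X := Γ)).toAddMonoidHom
    have hF' : ∀ δ : Γ, F' (PermMod.delta (Γ := Γ) (p := p) δ) = gsm δ h := fun δ => by
      show F (PermMod.fn (PermMod.delta δ)) = _
      simpa [PermMod.delta] using hF δ
    refine ⟨linOfComm F' (fun γ w => ?_), ?_⟩
    · -- compare the two additive maps `w ↦ F'(γ w)` and `w ↦ γ F'(w)`
      have : F'.comp (gsmHom γ) = (gsmHom γ).comp F' := by
        apply Reg.addHom_ext p hH
        intro δ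
        show F' (gsm γ (PermMod.delta δ)) = gsm γ (F' (PermMod.delta δ))
        rw [PermMod.gsm_delta, hF', hF', smul_eq_mul, gsm_mul]
      exact DFunLike.congr_fun this w
    · show F' (Reg.e p) = h
      unfold Reg.e
      rw [hF', gsm_one]

end Free

/-- a presentation of `P` as a retract of a finite free `𝔽_p[Γ]`-module -/
structure Pres (P : Type) [AddCommGroup P] [Module (ZG Γ) P] where
  /-- the rank of the free module -/
  d : ℕ
  /-- the inclusion -/
  i : P →ₗ[ZG Γ] (Fin d → Reg Γ p)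
  /-- the retraction -/
  r : (Fin d → Reg Γ p) →ₗ[ZG Γ] P
  hri : ∀ x, r (i x) = x

section Lift

variable {p} {P : Type} [AddCommGroup P] [Module (ZG Γ) P] (𝔭 : Pres (Γ := Γ) p P)
  {H H' : Type} [AddCommGroup H] [Module (ZG Γ) H] [AddCommGroup H'] [Module (ZG Γ) H']

/-- two linear maps out of `Q₁^d` into a module killed by `p` agreeing on the basis are equal -/
lemma pi_reg_ext (hH : ∀ h : H, p • h = 0) {d : ℕ} {lam lam' : (Fin d → Reg Γ p) →ₗ[ZG Γ] H}
    (h : ∀ j, lam (Pi.single j (Reg.e p)) = lam' (Pi.single j (Reg.e p))) : lam = lam' := by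
  apply LinearMap.pi_ext'
  intro j
  apply (Reg.eval_bijective p hH).1
  exact h j

/-- linear maps out of `Q₁^d` with prescribed values on the basis -/
lemma exists_pi_reg (hH : ∀ h : H, p • h = 0) {d : ℕ} (v : Fin d → H) :
    ∃ lam : (Fin d → Reg Γ p) →ₗ[ZG Γ] H, ∀ j, lam (Pi.single j (Reg.e p)) = v j := by
  choose l hl using fun j : Fin d => (Reg.eval_bijective (Γ := Γ) p hH).2 (v j)
  refine ⟨∑ j, (l j).comp (LinearMap.proj j), fun j => ?_⟩
  rw [LinearMap.sum_apply, Finset.sum_eq_single j]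
  · show l j ((Pi.single j (Reg.e p) : Fin d → Reg Γ p) j) = v j
    rw [Pi.single_eq_same]
    exact hl j
  · intro k _ hk
    show l k ((Pi.single j (Reg.e p) : Fin d → Reg Γ p) k) = 0
    rw [Pi.single_eq_of_ne hk, map_zero]
  · intro hj
    exact absurd (Finset.mem_univ j) hj

include 𝔭 in
/-- the lifting property -/
theorem Pres.lift (hH : ∀ h : H, p • h = 0) (g : H →ₗ[ZG Γ] H') (hg : Surjective g)
    (lam : P →ₗ[ZG Γ] H') : ∃ lam' : P →ₗ[ZG Γ] H, g.comp lam' = lam := by
  have hH' : ∀ h : H', p • h = 0 := fun h => by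
    obtain ⟨x, rfl⟩ := hg h
    rw [← map_nsmul, hH, map_zero]
  choose v hv using fun j : Fin 𝔭.d => hg (lam (𝔭.r (Pi.single j (Reg.e p))))
  obtain ⟨L, hL⟩ := exists_pi_reg (Γ := Γ) hH v
  refine ⟨L.comp 𝔭.i, ?_⟩
  have h1 : g.comp L = lam.comp 𝔭.r := by
    apply pi_reg_ext hH'
    intro j
    show g (L (Pi.single j (Reg.e p))) = lam (𝔭.r (Pi.single j (Reg.e p)))
    rw [hL, hv]
  apply LinearMap.ext
  intro x
  show g (L (𝔭.i x)) = lam x
  have := LinearMap.congr_fun h1 (𝔭.i x)
  rw [LinearMap.comp_apply, LinearMap.comp_apply, 𝔭.hri] at this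
  exact this

end Lift

/-! ### The invariant `H ↦ dim Hom_{ℤ[Γ]}(P, H)` -/

section HomCov

variable {p} {P : Type} [AddCommGroup P] [Module (ZG Γ) P]
  {V V' V'' : Type} [AddCommGroup V] [Module (ZG Γ) V] [AddCommGroup V'] [Module (ZG Γ) V']
  [AddCommGroup V''] [Module (ZG Γ) V'']

/-- post-composition -/
def postcomp (P : Type) [AddCommGroup P] [Module (ZG Γ) P] (f : V' →ₗ[ZG Γ] V) :
    (P →ₗ[ZG Γ] V') →ₗ[ℤ] (P →ₗ[ZG Γ] V) :=
  ({ toFun := fun lam => f.comp lam
     map_zero' := LinearMap.comp_zero f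
     map_add' := fun lam lam' => LinearMap.comp_add lam lam' f } :
    (P →ₗ[ZG Γ] V') →+ (P →ₗ[ZG Γ] V)).toIntLinearMap

@[simp] lemma postcomp_apply (f : V' →ₗ[ZG Γ] V) (lam : P →ₗ[ZG Γ] V') (x : P) :
    postcomp P f lam x = f (lam x) := rfl

lemma postcomp_injective (f : V' →ₗ[ZG Γ] V) (hf : Injective f) : Injective (postcomp P f) := by
  intro lam lam' h
  apply LinearMap.ext
  intro x
  exact hf (LinearMap.congr_fun h x)

lemma postcomp_exact (f : V' →ₗ[ZG Γ] V) (g : V →ₗ[ZG Γ] V'') (hf : Injective f) (hfg : Exact f g) :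
    Exact (postcomp P f) (postcomp P g) := by
  intro lam
  constructor
  · intro h
    have h1 : ∀ x, lam x ∈ LinearMap.range f := fun x =>
      (hfg (lam x)).1 (LinearMap.congr_fun h x)
    refine ⟨(LinearEquiv.ofInjective f hf).symm.toLinearMap.comp
      (lam.codRestrict (LinearMap.range f) h1), ?_⟩
    apply LinearMap.ext
    intro x
    show f ((LinearEquiv.ofInjective f hf).symm ⟨lam x, h1 x⟩) = lam x
    exact congrArg Subtype.val ((LinearEquiv.ofInjective f hf).apply_symm_apply ⟨lam x, h1 x⟩)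
  · rintro ⟨lam', rfl⟩
    apply LinearMap.ext
    intro x
    exact hfg.apply_apply_eq_zero (lam' x)

lemma finite_linearMap [Finite P] [Finite V] : Finite (P →ₗ[ZG Γ] V) :=
  Finite.of_injective (fun lam => (lam : P → V)) DFunLike.coe_injective

variable [Finite P] (𝔭 : Pres (Γ := Γ) p P)

/-- `H ↦ dim_{𝔽_p} Hom_{ℤ[Γ]}(P, H)`, an additive invariant when `P` is a retract of a free module -/
def homCov : AddInvariant (ZG Γ) p where
  val H _ _ := (padicValNat p (Nat.card (P →ₗ[ZG Γ] H)) : ℤ)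
  iso V W _ _ _ _ _ e := by
    have : (P →ₗ[ZG Γ] V) ≃ (P →ₗ[ZG Γ] W) :=
      { toFun := fun lam => e.toLinearMap.comp lam
        invFun := fun lam => e.symm.toLinearMap.comp lam
        left_inv := fun lam => by
          apply LinearMap.ext
          intro x
          exact e.symm_apply_apply _
        right_inv := fun lam => by
          apply LinearMap.ext
          intro x
          exact e.apply_symm_apply _ }
    rw [Nat.card_congr this]
  add V' V V'' _ _ _ _ _ _ _ f g hf hg hfg := by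
    haveI : Finite V := IsPFin.finite p
    haveI : Finite V' := Finite.of_injective f hf
    haveI : Finite V'' := Finite.of_surjective g hg
    haveI := finite_linearMap (Γ := Γ) (P := P) (V := V)
    haveI := finite_linearMap (Γ := Γ) (P := P) (V := V')
    haveI := finite_linearMap (Γ := Γ) (P := P) (V := V'')
    have hs : Surjective (postcomp P g) := by
      intro lam
      obtain ⟨lam', h⟩ := 𝔭.lift (IsPFin.nsmul_eq_zero (p := p)) g hg lam
      exact ⟨lam', h⟩
    rw [card_eq_mul_of_exact (postcomp P f) (postcomp P g) (postcomp_injective f hf) hs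
      (postcomp_exact f g hf hfg), padicValNat.mul Nat.card_pos.ne' Nat.card_pos.ne']
    push_cast
    rfl

lemma homCov_val (H : Type) [AddCommGroup H] [Module (ZG Γ) H] :
    (homCov 𝔭).val H = (padicValNat p (Nat.card (P →ₗ[ZG Γ] H)) : ℤ) := rfl

end HomCov

/-! ### `Tw(Γ/C, N)` is a retract of a free module when `p ∤ |C|` -/

/-- the sum over a coset -/
def cosetSum {Γ : Type} [Group Γ] (C : Subgroup Γ) [Fintype C] {N : Type} [AddCommMonoid N]
    (v : Γ → N) (γ : Γ) : N := ∑ c : C, v (γ * c)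

lemma cosetSum_eq_of_mk_eq {Γ : Type} [Group Γ] (C : Subgroup Γ) [Fintype C] {N : Type}
    [AddCommMonoid N] (v : Γ → N) {γ γ' : Γ} (h : (γ : Γ ⧸ C) = γ') :
    cosetSum C v γ = cosetSum C v γ' := by
  have hc : γ⁻¹ * γ' ∈ C := QuotientGroup.eq.1 h
  unfold cosetSum
  refine Fintype.sum_equiv (Equiv.mulLeft (⟨γ⁻¹ * γ', hc⟩ : C)⁻¹) _ _ (fun c => ?_)
  congr 1
  show γ * c = γ' * ((⟨γ⁻¹ * γ', hc⟩ : C)⁻¹ * c : C)
  push_cast
  group

section TwPres

variable {p} {N : Type} [AddCommGroup N] [Module (ZG Γ) N]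

/-- untwisting: `Tw(Γ, N) ≅ N[Γ]` -/
def untwist : TwMod Γ Γ N ≃ₗ[ZG Γ] PermMod Γ N Γ :=
  equivOfComm
    { toFun := fun u => PermMod.fn.symm (fun x => gsm x⁻¹ (TwMod.fn u x))
      invFun := fun w => TwMod.fn.symm (fun x => gsm x (PermMod.fn w x))
      left_inv := fun u => by
        apply TwMod.ext
        intro x
        simp
      right_inv := fun w => by
        apply PermMod.ext
        intro x
        simp
      map_add' := fun u v => by
        apply PermMod.ext
        intro x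
        simp }
    (fun g u => by
      apply PermMod.ext
      intro x
      show PermMod.fn (PermMod.fn.symm (fun x => gsm x⁻¹ (TwMod.fn (gsm g u) x))) x =
        PermMod.fn (gsm g (PermMod.fn.symm (fun x => gsm x⁻¹ (TwMod.fn u x)))) x
      rw [PermMod.fn_gsm, AddEquiv.apply_symm_apply, AddEquiv.apply_symm_apply, TwMod.fn_gsm,
        ← gsm_mul, smul_eq_mul, mul_inv_rev, inv_inv])

/-- `(A^d)[X] ≅ (A[X])^d` -/
def permPiEquiv (d : ℕ) (A : Type) [AddCommGroup A] (X : Type) [MulAction Γ X] :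
    PermMod Γ (Fin d → A) X ≃ₗ[ZG Γ] (Fin d → PermMod Γ A X) :=
  equivOfComm
    { toFun := fun w j => PermMod.fn.symm (fun x => PermMod.fn w x j)
      invFun := fun v => PermMod.fn.symm (fun x j => PermMod.fn (v j) x)
      left_inv := fun w => by
        apply PermMod.ext
        intro x
        funext j
        simp
      right_inv := fun v => by
        funext j
        apply PermMod.ext
        intro x
        simp
      map_add' := fun w w' => by
        funext j
        apply PermMod.ext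
        intro x
        simp }
    (fun g w => by
      funext j
      apply PermMod.ext
      intro x
      show PermMod.fn (PermMod.fn.symm (fun x => PermMod.fn (gsm g w) x j)) x =
        PermMod.fn (gsm g (PermMod.fn.symm (fun x => PermMod.fn w x j))) x
      rw [PermMod.fn_gsm, AddEquiv.apply_symm_apply, AddEquiv.apply_symm_apply, PermMod.fn_gsm])

/-- functoriality of `A[X]` in additive equivalences -/
def PermMod.congrCoeff {A B : Type} [AddCommGroup A] [AddCommGroup B] (X : Type) [MulAction Γ X]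
    (e : A ≃+ B) : PermMod Γ A X ≃ₗ[ZG Γ] PermMod Γ B X :=
  LinearEquiv.ofLinearMap (PermMod.mapCoeff e.toAddMonoidHom) (PermMod.mapCoeff e.symm.toAddMonoidHom)
    (by
      apply LinearMap.ext
      intro w
      apply PermMod.ext
      intro x
      simp)
    (by
      apply LinearMap.ext
      intro w
      apply PermMod.ext
      intro x
      simp)

/-- `Tw(Γ, N)` is free -/
lemma exists_tw_free [IsPFin p N] :
    ∃ d : ℕ, Nonempty (TwMod Γ Γ N ≃ₗ[ZG Γ] (Fin d → Reg Γ p)) := by
  obtain ⟨d, ⟨e⟩⟩ := exists_addEquiv_pi (p := p) (N := N)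
  exact ⟨d, ⟨(untwist.trans (PermMod.congrCoeff Γ e)).trans (permPiEquiv d (ZMod p) Γ)⟩⟩

lemma gsm_sum {ι : Type} (s : Finset ι) (g : Γ) (f : ι → N) :
    gsm g (∑ i ∈ s, f i) = ∑ i ∈ s, gsm g (f i) :=
  map_sum (gsmHom (V := N) g) f s

variable (C : Subgroup Γ) [Fintype C]

/-- pull-back along `Γ → Γ/C` -/
def twPull : TwMod Γ (Γ ⧸ C) N →ₗ[ZG Γ] TwMod Γ Γ N :=
  linOfComm
    { toFun := fun u => TwMod.fn.symm (fun γ => TwMod.fn u (γ : Γ ⧸ C))
      map_zero' := by
        apply TwMod.ext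
        intro x
        simp
      map_add' := fun u v => by
        apply TwMod.ext
        intro x
        simp }
    (fun g u => by
      apply TwMod.ext
      intro x
      show TwMod.fn (Γ := Γ) (X := Γ) (M := N)
          ((TwMod.fn (Γ := Γ) (X := Γ) (M := N)).symm (fun γ => TwMod.fn (gsm g u) (γ : Γ ⧸ C))) x =
        TwMod.fn (Γ := Γ) (X := Γ) (M := N)
          (gsm g ((TwMod.fn (Γ := Γ) (X := Γ) (M := N)).symm (fun γ => TwMod.fn u (γ : Γ ⧸ C)))) x
      rw [TwMod.fn_gsm, AddEquiv.apply_symm_apply, AddEquiv.apply_symm_apply, TwMod.fn_gsm]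
      rfl)

@[simp] lemma fn_twPull (u : TwMod Γ (Γ ⧸ C) N) (γ : Γ) :
    TwMod.fn (Γ := Γ) (X := Γ) (M := N) (twPull C u) γ =
      TwMod.fn (Γ := Γ) (X := Γ ⧸ C) (M := N) u (γ : Γ ⧸ C) := by
  simp [twPull]

/-- averaging over the cosets of `C` (with `m·|C| ≡ 1 mod p`) -/
def twAvg (m : ℕ) : TwMod Γ Γ N →ₗ[ZG Γ] TwMod Γ (Γ ⧸ C) N :=
  linOfComm
    { toFun := fun v => TwMod.fn.symm (fun q => m • cosetSum C (TwMod.fn v) q.out)
      map_zero' := by
        apply TwMod.ext
        intro q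
        simp [cosetSum]
      map_add' := fun v v' => by
        apply TwMod.ext
        intro q
        simp [cosetSum, Finset.sum_add_distrib] }
    (fun g v => by
      apply TwMod.ext
      intro q
      show TwMod.fn (TwMod.fn.symm (fun q => m • cosetSum C (TwMod.fn (gsm g v)) q.out)) q =
        TwMod.fn (gsm g (TwMod.fn.symm (fun q => m • cosetSum C (TwMod.fn v) q.out))) q
      rw [TwMod.fn_gsm, AddEquiv.apply_symm_apply, AddEquiv.apply_symm_apply, gsm_nsmul]
      congr 1
      have h1 : cosetSum C (TwMod.fn v) (g⁻¹ • q).out = cosetSum C (TwMod.fn v) (g⁻¹ * q.out) := by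
        apply cosetSum_eq_of_mk_eq
        rw [QuotientGroup.out_eq']
        show g⁻¹ • q = ((g⁻¹ * q.out : Γ) : Γ ⧸ C)
        conv_lhs => rw [← QuotientGroup.out_eq' q]
        rfl
      rw [h1]
      unfold cosetSum
      rw [gsm_sum]
      refine Finset.sum_congr rfl fun c _ => ?_
      rw [TwMod.fn_gsm, smul_eq_mul, mul_assoc])

lemma twAvg_twPull [IsPFin p N] (m : ℕ) (hm : m * Nat.card C ≡ 1 [MOD p]) (u : TwMod Γ (Γ ⧸ C) N) :
    twAvg C m (twPull C u) = u := by
  apply TwMod.ext
  intro q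
  show TwMod.fn (TwMod.fn.symm (fun q => m • cosetSum C (TwMod.fn (twPull C u)) q.out)) q = _
  rw [AddEquiv.apply_symm_apply]
  unfold cosetSum
  have h1 : ∀ c : C, TwMod.fn (twPull C u) (q.out * c) = TwMod.fn u q := fun c => by
    rw [fn_twPull]
    congr 1
    rw [QuotientGroup.mk_mul_of_mem _ c.2, QuotientGroup.out_eq']
  rw [Finset.sum_congr rfl fun c _ => h1 c, Finset.sum_const, Finset.card_univ, ← mul_smul,
    ← Nat.card_eq_fintype_card]
  -- `m·|C| ≡ 1` and `p` kills `N`
  obtain ⟨k, hk⟩ : ∃ k, m * Nat.card C = 1 + p * k ∨ 1 = m * Nat.card C + p * k := by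
    rcases Nat.le_total 1 (m * Nat.card C) with h | h
    · obtain ⟨k, hk⟩ := (Nat.modEq_iff_dvd' h).1 hm.symm
      exact ⟨k, Or.inl (by omega)⟩
    · obtain ⟨k, hk⟩ := (Nat.modEq_iff_dvd' h).1 hm
      exact ⟨k, Or.inr (by omega)⟩
  have hp0 : ∀ n : N, p • n = 0 := IsPFin.nsmul_eq_zero (p := p)
  rcases hk with hk | hk
  · rw [hk, add_smul, one_smul, mul_smul, hp0, add_zero]
  · have := congrArg (fun t : ℕ => t • TwMod.fn u q) hk
    simp only [one_smul, add_smul] at this
    rw [mul_smul p k, hp0, add_zero] at this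
    exact this.symm

omit [Fintype C] in
/-- **`Tw(Γ/C, N)` is a retract of a free module when `p ∤ |C|`** -/
theorem exists_pres_tw [IsPFin p N] (hC : (Nat.card C).Coprime p) :
    Nonempty (Pres (Γ := Γ) p (TwMod Γ (Γ ⧸ C) N)) := by
  classical
  letI : Fintype C := Fintype.ofFinite C
  obtain ⟨d, ⟨e⟩⟩ := exists_tw_free (Γ := Γ) (p := p) (N := N)
  -- an inverse of `|C|` mod `p`
  obtain ⟨m, hm⟩ : ∃ m : ℕ, m * Nat.card C ≡ 1 [MOD p] := by
    obtain ⟨m, -, hm⟩ := Nat.exists_mul_mod_eq_one_of_coprime hC hp.out.one_lt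
    refine ⟨m, ?_⟩
    rw [mul_comm]
    show (Nat.card C * m) % p = 1 % p
    rw [hm, Nat.mod_eq_of_lt hp.out.one_lt]
  exact ⟨{ d := d
           i := e.toLinearMap.comp (twPull C)
           r := (twAvg C m).comp e.symm.toLinearMap
           hri := fun x => by
             show twAvg C m (e.symm (e (twPull C x))) = x
             rw [e.symm_apply_apply, twAvg_twPull C m hm] }⟩

end TwPres

end Fermat.Agent.S56lib.Euler
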