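/-
S56 marathon, block "Euler characteristics" (helper1), file 24.
**The linear term of the Euler characteristic formula.**  For a subgroup `C ≤ Γ` of order prime to `p` and
a group `Z` of order `p`: `invHom C N Z = Hom(N, Z)^C` (the `C`-invariant additive maps),
`ellC C Z : AddInvariant (ZG Γ) p`, `N ↦ dim Hom(N, Z)^C`, and Frobenius reciprocity
`Hom_{ℤ[Γ]}(P, 𝔽_p[Γ/C]) ≃ Hom(P, 𝔽_p)^C` (`frobRec`), whence `ellC_val_eq_homCov`.
-/
import Fermat.Agent.S56lib.Euler.Proj

set_option autoImplicit false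
set_option linter.unusedSectionVars false

noncomputable section

namespace Fermat.Agent.S56lib.Euler

open Function

variable {Γ : Type} [Group Γ] (C : Subgroup Γ)

section InvHom

variable (N : Type) [AddCommGroup N] [Module (ZG Γ) N] (Z : Type) [AddCommGroup Z]

/-- the `C`-invariant additive maps `N → Z` -/
def invHom : AddSubgroup (N →+ Z) where
  carrier := {φ | ∀ c ∈ C, ∀ x, φ (gsm c x) = φ x}
  zero_mem' := fun _ _ _ => rfl
  add_mem' := fun {a b} ha hb c hc x => by
    rw [AddMonoidHom.add_apply, AddMonoidHom.add_apply, ha c hc, hb c hc]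
  neg_mem' := fun {a} ha c hc x => by
    rw [AddMonoidHom.neg_apply, AddMonoidHom.neg_apply, ha c hc]

variable {N Z}

lemma mem_invHom {φ : N →+ Z} : φ ∈ invHom C N Z ↔ ∀ c ∈ C, ∀ x, φ (gsm c x) = φ x := Iff.rfl

variable {N' N'' : Type} [AddCommGroup N'] [Module (ZG Γ) N'] [AddCommGroup N'']
  [Module (ZG Γ) N'']

/-- contravariant functoriality -/
def invHom.comap (Z : Type) [AddCommGroup Z] (h : N' →ₗ[ZG Γ] N) :
    invHom C N Z →ₗ[ℤ] invHom C N' Z :=
  ({ toFun := fun φ => ⟨φ.1.comp h.toAddMonoidHom, fun c hc x => by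
        show φ.1 (h (gsm c x)) = φ.1 (h x)
        rw [gsm_linear]
        exact φ.2 c hc (h x)⟩
     map_zero' := rfl
     map_add' := fun _ _ => rfl } : invHom C N Z →+ invHom C N' Z).toIntLinearMap

@[simp] lemma invHom.comap_apply (h : N' →ₗ[ZG Γ] N) (φ : invHom C N Z) (x : N') :
    (invHom.comap C Z h φ).1 x = φ.1 (h x) := rfl

lemma invHom.comap_injective (g : N →ₗ[ZG Γ] N'') (hg : Surjective g) :
    Injective (invHom.comap C Z g) := by
  intro φ φ' h
  apply Subtype.ext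
  apply DFunLike.ext
  intro y
  obtain ⟨x, rfl⟩ := hg y
  exact DFunLike.congr_fun (congrArg Subtype.val h) x

lemma invHom.comap_exact (f : N' →ₗ[ZG Γ] N) (g : N →ₗ[ZG Γ] N'') (hg : Surjective g)
    (hfg : Exact f g) : Exact (invHom.comap C Z g) (invHom.comap C Z f) := by
  intro φ
  constructor
  · intro h
    have hker : g.toAddMonoidHom.ker ≤ φ.1.ker := by
      intro x hx
      obtain ⟨y, rfl⟩ := (hfg x).1 hx
      exact DFunLike.congr_fun (congrArg Subtype.val h) y
    let φ'' : N'' →+ Z := g.toAddMonoidHom.liftOfRightInverse (surjInv hg) (rightInverse_surjInv hg)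
      ⟨φ.1, hker⟩
    have hφ'' : ∀ x, φ'' (g x) = φ.1 x := fun x =>
      AddMonoidHom.liftOfRightInverse_comp_apply g.toAddMonoidHom (surjInv hg)
        (rightInverse_surjInv hg) ⟨φ.1, hker⟩ x
    refine ⟨⟨φ'', fun c hc y => ?_⟩, ?_⟩
    · obtain ⟨x, rfl⟩ := hg y
      rw [← gsm_linear, hφ'', hφ'']
      exact φ.2 c hc x
    · apply Subtype.ext
      apply DFunLike.ext
      intro x
      exact hφ'' x
  · rintro ⟨φ'', rfl⟩
    apply Subtype.ext
    apply DFunLike.ext
    intro x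
    show φ''.1 (g (f x)) = 0
    rw [hfg.apply_apply_eq_zero, map_zero]

variable [Fintype C] {p : ℕ} [hp : Fact p.Prime]

lemma invHom.comap_surjective (f : N' →ₗ[ZG Γ] N) (hf : Injective f) (hN : ∀ v : N, p • v = 0)
    (hZ : ∀ z : Z, p • z = 0) (hC : (Nat.card C).Coprime p) : Surjective (invHom.comap C Z f) := by
  intro φ'
  obtain ⟨r, hr⟩ := exists_additive_retraction (p := p) f.toAddMonoidHom hf hN
  obtain ⟨m, hm⟩ : ∃ m : ℕ, m * Nat.card C ≡ 1 [MOD p] := by
    obtain ⟨m, -, hm⟩ := Nat.exists_mul_mod_eq_one_of_coprime hC hp.out.one_lt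
    refine ⟨m, ?_⟩
    rw [mul_comm]
    show (Nat.card C * m) % p = 1 % p
    rw [hm, Nat.mod_eq_of_lt hp.out.one_lt]
  -- the average of `φ' ∘ r`
  let φ₀ : N →+ Z := φ'.1.comp r
  let φ : N →+ Z := m • ∑ c : C, φ₀.comp (gsmHom (c : Γ))
  have hφ : ∀ x, φ x = m • ∑ c : C, φ₀ (gsm (c : Γ) x) := fun x => by
    show (m • ∑ c : C, φ₀.comp (gsmHom (c : Γ))) x = _
    rw [AddMonoidHom.smul_apply, AddMonoidHom.finsetSum_apply]
    rfl
  refine ⟨⟨φ, fun c hc x => ?_⟩, ?_⟩
  · rw [hφ, hφ]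
    congr 1
    refine Fintype.sum_equiv (Equiv.mulRight (⟨c, hc⟩ : C)) _ _ fun c' => ?_
    show φ₀ (gsm (c' : Γ) (gsm c x)) = φ₀ (gsm ((c' * ⟨c, hc⟩ : C) : Γ) x)
    rw [← gsm_mul]
    rfl
  · apply Subtype.ext
    apply DFunLike.ext
    intro x
    show φ (f x) = φ'.1 x
    rw [hφ]
    have h1 : ∀ c : C, φ₀ (gsm (c : Γ) (f x)) = φ'.1 x := fun c => by
      show φ'.1 (r (gsm (c : Γ) (f x))) = φ'.1 x
      rw [← gsm_linear, show r (f (gsm (c : Γ) x)) = gsm (c : Γ) x from hr _]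
      exact φ'.2 c c.2 x
    rw [Finset.sum_congr rfl fun c _ => h1 c, Finset.sum_const, Finset.card_univ, ← mul_smul,
      ← Nat.card_eq_fintype_card]
    obtain ⟨k, hk⟩ : ∃ k, m * Nat.card C = 1 + p * k ∨ 1 = m * Nat.card C + p * k := by
      rcases Nat.le_total 1 (m * Nat.card C) with h | h
      · obtain ⟨k, hk⟩ := (Nat.modEq_iff_dvd' h).1 hm.symm
        exact ⟨k, Or.inl (by omega)⟩
      · obtain ⟨k, hk⟩ := (Nat.modEq_iff_dvd' h).1 hm
        exact ⟨k, Or.inr (by omega)⟩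
    rcases hk with hk | hk
    · rw [hk, add_smul, one_smul, mul_smul, hZ, add_zero]
    · have := congrArg (fun t : ℕ => t • φ'.1 x) hk
      simp only [one_smul, add_smul] at this
      rw [mul_smul p k, hZ, add_zero] at this
      exact this.symm

end InvHom

section Ell

variable (Z : Type) [AddCommGroup Z] [Finite Z] [Fintype C] {p : ℕ} [hp : Fact p.Prime]
  (hZ : ∀ z : Z, p • z = 0) (hC : (Nat.card C).Coprime p)

lemma invHom.finite (N : Type) [AddCommGroup N] [Module (ZG Γ) N] [Finite N] :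
    Finite (invHom C N Z) :=
  Finite.of_injective (fun φ : invHom C N Z => (φ.1 : N → Z))
    (fun _ _ h => Subtype.ext (DFunLike.coe_injective h))

/-- `N ↦ dim Hom(N, Z)^C` -/
def ellC : AddInvariant (ZG Γ) p where
  val N _ _ := (padicValNat p (Nat.card (invHom C N Z)) : ℤ)
  iso V W _ _ _ _ _ e := by
    have : invHom C V Z ≃ invHom C W Z :=
      { toFun := invHom.comap C Z e.symm.toLinearMap
        invFun := invHom.comap C Z e.toLinearMap
        left_inv := fun φ => by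
          apply Subtype.ext
          apply DFunLike.ext
          intro x
          show φ.1 (e.symm (e x)) = φ.1 x
          rw [e.symm_apply_apply]
        right_inv := fun φ => by
          apply Subtype.ext
          apply DFunLike.ext
          intro x
          show φ.1 (e (e.symm x)) = φ.1 x
          rw [e.apply_symm_apply] }
    rw [Nat.card_congr this]
  add V' V V'' _ _ _ _ _ _ _ f g hf hg hfg := by
    haveI : Finite V := IsPFin.finite p
    haveI : Finite V' := Finite.of_injective f hf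
    haveI : Finite V'' := Finite.of_surjective g hg
    haveI := invHom.finite C Z V
    haveI := invHom.finite C Z V'
    haveI := invHom.finite C Z V''
    rw [card_eq_mul_of_exact (invHom.comap C Z g) (invHom.comap C Z f)
      (invHom.comap_injective C g hg)
      (invHom.comap_surjective C f hf (IsPFin.nsmul_eq_zero (p := p)) hZ hC)
      (invHom.comap_exact C f g hg hfg), padicValNat.mul Nat.card_pos.ne' Nat.card_pos.ne']
    push_cast
    ring

lemma ellC_val (N : Type) [AddCommGroup N] [Module (ZG Γ) N] :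
    (ellC C Z hZ hC).val N = (padicValNat p (Nat.card (invHom C N Z)) : ℤ) := rfl

end Ell

/-! ### Frobenius reciprocity -/

section Frob

variable {p : ℕ} {P : Type} [AddCommGroup P] [Module (ZG Γ) P]

/-- the function on `Γ/C` attached to a `C`-invariant map -/
def frobFun (φ : invHom C P (ZMod p)) (x : P) : Γ ⧸ C → ZMod p :=
  fun q => Quotient.liftOn' q (fun γ => φ.1 (gsm γ⁻¹ x)) (fun γ₁ γ₂ h => by
    have h' : γ₁⁻¹ * γ₂ ∈ C := QuotientGroup.leftRel_apply.1 h
    show φ.1 (gsm γ₁⁻¹ x) = φ.1 (gsm γ₂⁻¹ x)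
    have e : gsm γ₁⁻¹ x = gsm (γ₁⁻¹ * γ₂) (gsm γ₂⁻¹ x) := by
      rw [← gsm_mul, mul_assoc, mul_inv_cancel, mul_one]
    rw [e]
    exact φ.2 _ h' _)

@[simp] lemma frobFun_mk (φ : invHom C P (ZMod p)) (x : P) (γ : Γ) :
    frobFun C φ x (γ : Γ ⧸ C) = φ.1 (gsm γ⁻¹ x) := rfl

/-- **Frobenius reciprocity** `Hom_{ℤ[Γ]}(P, 𝔽_p[Γ/C]) ≃ Hom(P, 𝔽_p)^C` -/
def frobRec : (P →ₗ[ZG Γ] PermMod Γ (ZMod p) (Γ ⧸ C)) ≃ invHom C P (ZMod p) where
  toFun lam := ⟨{ toFun := fun x => PermMod.fn (lam x) ((1 : Γ) : Γ ⧸ C)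
                  map_zero' := by rw [map_zero, map_zero]; rfl
                  map_add' := fun x y => by rw [map_add, map_add]; rfl }, fun c hc x => by
    show PermMod.fn (lam (gsm c x)) ((1 : Γ) : Γ ⧸ C) = PermMod.fn (lam x) ((1 : Γ) : Γ ⧸ C)
    rw [gsm_linear, PermMod.fn_gsm]
    have e : c⁻¹ • ((1 : Γ) : Γ ⧸ C) = ((1 : Γ) : Γ ⧸ C) := by
      show ((c⁻¹ * 1 : Γ) : Γ ⧸ C) = ((1 : Γ) : Γ ⧸ C)
      rw [QuotientGroup.eq]
      simpa using hc
    rw [e]⟩
  invFun φ := linOfComm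
    { toFun := fun x => PermMod.fn.symm (frobFun C φ x)
      map_zero' := by
        apply PermMod.ext
        intro q
        obtain ⟨γ, rfl⟩ := QuotientGroup.mk_surjective q
        rw [AddEquiv.apply_symm_apply, frobFun_mk, gsm_zero, map_zero, map_zero]
        rfl
      map_add' := fun x y => by
        apply PermMod.ext
        intro q
        obtain ⟨γ, rfl⟩ := QuotientGroup.mk_surjective q
        rw [map_add, AddEquiv.apply_symm_apply, AddEquiv.apply_symm_apply,
          AddEquiv.apply_symm_apply, Pi.add_apply, frobFun_mk, frobFun_mk, frobFun_mk, gsm_add,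
          map_add] }
    (fun δ x => by
      apply PermMod.ext
      intro q
      obtain ⟨γ, rfl⟩ := QuotientGroup.mk_surjective q
      show PermMod.fn (PermMod.fn.symm (frobFun C φ (gsm δ x))) (γ : Γ ⧸ C) =
        PermMod.fn (gsm δ (PermMod.fn.symm (frobFun C φ x))) (γ : Γ ⧸ C)
      rw [PermMod.fn_gsm, AddEquiv.apply_symm_apply, AddEquiv.apply_symm_apply, frobFun_mk]
      show φ.1 (gsm γ⁻¹ (gsm δ x)) = frobFun C φ x ((δ⁻¹ * γ : Γ) : Γ ⧸ C)
      rw [frobFun_mk, ← gsm_mul, mul_inv_rev, inv_inv])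
  left_inv lam := by
    apply LinearMap.ext
    intro x
    apply PermMod.ext
    intro q
    obtain ⟨γ, rfl⟩ := QuotientGroup.mk_surjective q
    show PermMod.fn (PermMod.fn.symm (frobFun C _ x)) (γ : Γ ⧸ C) = _
    rw [AddEquiv.apply_symm_apply, frobFun_mk]
    show PermMod.fn (lam (gsm γ⁻¹ x)) ((1 : Γ) : Γ ⧸ C) = PermMod.fn (lam x) (γ : Γ ⧸ C)
    rw [gsm_linear, PermMod.fn_gsm, inv_inv]
    have e : γ • ((1 : Γ) : Γ ⧸ C) = (γ : Γ ⧸ C) := by
      show ((γ * 1 : Γ) : Γ ⧸ C) = (γ : Γ ⧸ C)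
      rw [mul_one]
    rw [e]
  right_inv φ := by
    apply Subtype.ext
    apply DFunLike.ext
    intro x
    show PermMod.fn (PermMod.fn.symm (frobFun C φ x)) ((1 : Γ) : Γ ⧸ C) = φ.1 x
    rw [AddEquiv.apply_symm_apply, frobFun_mk, inv_one, gsm_one]

/-- change of the value group -/
def invHom.congrRight {Z Z' : Type} [AddCommGroup Z] [AddCommGroup Z'] (e : Z ≃+ Z') :
    invHom C P Z ≃ invHom C P Z' where
  toFun φ := ⟨e.toAddMonoidHom.comp φ.1, fun c hc x => congrArg e (φ.2 c hc x)⟩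
  invFun φ := ⟨e.symm.toAddMonoidHom.comp φ.1, fun c hc x => congrArg e.symm (φ.2 c hc x)⟩
  left_inv φ := by
    apply Subtype.ext
    apply DFunLike.ext
    intro x
    exact e.symm_apply_apply _
  right_inv φ := by
    apply Subtype.ext
    apply DFunLike.ext
    intro x
    exact e.apply_symm_apply _

/-- `|Hom_{ℤ[Γ]}(P, 𝔽_p[Γ/C])| = |Hom(P, Z)^C|` for `Z ≅ ℤ/p` -/
theorem card_linearMap_permMod {Z : Type} [AddCommGroup Z] (e : Z ≃+ ZMod p) :
    Nat.card (P →ₗ[ZG Γ] PermMod Γ (ZMod p) (Γ ⧸ C)) = Nat.card (invHom C P Z) :=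
  Nat.card_congr ((frobRec C).trans (invHom.congrRight C e).symm)

end Frob

end Fermat.Agent.S56lib.Euler
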