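/-
S56 marathon, block "Euler characteristics" (helper1), file 4.
**Artin's induction theorem for the trivial character**, elementary form: for a finite group `Γ`
there are integers `c C` (`C` running over the cyclic subgroups) with
`∑_C c C · #Fix_g(Γ/C) = |Γ|` for every `g : Γ`.
-/
import Mathlib

set_option autoImplicit false

namespace Fermat.Agent.S56lib.Euler

open Function Finset

section

variable {Γ : Type} [Group Γ]

/-- the permutation character of `Γ/C` -/
noncomputable def fixCount (C : Subgroup Γ) (g : Γ) : ℕ := Nat.card (MulAction.fixedBy (Γ ⧸ C) g)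

theorem smul_mk_eq_iff (C : Subgroup Γ) (g x : Γ) :
    g • (QuotientGroup.mk x : Γ ⧸ C) = QuotientGroup.mk x ↔ x⁻¹ * g * x ∈ C := by
  rw [MulAction.Quotient.smul_mk, eq_comm, QuotientGroup.eq, smul_eq_mul, mul_assoc]

/-- `{x | x⁻¹ g x ∈ C} ≃ Fix_g(Γ/C) × C` -/
noncomputable def conjFixEquiv (C : Subgroup Γ) (g : Γ) :
    {x : Γ // x⁻¹ * g * x ∈ C} ≃ MulAction.fixedBy (Γ ⧸ C) g × C where
  toFun x := (⟨QuotientGroup.mk x.1, (smul_mk_eq_iff C g x.1).2 x.2⟩,
    ⟨(Quotient.out (QuotientGroup.mk x.1 : Γ ⧸ C))⁻¹ * x.1,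
      QuotientGroup.eq.1 (QuotientGroup.out_eq' _)⟩)
  invFun yc := ⟨Quotient.out yc.1.1 * yc.2.1, by
    rw [← smul_mk_eq_iff]
    have h : (QuotientGroup.mk (Quotient.out yc.1.1 * yc.2.1) : Γ ⧸ C) = yc.1.1 := by
      rw [QuotientGroup.mk_mul_of_mem _ yc.2.2, QuotientGroup.out_eq']
    rw [h]
    exact yc.1.2⟩
  left_inv x := by
    apply Subtype.ext
    simp
  right_inv yc := by
    have h : (QuotientGroup.mk (Quotient.out yc.1.1 * yc.2.1) : Γ ⧸ C) = yc.1.1 := by
      rw [QuotientGroup.mk_mul_of_mem _ yc.2.2, QuotientGroup.out_eq']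
    apply Prod.ext
    · apply Subtype.ext
      exact h
    · apply Subtype.ext
      simp only
      rw [h, inv_mul_cancel_left]

theorem card_conj_eq (C : Subgroup Γ) (g : Γ) :
    Nat.card {x : Γ // x⁻¹ * g * x ∈ C} = fixCount C g * Nat.card C := by
  rw [Nat.card_congr (conjFixEquiv C g), Nat.card_prod]
  rfl

end

section Fin

variable {Γ : Type} [Group Γ] [Fintype Γ]

open Classical in
/-- the elements conjugating `g` into `C` -/
noncomputable def conjSet (C : Subgroup Γ) (g : Γ) : Finset Γ :=
  univ.filter (fun x => x⁻¹ * g * x ∈ C)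

open Classical in
/-- the elements `x` with `⟨x⁻¹ g x⟩ = B` -/
noncomputable def genSet (B : Subgroup Γ) (g : Γ) : Finset Γ :=
  univ.filter (fun x => Subgroup.zpowers (x⁻¹ * g * x) = B)

theorem card_conjSet (C : Subgroup Γ) (g : Γ) :
    (conjSet C g).card = fixCount C g * Nat.card C := by
  classical
  rw [← card_conj_eq, Nat.card_eq_fintype_card, Fintype.card_subtype]
  rfl

open Classical in
theorem card_conjSet_eq_sum (C : Subgroup Γ) (g : Γ) :
    (conjSet C g).card = ∑ B ∈ univ.filter (fun B : Subgroup Γ => B ≤ C), (genSet B g).card := by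
  rw [Finset.card_eq_sum_card_fiberwise (f := fun x => Subgroup.zpowers (x⁻¹ * g * x))
    (s := conjSet C g) (t := univ.filter (fun B : Subgroup Γ => B ≤ C))]
  · apply Finset.sum_congr rfl
    intro B hB
    rw [mem_filter] at hB
    congr 1
    ext x
    simp only [conjSet, genSet, mem_filter, mem_univ, true_and]
    constructor
    · exact fun h => h.2
    · intro h
      refine ⟨?_, h⟩
      apply hB.2
      rw [← h]
      exact Subgroup.mem_zpowers _
  · intro x hx
    have hx' : x⁻¹ * g * x ∈ C := by simpa [conjSet] using hx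
    simp only [coe_filter, mem_univ, true_and, Set.mem_ofPred_eq]
    exact (Subgroup.zpowers_le).2 hx'

open Classical in
theorem sum_card_genSet (g : Γ) : ∑ B : Subgroup Γ, (genSet B g).card = Fintype.card Γ := by
  have h := Finset.card_eq_sum_card_fiberwise (f := fun x => Subgroup.zpowers (x⁻¹ * g * x))
    (s := (univ : Finset Γ)) (t := (univ : Finset (Subgroup Γ))) (fun _ _ => by simp)
  rw [Finset.card_univ] at h
  rw [h]
  rfl

theorem genSet_eq_empty_of_not_isCyclic (B : Subgroup Γ) (hB : ¬ IsCyclic B) (g : Γ) :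
    genSet B g = ∅ := by
  classical
  rw [genSet, Finset.filter_eq_empty_iff]
  intro x _ h
  apply hB
  rw [← h]
  infer_instance

/-- the permutation character as an integer-valued function -/
noncomputable def piFun (C : Subgroup Γ) : Γ → ℤ := fun g => (fixCount C g : ℤ)

/-- `Θ_B` as an integer-valued function -/
noncomputable def thetaFun (B : Subgroup Γ) : Γ → ℤ := fun g => ((genSet B g).card : ℤ)

/-- the `ℤ`-span of the permutation characters of the `Γ/C`, `C` cyclic -/
noncomputable def artinSpan (Γ : Type) [Group Γ] [Fintype Γ] : Submodule ℤ (Γ → ℤ) :=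
  Submodule.span ℤ (Set.range (fun C : {C : Subgroup Γ // IsCyclic C} => piFun C.1))

open Classical in
theorem card_smul_piFun (C : Subgroup Γ) :
    (Nat.card C : ℤ) • piFun C = ∑ B ∈ univ.filter (fun B : Subgroup Γ => B ≤ C), thetaFun B := by
  funext g
  rw [Finset.sum_apply]
  simp only [Pi.smul_apply, piFun, thetaFun, smul_eq_mul]
  rw [← Nat.cast_sum, ← card_conjSet_eq_sum, card_conjSet]
  push_cast
  ring

theorem thetaFun_mem_artinSpan : ∀ (n : ℕ) (B : Subgroup Γ), IsCyclic B → Nat.card B ≤ n →
    thetaFun B ∈ artinSpan Γ := by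
  classical
  intro n
  induction n with
  | zero =>
    intro B _ h
    have := Nat.card_pos (α := B)
    omega
  | succ n ih =>
    intro B hB hn
    have h := card_smul_piFun B
    have hsplit : univ.filter (fun B' : Subgroup Γ => B' ≤ B)
        = insert B (univ.filter (fun B' : Subgroup Γ => B' < B)) := by
      ext B'
      simp only [mem_filter, mem_univ, true_and, mem_insert]
      exact le_iff_eq_or_lt
    rw [hsplit, Finset.sum_insert (by simp)] at h
    have h2 : thetaFun B = (Nat.card B : ℤ) • piFun B
        - ∑ B' ∈ univ.filter (fun B' : Subgroup Γ => B' < B), thetaFun B' := by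
      rw [h]; abel
    rw [h2]
    apply Submodule.sub_mem
    · apply Submodule.smul_mem
      exact Submodule.subset_span ⟨⟨B, hB⟩, rfl⟩
    · apply Submodule.sum_mem
      intro B' hB'
      rw [mem_filter] at hB'
      have hlt : B' < B := hB'.2
      haveI := hB
      apply ih B' (Subgroup.isCyclic_of_le hlt.le)
      have hc : Nat.card B' < Nat.card B := by
        rw [← SetLike.coe_sort_coe, ← SetLike.coe_sort_coe B, Nat.card_coe_set_eq,
          Nat.card_coe_set_eq]
        exact Set.ncard_lt_ncard (SetLike.coe_ssubset_coe.2 hlt) (Set.toFinite _)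
      omega

/-- the constant function `|Γ|` is an integral combination of the permutation characters of the
`Γ/C`, `C` cyclic -/
theorem const_mem_artinSpan : (fun _ : Γ => (Fintype.card Γ : ℤ)) ∈ artinSpan Γ := by
  classical
  have h : (fun _ : Γ => (Fintype.card Γ : ℤ)) = ∑ B : Subgroup Γ, thetaFun B := by
    funext g
    rw [Finset.sum_apply]
    simp only [thetaFun]
    rw [← Nat.cast_sum, sum_card_genSet]
  rw [h]
  apply Submodule.sum_mem
  intro B _
  by_cases hB : IsCyclic B
  · exact thetaFun_mem_artinSpan _ B hB le_rfl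
  · have : thetaFun B = 0 := by
      funext g
      simp [thetaFun, genSet_eq_empty_of_not_isCyclic B hB g]
    rw [this]
    exact Submodule.zero_mem _

/-- **Artin's induction theorem for the trivial character** -/
theorem artin_trivial : ∃ c : Subgroup Γ → ℤ, (∀ C, c C ≠ 0 → IsCyclic C) ∧
    ∀ g : Γ, ∑ C : Subgroup Γ, c C * (fixCount C g : ℤ) = Fintype.card Γ := by
  classical
  obtain ⟨c, hc⟩ := (Submodule.mem_span_range_iff_exists_fun ℤ).1 (const_mem_artinSpan (Γ := Γ))
  refine ⟨fun C => if h : IsCyclic C then c ⟨C, h⟩ else 0, fun C hC => ?_, fun g => ?_⟩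
  · by_contra h
    simp [h] at hC
  · have h1 := congrFun hc g
    rw [Finset.sum_apply] at h1
    rw [← h1]
    set F : Subgroup Γ → ℤ :=
      fun C => (if h : IsCyclic C then c ⟨C, h⟩ else 0) * (fixCount C g : ℤ) with hF
    have h2 : ∑ C : Subgroup Γ, F C = ∑ C ∈ univ.filter (fun C : Subgroup Γ => IsCyclic C), F C := by
      rw [Finset.sum_filter]
      apply Finset.sum_congr rfl
      intro C _
      by_cases h : IsCyclic C
      · simp [h]
      · simp [hF, h]
    rw [h2, Finset.sum_subtype (univ.filter (fun C : Subgroup Γ => IsCyclic C))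
      (p := fun C : Subgroup Γ => IsCyclic C) (by simp) F]
    apply Finset.sum_congr rfl
    intro C _
    simp [hF, piFun, C.2]

end Fin

end Fermat.Agent.S56lib.Euler
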