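/-
S56 marathon, block "Euler characteristics" (helper1), file 8.
* `val_permMod_sigma` : `ψ(𝔽_p[Σ i, Y i]) = Σ_i ψ(𝔽_p[Y i])`;
* `artin_perm` : from an Artin relation `Σ_C c C · #Fix_g(Γ/C) = |Γ|` (all `g`):
  `Σ_C c C · ψ(𝔽_p[Γ/C]) = |Γ| · ψ(𝔽_p[Γ/Γ])` for every additive invariant `ψ`.
-/
import Mathlib
import Fermat.Agent.S56lib.Euler.Perm
import Fermat.Agent.S56lib.Euler.ArtinInd

set_option autoImplicit false

namespace Fermat.Agent.S56lib.Euler

open Function

section Sigma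

variable {Γ : Type} [Group Γ] {ι : Type} [Fintype ι] [DecidableEq ι] (Y : ι → Type)
  [∀ i, MulAction Γ (Y i)] (A : Type) [AddCommGroup A]

/-- restriction to the `i`-th summand -/
noncomputable def PermMod.resSigma (i : ι) : PermMod Γ A (Σ i, Y i) →ₗ[ZG Γ] PermMod Γ A (Y i) :=
  linOfComm ((PermMod.fn.symm.toAddMonoidHom.comp
      ({ toFun := fun u y => u ⟨i, y⟩, map_zero' := rfl, map_add' := fun _ _ => rfl } :
        ((Σ i, Y i) → A) →+ (Y i → A))).comp PermMod.fn.toAddMonoidHom)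
    (fun g u => by
      apply PermMod.ext
      intro y
      simp [Sigma.smul_mk])

@[simp] theorem PermMod.fn_resSigma (i : ι) (u : PermMod Γ A (Σ i, Y i)) (y : Y i) :
    PermMod.fn (PermMod.resSigma Y A i u) y = PermMod.fn u ⟨i, y⟩ := by
  simp [PermMod.resSigma]

/-- the functions supported on the summands in `s` -/
noncomputable def PermMod.suppSigma (s : Finset ι) : Submodule (ZG Γ) (PermMod Γ A (Σ i, Y i)) :=
  ⨅ j ∈ sᶜ, LinearMap.ker (PermMod.resSigma Y A j)

variable {Y A} in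
theorem PermMod.mem_suppSigma {s : Finset ι} {u : PermMod Γ A (Σ i, Y i)} :
    u ∈ PermMod.suppSigma Y A s ↔ ∀ j, j ∉ s → ∀ y : Y j, PermMod.fn u ⟨j, y⟩ = 0 := by
  simp only [PermMod.suppSigma, Submodule.mem_iInf, Finset.mem_compl, LinearMap.mem_ker]
  constructor
  · intro h j hj y
    have := congrArg (fun w => PermMod.fn w y) (h j hj)
    simpa using this
  · intro h j hj
    apply PermMod.ext
    intro y
    simpa using h j hj y

theorem PermMod.suppSigma_mono {s t : Finset ι} (h : s ⊆ t) :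
    PermMod.suppSigma (Γ := Γ) Y A s ≤ PermMod.suppSigma Y A t := by
  intro u hu
  rw [PermMod.mem_suppSigma] at hu ⊢
  exact fun j hj y => hu j (fun hjs => hj (h hjs)) y

/-- extension by zero from the `i`-th summand -/
noncomputable def PermMod.extSigma (i : ι) (w : PermMod Γ A (Y i)) : PermMod Γ A (Σ i, Y i) :=
  PermMod.fn.symm (fun x => (Pi.single i (PermMod.fn w) : ∀ j, Y j → A) x.1 x.2)

theorem PermMod.fn_extSigma_same (i : ι) (w : PermMod Γ A (Y i)) (y : Y i) :
    PermMod.fn (PermMod.extSigma Y A i w) ⟨i, y⟩ = PermMod.fn w y := by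
  simp [PermMod.extSigma]

theorem PermMod.fn_extSigma_ne (i j : ι) (h : j ≠ i) (w : PermMod Γ A (Y i)) (y : Y j) :
    PermMod.fn (PermMod.extSigma Y A i w) ⟨j, y⟩ = 0 := by
  simp [PermMod.extSigma, Pi.single_eq_of_ne h]

variable {p : ℕ} [hp : Fact p.Prime] (ψ : AddInvariant (ZG Γ) p) [∀ i, Finite (Y i)]

theorem val_suppSigma (s : Finset ι) :
    ψ.val (PermMod.suppSigma (Γ := Γ) Y (ZMod p) s) = ∑ i ∈ s, ψ.val (PermMod Γ (ZMod p) (Y i)) := by
  induction s using Finset.induction_on with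
  | empty =>
    rw [Finset.sum_empty]
    haveI : Subsingleton (PermMod.suppSigma (Γ := Γ) Y (ZMod p) ∅) := by
      refine ⟨fun u v => Subtype.ext (PermMod.ext (fun x => ?_))⟩
      have hu := PermMod.mem_suppSigma.1 u.2 x.1 (Finset.notMem_empty _) x.2
      have hv := PermMod.mem_suppSigma.1 v.2 x.1 (Finset.notMem_empty _) x.2
      rw [hu, hv]
    exact ψ.eq_zero_of_subsingleton _
  | insert i s hi ih =>
    rw [Finset.sum_insert hi, ← ih]
    have hle : PermMod.suppSigma (Γ := Γ) Y (ZMod p) s ≤ PermMod.suppSigma Y (ZMod p) (insert i s) :=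
      PermMod.suppSigma_mono Y (ZMod p) (Finset.subset_insert i s)
    have hsurj : Surjective ((PermMod.resSigma (Γ := Γ) Y (ZMod p) i).comp
        (PermMod.suppSigma Y (ZMod p) (insert i s)).subtype) := by
      intro w
      refine ⟨⟨PermMod.extSigma Y (ZMod p) i w, ?_⟩, ?_⟩
      · rw [PermMod.mem_suppSigma]
        intro j hj y
        apply PermMod.fn_extSigma_ne
        intro hji
        exact hj (hji ▸ Finset.mem_insert_self i s)
      · apply PermMod.ext
        intro y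
        simp [PermMod.fn_extSigma_same]
    have hex : Exact (Submodule.inclusion hle) ((PermMod.resSigma (Γ := Γ) Y (ZMod p) i).comp
        (PermMod.suppSigma Y (ZMod p) (insert i s)).subtype) := by
      intro u
      constructor
      · intro hu
        refine ⟨⟨u.1, ?_⟩, rfl⟩
        rw [PermMod.mem_suppSigma]
        intro j hj y
        by_cases hji : j = i
        · subst hji
          have := congrArg (fun w => PermMod.fn w y) hu
          simpa using this
        · exact PermMod.mem_suppSigma.1 u.2 j (by simp [hji, hj]) y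
      · rintro ⟨v, rfl⟩
        apply PermMod.ext
        intro y
        simpa using PermMod.mem_suppSigma.1 v.2 i hi y
    have hinj : Injective (Submodule.inclusion hle) := Submodule.inclusion_injective hle
    haveI hfin : IsPFin p ↥(PermMod.suppSigma (Γ := Γ) Y (ZMod p) (insert i s)) := inferInstance
    have h := ψ.add ↥(PermMod.suppSigma (Γ := Γ) Y (ZMod p) s)
      ↥(PermMod.suppSigma (Γ := Γ) Y (ZMod p) (insert i s)) (PermMod Γ (ZMod p) (Y i))
      (Submodule.inclusion hle)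
      ((PermMod.resSigma (Γ := Γ) Y (ZMod p) i).comp
        (PermMod.suppSigma Y (ZMod p) (insert i s)).subtype) hinj hsurj hex
    rw [h, add_comm]

/-- **additivity over disjoint unions** -/
theorem val_permMod_sigma :
    ψ.val (PermMod Γ (ZMod p) (Σ i, Y i)) = ∑ i, ψ.val (PermMod Γ (ZMod p) (Y i)) := by
  rw [← val_suppSigma Y ψ Finset.univ]
  have htop : PermMod.suppSigma (Γ := Γ) Y (ZMod p) Finset.univ = ⊤ := by
    rw [eq_top_iff]
    intro u _
    rw [PermMod.mem_suppSigma]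
    intro j hj
    exact absurd (Finset.mem_univ j) hj
  exact (ψ.iso _ _ (LinearEquiv.ofTop _ htop)).symm

end Sigma

section FixSigma

variable {Γ : Type} [Group Γ] {ι : Type} [Fintype ι] (Y : ι → Type)
  [∀ i, MulAction Γ (Y i)] [∀ i, Fintype (Y i)]

/-- fixed points on a disjoint union -/
theorem fixCard_sigma (g : Γ) : fixCard (Σ i, Y i) g = ∑ i, fixCard (Y i) g := by
  classical
  simp only [fixCard]
  rw [← Nat.card_sigma]
  apply Nat.card_congr
  exact
    { toFun := fun x => ⟨x.1.1, ⟨x.1.2, by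
        have := x.2
        rw [MulAction.mem_fixedBy, Sigma.smul_mk] at this
        rw [MulAction.mem_fixedBy]
        exact eq_of_heq (Sigma.mk.inj this).2⟩⟩
      invFun := fun x => ⟨⟨x.1, x.2.1⟩, by
        rw [MulAction.mem_fixedBy, Sigma.smul_mk]
        exact congrArg _ x.2.2⟩
      left_inv := fun x => rfl
      right_inv := fun x => rfl }

end FixSigma

section Artin

variable {Γ : Type} [Group Γ] [Fintype Γ]

theorem fixCard_quotient (C : Subgroup Γ) (g : Γ) [Fintype (Γ ⧸ C)] :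
    fixCard (Γ ⧸ C) g = fixCount C g := rfl

theorem fixCount_top (g : Γ) : fixCount (⊤ : Subgroup Γ) g = 1 := by
  rw [fixCount]
  haveI : Subsingleton (Γ ⧸ (⊤ : Subgroup Γ)) := QuotientGroup.subsingleton_quotient_top
  haveI : Unique (MulAction.fixedBy (Γ ⧸ (⊤ : Subgroup Γ)) g) :=
    { default := ⟨QuotientGroup.mk 1, Subsingleton.elim _ _⟩
      uniq := fun x => Subtype.ext (Subsingleton.elim _ _) }
  exact Nat.card_unique

open Classical in
/-- a family of subgroups with multiplicities -/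
theorem sum_sigma_fin {M : Type} [AddCommMonoid M] (n : Subgroup Γ → ℕ) (f : Subgroup Γ → M) :
    ∑ i : (Σ C : Subgroup Γ, Fin (n C)), f i.1 = ∑ C : Subgroup Γ, n C • f C := by
  rw [Fintype.sum_sigma]
  apply Finset.sum_congr rfl
  intro C _
  show ∑ _y : Fin (n C), f C = n C • f C
  rw [Finset.sum_const, Finset.card_univ, Fintype.card_fin]

open Classical in
/-- **Artin induction on permutation modules mod `p`** -/
theorem artin_perm {p : ℕ} [hp : Fact p.Prime] (ψ : AddInvariant (ZG Γ) p) (c : Subgroup Γ → ℤ)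
    (hc : ∀ g : Γ, ∑ C : Subgroup Γ, c C * (fixCount C g : ℤ) = Fintype.card Γ) :
    ∑ C : Subgroup Γ, c C * ψ.val (PermMod Γ (ZMod p) (Γ ⧸ C))
      = Fintype.card Γ * ψ.val (PermMod Γ (ZMod p) (Γ ⧸ (⊤ : Subgroup Γ))) := by
  -- the two `Γ`-sets
  let n₁ : Subgroup Γ → ℕ := fun C => (c C).toNat
  let n₂ : Subgroup Γ → ℕ := fun C => (-(c C)).toNat
  let ι₁ := Σ C : Subgroup Γ, Fin (n₁ C)
  let ι₂ := (Σ C : Subgroup Γ, Fin (n₂ C)) ⊕ Fin (Fintype.card Γ)
  let C₁ : ι₁ → Subgroup Γ := fun i => i.1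
  let C₂ : ι₂ → Subgroup Γ := Sum.elim (fun i => i.1) (fun _ => ⊤)
  have hn : ∀ C, (c C : ℤ) = (n₁ C : ℤ) - (n₂ C : ℤ) := fun C =>
    (Int.toNat_sub_toNat_neg (c C)).symm
  -- fixed points
  have hfix : ∀ g : Γ, fixCard (Σ i : ι₁, Γ ⧸ C₁ i) g = fixCard (Σ i : ι₂, Γ ⧸ C₂ i) g := by
    intro g
    rw [fixCard_sigma, fixCard_sigma, Fintype.sum_sum_type]
    have e1 : ∑ i : ι₁, fixCard (Γ ⧸ C₁ i) g = ∑ C : Subgroup Γ, n₁ C • fixCount C g :=
      sum_sigma_fin n₁ (fun C => fixCount C g)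
    have e2 : ∑ i : (Σ C : Subgroup Γ, Fin (n₂ C)), fixCard (Γ ⧸ C₂ (Sum.inl i)) g
        = ∑ C : Subgroup Γ, n₂ C • fixCount C g :=
      sum_sigma_fin n₂ (fun C => fixCount C g)
    have e3 : ∑ j : Fin (Fintype.card Γ), fixCard (Γ ⧸ C₂ (Sum.inr j)) g = Fintype.card Γ := by
      have : ∀ j : Fin (Fintype.card Γ), fixCard (Γ ⧸ C₂ (Sum.inr j)) g = 1 :=
        fun j => fixCount_top g
      simp [this]
    rw [e1, e2, e3]
    have h := hc g
    simp only [hn, sub_mul, Finset.sum_sub_distrib] at h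
    have h' : ((∑ C : Subgroup Γ, n₁ C • fixCount C g : ℕ) : ℤ)
        = ((∑ C : Subgroup Γ, n₂ C • fixCount C g + Fintype.card Γ : ℕ) : ℤ) := by
      simp only [smul_eq_mul]
      push_cast
      linarith
    exact_mod_cast h'
  -- Brauer–Nesbitt and additivity
  have h1 := perm_bn (Σ i : ι₁, Γ ⧸ C₁ i) (Σ i : ι₂, Γ ⧸ C₂ i) ψ hfix
  rw [val_permMod_sigma, val_permMod_sigma, Fintype.sum_sum_type] at h1
  have e1 : ∑ i : ι₁, ψ.val (PermMod Γ (ZMod p) (Γ ⧸ C₁ i))
      = ∑ C : Subgroup Γ, n₁ C • ψ.val (PermMod Γ (ZMod p) (Γ ⧸ C)) :=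
    sum_sigma_fin n₁ (fun C => ψ.val (PermMod Γ (ZMod p) (Γ ⧸ C)))
  have e2 : ∑ i : (Σ C : Subgroup Γ, Fin (n₂ C)), ψ.val (PermMod Γ (ZMod p) (Γ ⧸ C₂ (Sum.inl i)))
      = ∑ C : Subgroup Γ, n₂ C • ψ.val (PermMod Γ (ZMod p) (Γ ⧸ C)) :=
    sum_sigma_fin n₂ (fun C => ψ.val (PermMod Γ (ZMod p) (Γ ⧸ C)))
  have e3 : ∑ j : Fin (Fintype.card Γ), ψ.val (PermMod Γ (ZMod p) (Γ ⧸ C₂ (Sum.inr j)))
      = Fintype.card Γ * ψ.val (PermMod Γ (ZMod p) (Γ ⧸ (⊤ : Subgroup Γ))) := by
    show ∑ _j : Fin (Fintype.card Γ), ψ.val (PermMod Γ (ZMod p) (Γ ⧸ (⊤ : Subgroup Γ))) = _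
    rw [Finset.sum_const, Finset.card_univ, Fintype.card_fin, nsmul_eq_mul]
  rw [e1, e2, e3] at h1
  simp only [hn, sub_mul, Finset.sum_sub_distrib]
  simp only [nsmul_eq_mul] at h1
  linarith

end Artin

end Fermat.Agent.S56lib.Euler
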