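/-
S56 marathon, block "Euler characteristics" (helper1), file 10.
**The `p`-part of a cyclic subgroup**: for `C = ⟨c₀⟩` and `C' = ⟨c₀^q⟩`, `q = p^a ∣ |C|`, the
permutation module `𝔽_p[Γ/C']` has a filtration with `q` graded pieces `≅ 𝔽_p[Γ/C]`:
`φ(𝔽_p[Γ/C']) = q · φ(𝔽_p[Γ/C])` for every additive invariant `φ`.
-/
import Mathlib
import Fermat.Agent.S56lib.Euler.Perm
import Fermat.Agent.S56lib.Euler.Nilp

set_option autoImplicit false

namespace Fermat.Agent.S56lib.Euler

open Function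

section ComapDom

variable {Γ : Type} [Group Γ] {A : Type} [AddCommGroup A] {X X' : Type} [MulAction Γ X]
  [MulAction Γ X']

/-- pull-back of functions along an equivariant map -/
noncomputable def PermMod.comapDom (ρ : X → X') (hρ : ∀ (g : Γ) x, ρ (g • x) = g • ρ x) :
    PermMod Γ A X' →ₗ[ZG Γ] PermMod Γ A X :=
  linOfComm ((PermMod.fn.symm.toAddMonoidHom.comp
      ({ toFun := fun u x => u (ρ x), map_zero' := rfl, map_add' := fun _ _ => rfl } :
        (X' → A) →+ (X → A))).comp PermMod.fn.toAddMonoidHom)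
    (fun g u => by
      apply PermMod.ext
      intro x
      simp [hρ])

@[simp] theorem PermMod.fn_comapDom (ρ : X → X') (hρ : ∀ (g : Γ) x, ρ (g • x) = g • ρ x)
    (u : PermMod Γ A X') (x : X) :
    PermMod.fn (PermMod.comapDom (A := A) ρ hρ u) x = PermMod.fn u (ρ x) := by
  simp [PermMod.comapDom]

theorem PermMod.comapDom_injective (ρ : X → X') (hρ : ∀ (g : Γ) x, ρ (g • x) = g • ρ x)
    (hs : Surjective ρ) : Injective (PermMod.comapDom (A := A) ρ hρ) := by
  intro u v h
  apply PermMod.ext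
  intro x'
  obtain ⟨x, rfl⟩ := hs x'
  have := congrArg (fun w => PermMod.fn w x) h
  simpa using this

end ComapDom

section CharP

/-- in a ring killed by `p`, `(x - y)^(p^a) = x^(p^a) - y^(p^a)` for commuting `x`, `y` -/
theorem sub_pow_prime_pow_of_commute {E : Type} [Ring E] {p : ℕ} [hp : Fact p.Prime]
    (h0 : (p : E) = 0) {x y : E} (h : Commute x y) (a : ℕ) :
    (x - y) ^ p ^ a = x ^ p ^ a - y ^ p ^ a := by
  rcases subsingleton_or_nontrivial E with hE | hE
  · exact Subsingleton.elim _ _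
  · haveI : CharP E p := (CharP.charP_iff_prime_eq_zero hp.out).2 h0
    exact sub_pow_char_pow_of_commute p a h

end CharP

section Card

variable {Γ : Type} [Group Γ] {p : ℕ} [hp : Fact p.Prime]

theorem cardInv_permMod (X : Type) [MulAction Γ X] [Finite X] :
    (cardInv (ZG Γ) p).val (PermMod Γ (ZMod p) X) = Nat.card X := by
  rw [cardInv_val, Nat.card_congr (PermMod.fn (Γ := Γ) (A := ZMod p) (X := X)).toEquiv,
    Nat.card_fun, Nat.card_zmod, padicValNat.prime_pow]

end Card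

section Main

variable {Γ : Type} [Group Γ] [Finite Γ] {p : ℕ} [hp : Fact p.Prime]

/-- right multiplication by `c₀` on `Γ/C'` -/
def rmulQ (C' : Subgroup Γ) (c₀ : Γ) (h1 : ∀ c' ∈ C', c₀⁻¹ * c' * c₀ ∈ C') : Γ ⧸ C' → Γ ⧸ C' :=
  Quotient.map' (fun γ => γ * c₀) (fun γ₁ γ₂ h => by
    rw [QuotientGroup.leftRel_apply] at h ⊢
    have := h1 _ h
    simpa [mul_assoc] using this)

theorem rmulQ_mk (C' : Subgroup Γ) (c₀ : Γ) (h1 : ∀ c' ∈ C', c₀⁻¹ * c' * c₀ ∈ C') (γ : Γ) :
    rmulQ C' c₀ h1 (QuotientGroup.mk γ) = QuotientGroup.mk (γ * c₀) := rfl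

theorem rmulQ_smul (C' : Subgroup Γ) (c₀ : Γ) (h1 : ∀ c' ∈ C', c₀⁻¹ * c' * c₀ ∈ C') (g : Γ)
    (x : Γ ⧸ C') : rmulQ C' c₀ h1 (g • x) = g • rmulQ C' c₀ h1 x := by
  induction x using QuotientGroup.induction_on with
  | H γ =>
    rw [MulAction.Quotient.smul_mk, rmulQ_mk, rmulQ_mk, MulAction.Quotient.smul_mk]
    simp [mul_assoc]

theorem rmulQ_iterate (C' : Subgroup Γ) (c₀ : Γ) (h1 : ∀ c' ∈ C', c₀⁻¹ * c' * c₀ ∈ C') (k : ℕ)
    (γ : Γ) : (rmulQ C' c₀ h1)^[k] (QuotientGroup.mk γ) = QuotientGroup.mk (γ * c₀ ^ k) := by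
  induction k generalizing γ with
  | zero => simp
  | succ k ih =>
    rw [Function.iterate_succ_apply, rmulQ_mk, ih, pow_succ', mul_assoc]

/-- **the `p`-part filtration** -/
theorem val_permMod_quotient_pPart (φ : AddInvariant (ZG Γ) p) (C' C : Subgroup Γ) (hle : C' ≤ C)
    (c₀ : Γ) (a : ℕ)
    (h1 : ∀ c' ∈ C', c₀⁻¹ * c' * c₀ ∈ C') (h2 : c₀ ^ (p ^ a) ∈ C')
    (h3 : ∀ γ₁ γ₂ : Γ, γ₁⁻¹ * γ₂ ∈ C → ∃ k : ℕ, (γ₁ * c₀ ^ k)⁻¹ * γ₂ ∈ C')
    (h3' : c₀ ∈ C)
    (h4 : Nat.card (Γ ⧸ C') = p ^ a * Nat.card (Γ ⧸ C)) :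
    φ.val (PermMod Γ (ZMod p) (Γ ⧸ C')) = (p ^ a : ℕ) * φ.val (PermMod Γ (ZMod p) (Γ ⧸ C)) := by
  -- the operators
  set ρ := rmulQ C' c₀ h1 with hρ
  let T : PermMod Γ (ZMod p) (Γ ⧸ C') →ₗ[ZG Γ] PermMod Γ (ZMod p) (Γ ⧸ C') :=
    PermMod.comapDom ρ (rmulQ_smul C' c₀ h1)
  let τ : PermMod Γ (ZMod p) (Γ ⧸ C') →ₗ[ZG Γ] PermMod Γ (ZMod p) (Γ ⧸ C') := T - 1
  have hTpow : ∀ k : ℕ, ∀ u x, PermMod.fn ((T ^ k) u) x = PermMod.fn u (ρ^[k] x) := by
    intro k
    induction k with
    | zero => intro u x; simp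
    | succ k ih =>
      intro u x
      rw [pow_succ, Module.End.mul_apply, ih, PermMod.fn_comapDom, Function.iterate_succ_apply']
  have hTq : T ^ (p ^ a) = 1 := by
    ext u
    apply PermMod.ext
    intro x
    rw [hTpow]
    induction x using QuotientGroup.induction_on with
    | H γ =>
      rw [rmulQ_iterate]
      have : (QuotientGroup.mk (γ * c₀ ^ p ^ a) : Γ ⧸ C') = QuotientGroup.mk γ :=
        QuotientGroup.mk_mul_of_mem γ h2
      rw [this]
      rfl
  have hp0 : ((p : ℕ) : Module.End (ZG Γ) (PermMod Γ (ZMod p) (Γ ⧸ C'))) = 0 := by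
    ext u
    rw [Module.End.natCast_apply, LinearMap.zero_apply]
    exact IsPFin.nsmul_eq_zero (p := p) u
  have hτ : τ ^ (p ^ a) = 0 := by
    show (T - 1) ^ (p ^ a) = 0
    rw [sub_pow_prime_pow_of_commute hp0 (Commute.one_right T), hTq, one_pow, sub_self]
  -- the kernel of `τ`
  let π : Γ ⧸ C' → Γ ⧸ C := Quotient.map' id (fun γ₁ γ₂ h => by
    rw [QuotientGroup.leftRel_apply] at h ⊢
    exact hle h)
  have hπ : ∀ (g : Γ) x, π (g • x) = g • π x := by
    intro g x
    induction x using QuotientGroup.induction_on with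
    | H γ => rfl
  have hπs : Surjective π := by
    intro y
    induction y using QuotientGroup.induction_on with
    | H γ => exact ⟨QuotientGroup.mk γ, rfl⟩
  let P : PermMod Γ (ZMod p) (Γ ⧸ C) →ₗ[ZG Γ] PermMod Γ (ZMod p) (Γ ⧸ C') :=
    PermMod.comapDom π hπ
  have hπρ : ∀ x, π (ρ x) = π x := by
    intro x
    induction x using QuotientGroup.induction_on with
    | H γ =>
      rw [hρ, rmulQ_mk]
      show (QuotientGroup.mk (γ * c₀) : Γ ⧸ C) = QuotientGroup.mk γ
      exact QuotientGroup.mk_mul_of_mem γ h3'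
  have hker : LinearMap.range P = LinearMap.ker τ := by
    ext u
    rw [LinearMap.mem_range, LinearMap.mem_ker]
    constructor
    · rintro ⟨v, rfl⟩
      apply PermMod.ext
      intro x
      show PermMod.fn ((T - 1) (P v)) x = PermMod.fn (0 : PermMod Γ (ZMod p) (Γ ⧸ C')) x
      rw [LinearMap.sub_apply, Module.End.one_apply, map_sub, Pi.sub_apply, PermMod.fn_comapDom,
        PermMod.fn_comapDom, PermMod.fn_comapDom, hπρ, sub_self]
      rfl
    · intro hu
      have hinv : ∀ x, PermMod.fn u (ρ x) = PermMod.fn u x := by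
        intro x
        have := congrArg (fun w => PermMod.fn w x) hu
        simp only [τ, LinearMap.sub_apply, Module.End.one_apply, map_sub, Pi.sub_apply, map_zero,
          Pi.zero_apply, sub_eq_zero] at this
        rw [← this]
        exact (PermMod.fn_comapDom ρ _ u x).symm
      have hinvk : ∀ (k : ℕ) x, PermMod.fn u (ρ^[k] x) = PermMod.fn u x := by
        intro k
        induction k with
        | zero => intro x; rfl
        | succ k ih => intro x; rw [Function.iterate_succ_apply, ih, hinv]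
      have hfac : Function.FactorsThrough (PermMod.fn u) π := by
        intro x y hxy
        induction x using QuotientGroup.induction_on with
        | H γ₁ =>
          induction y using QuotientGroup.induction_on with
          | H γ₂ =>
            have hC : γ₁⁻¹ * γ₂ ∈ C := QuotientGroup.eq.1 hxy
            obtain ⟨k, hk⟩ := h3 γ₁ γ₂ hC
            have : (QuotientGroup.mk γ₂ : Γ ⧸ C') = ρ^[k] (QuotientGroup.mk γ₁) := by
              rw [hρ, rmulQ_iterate]
              exact (QuotientGroup.eq.2 hk).symm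
            rw [this, hinvk]
      refine ⟨PermMod.fn.symm (Function.extend π (PermMod.fn u) 0), ?_⟩
      apply PermMod.ext
      intro x
      rw [PermMod.fn_comapDom, AddEquiv.apply_symm_apply]
      exact hfac.extend_apply _ x
  -- cardinalities
  haveI : Finite (Γ ⧸ C') := Finite.of_surjective _ (QuotientGroup.mk_surjective (s := C'))
  haveI : Finite (Γ ⧸ C) := Finite.of_surjective _ (QuotientGroup.mk_surjective (s := C))
  have hinjP : Injective P := PermMod.comapDom_injective π hπ hπs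
  have hkerval : ∀ ψ : AddInvariant (ZG Γ) p,
      ψ.val (LinearMap.ker τ) = ψ.val (PermMod Γ (ZMod p) (Γ ⧸ C)) := by
    intro ψ
    rw [← hker]
    exact ψ.range_eq_of_injective P hinjP
  have hcard : (cardInv (ZG Γ) p).val (PermMod Γ (ZMod p) (Γ ⧸ C'))
      = (p ^ a : ℕ) * (cardInv (ZG Γ) p).val (LinearMap.ker τ) := by
    rw [hkerval, cardInv_permMod, cardInv_permMod, h4]
    push_cast
    ring
  rw [nilp_filtration φ τ (p ^ a) hτ hcard, hkerval]

end Main

end Fermat.Agent.S56lib.Euler
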