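/-
S56 marathon, block "Euler characteristics" (helper1), file 12.
**The reduction theorem, module form**: an additive invariant `ψ` of finite `ℤ[Γ]`-modules killed by `p`
which vanishes on all `Tw(Γ/C', M)` (`= coind_{C'}^Γ Res M`) with `C'` cyclic of order prime to `p`
vanishes identically.
-/
import Mathlib
import Fermat.Agent.S56lib.Euler.PermSum
import Fermat.Agent.S56lib.Euler.Stage2
import Fermat.Agent.S56lib.Euler.TwMod

set_option autoImplicit false

namespace Fermat.Agent.S56lib.Euler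

open Function

section Cyclic

variable {Γ : Type} [Group Γ] [Finite Γ] {p : ℕ} [hp : Fact p.Prime]

/-- for a cyclic subgroup `C = ⟨c₀⟩` with `|C| = p^a·m`, `p ∤ m`, and `C' = ⟨c₀^(p^a)⟩` -/
theorem val_permMod_cyclic (φ : AddInvariant (ZG Γ) p) (c₀ : Γ) (a m : ℕ)
    (hord : orderOf c₀ = p ^ a * m) :
    φ.val (PermMod Γ (ZMod p) (Γ ⧸ Subgroup.zpowers (c₀ ^ (p ^ a))))
      = (p ^ a : ℕ) * φ.val (PermMod Γ (ZMod p) (Γ ⧸ Subgroup.zpowers c₀)) := by
  have hq : p ^ a ≠ 0 := pow_ne_zero _ hp.out.ne_zero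
  have hm : m ≠ 0 := by
    intro h0
    rw [h0, mul_zero] at hord
    exact (orderOf_pos c₀).ne' hord
  apply val_permMod_quotient_pPart φ (Subgroup.zpowers (c₀ ^ (p ^ a))) (Subgroup.zpowers c₀)
    (Subgroup.zpowers_le.2 (Subgroup.pow_mem _ (Subgroup.mem_zpowers c₀) _)) c₀ a
  · -- h1
    intro c' hc'
    obtain ⟨k, rfl⟩ := Subgroup.mem_zpowers_iff.1 hc'
    have hcomm : Commute c₀ ((c₀ ^ p ^ a) ^ k) := ((Commute.refl c₀).pow_right _).zpow_right _
    rw [mul_assoc, ← hcomm.eq, inv_mul_cancel_left]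
    exact hc'
  · exact Subgroup.mem_zpowers _
  · -- h3
    intro γ₁ γ₂ h
    rw [← mem_powers_iff_mem_zpowers] at h
    obtain ⟨k, hk⟩ := h
    refine ⟨k, ?_⟩
    have hk' : c₀ ^ k = γ₁⁻¹ * γ₂ := hk
    have : (γ₁ * c₀ ^ k)⁻¹ * γ₂ = 1 := by
      rw [hk']
      group
    rw [this]
    exact Subgroup.one_mem _
  · exact Subgroup.mem_zpowers _
  · -- h4
    have e1 := Subgroup.card_eq_card_quotient_mul_card_subgroup (Subgroup.zpowers (c₀ ^ (p ^ a)))
    have e2 := Subgroup.card_eq_card_quotient_mul_card_subgroup (Subgroup.zpowers c₀)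
    rw [Nat.card_zpowers] at e1 e2
    have e3 : orderOf (c₀ ^ (p ^ a)) = m := by
      rw [orderOf_pow, hord, Nat.gcd_eq_right (dvd_mul_right _ _), Nat.mul_div_cancel_left _
        (Nat.pos_of_ne_zero hq)]
    rw [e3] at e1
    rw [hord] at e2
    have : Nat.card (Γ ⧸ Subgroup.zpowers (c₀ ^ (p ^ a))) * m
        = (p ^ a * Nat.card (Γ ⧸ Subgroup.zpowers c₀)) * m := by
      rw [← e1, e2]
      ring
    exact Nat.eq_of_mul_eq_mul_right (Nat.pos_of_ne_zero hm) this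

end Cyclic

section Main

variable {Γ : Type} [Group Γ] [Fintype Γ] {p : ℕ} [hp : Fact p.Prime]

/-- **the reduction theorem (module form)** -/
theorem reduction_module (ψ : AddInvariant (ZG Γ) p)
    (M : Type) [AddCommGroup M] [Module (ZG Γ) M] [IsPFin p M]
    (hC : ∀ C' : Subgroup Γ, IsCyclic C' → (Nat.card C').Coprime p →
      ψ.val (TwMod Γ (Γ ⧸ C') M) = 0) :
    ψ.val M = 0 := by
  classical
  have hM : ∀ m : M, p • m = 0 := IsPFin.nsmul_eq_zero (p := p)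
  set φ := homInv ψ M with hφ
  have hφval : ∀ C : Subgroup Γ, φ.val (PermMod Γ (ZMod p) (Γ ⧸ C)) = ψ.val (TwMod Γ (Γ ⧸ C) M) :=
    fun C => ψ.iso _ _ (homPermEquiv (Γ := Γ) (X := Γ ⧸ C) (M := M) (p := p) hM)
  -- cyclic subgroups
  have hcyc : ∀ C : Subgroup Γ, IsCyclic C → φ.val (PermMod Γ (ZMod p) (Γ ⧸ C)) = 0 := by
    intro C hCc
    obtain ⟨c₀, rfl⟩ := (Subgroup.isCyclic_iff_exists_zpowers_eq_top C).1 hCc
    obtain ⟨a, m, hpm, hord⟩ := Nat.exists_eq_pow_mul_and_not_dvd (orderOf_pos c₀).ne' p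
      hp.out.ne_one
    have h1 := val_permMod_cyclic φ c₀ a m hord
    have hq : p ^ a ≠ 0 := pow_ne_zero _ hp.out.ne_zero
    have e3 : orderOf (c₀ ^ (p ^ a)) = m := by
      rw [orderOf_pow, hord, Nat.gcd_eq_right (dvd_mul_right _ _), Nat.mul_div_cancel_left _
        (Nat.pos_of_ne_zero hq)]
    have h2 : φ.val (PermMod Γ (ZMod p) (Γ ⧸ Subgroup.zpowers (c₀ ^ (p ^ a)))) = 0 := by
      rw [hφval]
      apply hC _ inferInstance
      rw [Nat.card_zpowers, e3]
      exact (Nat.Coprime.symm ((Nat.Prime.coprime_iff_not_dvd hp.out).2 hpm))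
    rw [h2] at h1
    have h3 : ((p ^ a : ℕ) : ℤ) ≠ 0 := by exact_mod_cast hq
    rcases mul_eq_zero.1 h1.symm with h | h
    · exact absurd h h3
    · exact h
  -- Artin
  obtain ⟨c, hc, hcg⟩ := artin_trivial (Γ := Γ)
  have h1 := artin_perm φ c hcg
  have h2 : ∑ C : Subgroup Γ, c C * φ.val (PermMod Γ (ZMod p) (Γ ⧸ C)) = 0 := by
    apply Finset.sum_eq_zero
    intro C _
    by_cases h0 : c C = 0
    · rw [h0, zero_mul]
    · rw [hcyc C (hc C h0), mul_zero]
  rw [h2] at h1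
  have h3 : φ.val (PermMod Γ (ZMod p) (Γ ⧸ (⊤ : Subgroup Γ))) = 0 := by
    have hΓ : ((Fintype.card Γ : ℕ) : ℤ) ≠ 0 := by exact_mod_cast Fintype.card_ne_zero
    rcases mul_eq_zero.1 h1.symm with h | h
    · exact absurd h hΓ
    · exact h
  rw [hφval] at h3
  haveI : Unique (Γ ⧸ (⊤ : Subgroup Γ)) :=
    { default := QuotientGroup.mk 1
      uniq := fun x => @Subsingleton.elim _ QuotientGroup.subsingleton_quotient_top _ _ }
  rw [← h3]
  exact (ψ.iso _ _ (twPointEquiv (Γ := Γ) (X := Γ ⧸ (⊤ : Subgroup Γ)) (M := M))).symm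

end Main

end Fermat.Agent.S56lib.Euler
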