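/-
S56 marathon, block "Euler characteristics" (helper1), file 14.
**The bifunctor `homG π P A = Hom_ℤ(P, A)`** with the diagonal `G`-action `(g·φ)(x) = g·φ(π(g)⁻¹x)`,
for `π : G →* Γ`, `P` a `ℤ[Γ]`-module and `A : Rep ℤ G`; contravariant in `P` (`homG.comap`), covariant in
`A` (`homG.map`), additive in both; smooth when `P` is finitely generated over `ℤ` and `ker π` is open.
`funG π A := homG π ℤ[Γ] A` is the coinduced module `A_Γ = Fun(Γ, A)`; the commuting `Γ`-action is
`homG.comap` of right multiplication.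
-/
import Fermat.Agent.S55lib.Cpx.Shapiro
import Fermat.Agent.S56lib.Euler.RepMod

set_option autoImplicit false
set_option linter.unusedSectionVars false

noncomputable section

namespace Fermat.Agent.S56lib.Euler

open Fermat.Agent.S55lib CategoryTheory Function

variable {k G Γ : Type} [CommRing k] [Group G] [Group Γ] (π : G →* Γ)

section Def

variable (P : Type) [AddCommGroup P] [Module (ZG Γ) P] (A : Rep.{0} k G)

/-- the diagonal action on `Hom_ℤ(P, A)` -/
def homGρ : Representation k G (P →+ A) where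
  toFun g :=
    { toFun := fun φ => ((A.ρ g).toAddMonoidHom.comp φ).comp (gsmHom (π g)⁻¹)
      map_add' := fun φ φ' => by
        ext x
        simp
      map_smul' := fun c φ => by
        ext x
        simp }
  map_one' := by
    apply LinearMap.ext
    intro φ
    ext x
    simp [gsmHom]
  map_mul' g h := by
    apply LinearMap.ext
    intro φ
    ext x
    simp [gsmHom, gsm_mul]

/-- `Hom_ℤ(P, A)` with the diagonal action -/
abbrev homG : Rep.{0} k G := Rep.of (homGρ π P A)

variable {P A}

lemma homG_ρ_apply (g : G) (φ : P →+ A) (x : P) :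
    ((homG π P A).ρ g φ : P →+ A) x = A.ρ g (φ (gsm (π g)⁻¹ x)) := rfl

end Def

section Functor

variable {P P' P'' : Type} [AddCommGroup P] [Module (ZG Γ) P] [AddCommGroup P'] [Module (ZG Γ) P']
  [AddCommGroup P''] [Module (ZG Γ) P''] {A B C : Rep.{0} k G}

/-- the additive map underlying a morphism of representations -/
def repAddHom (f : A ⟶ B) : A →+ B := AddMonoidHom.mk' f.hom (map_add f.hom)

@[simp] lemma repAddHom_apply (f : A ⟶ B) (a : A) : repAddHom f a = f.hom a := rfl

/-- covariant functoriality in the coefficients -/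
def homG.map (P : Type) [AddCommGroup P] [Module (ZG Γ) P] (f : A ⟶ B) : homG π P A ⟶ homG π P B :=
  Rep.ofHom
    { toLinearMap :=
        { toFun := fun φ => ((repAddHom f).comp φ : P →+ B)
          map_add' := fun φ φ' => by
            ext x
            exact map_add f.hom (φ x) (φ' x)
          map_smul' := fun c φ => by
            ext x
            exact map_smul f.hom c (φ x) }
      isIntertwining' := fun g => by
        apply LinearMap.ext
        intro φ
        ext x
        exact Rep.hom_comm_apply f g (φ (gsm (π g)⁻¹ x)) }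

@[simp] lemma homG.map_apply (f : A ⟶ B) (φ : P →+ A) (x : P) :
    ((homG.map π P f).hom φ : P →+ B) x = f.hom (φ x) := rfl

/-- contravariant functoriality in the `ℤ[Γ]`-module -/
def homG.comap (A : Rep.{0} k G) (h : P →ₗ[ZG Γ] P') : homG π P' A ⟶ homG π P A :=
  Rep.ofHom
    { toLinearMap :=
        { toFun := fun φ => (φ.comp h.toAddMonoidHom : P →+ A)
          map_add' := fun φ φ' => rfl
          map_smul' := fun c φ => rfl }
      isIntertwining' := fun g => by
        apply LinearMap.ext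
        intro φ
        ext x
        show A.ρ g (φ (gsm (π g)⁻¹ (h x))) = A.ρ g (φ (h (gsm (π g)⁻¹ x)))
        rw [gsm_linear] }

@[simp] lemma homG.comap_apply (h : P →ₗ[ZG Γ] P') (φ : P' →+ A) (x : P) :
    ((homG.comap π A h).hom φ : P →+ A) x = φ (h x) := rfl

lemma homG.comap_id (φ : homG π P A) : (homG.comap π A (LinearMap.id : P →ₗ[ZG Γ] P)).hom φ = φ := rfl

lemma homG.comap_comp (h : P →ₗ[ZG Γ] P') (h' : P' →ₗ[ZG Γ] P'') (φ : homG π P'' A) :
    (homG.comap π A (h'.comp h)).hom φ = (homG.comap π A h).hom ((homG.comap π A h').hom φ) := rfl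

lemma homG.comap_map (h : P →ₗ[ZG Γ] P') (f : A ⟶ B) (φ : homG π P' A) :
    (homG.comap π B h).hom ((homG.map π P' f).hom φ) = (homG.map π P f).hom ((homG.comap π A h).hom φ) :=
  rfl

/-! ### additivity -/

lemma homG.map_add_apply (f f' : A ⟶ B) (φ : homG π P A) :
    (homG.map π P (f + f')).hom φ = (homG.map π P f).hom φ + (homG.map π P f').hom φ := by
  apply DFunLike.ext
  intro x
  rfl

lemma homG.comap_add_apply (h h' : P →ₗ[ZG Γ] P') (φ : homG π P' A) :
    (homG.comap π A (h + h')).hom φ = (homG.comap π A h).hom φ + (homG.comap π A h').hom φ := by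
  apply DFunLike.ext
  intro x
  exact map_add (φ : P' →+ A) (h x) (h' x)

lemma homG.comap_zero_apply (φ : homG π P' A) :
    (homG.comap π A (0 : P →ₗ[ZG Γ] P')).hom φ = 0 := by
  apply DFunLike.ext
  intro x
  exact map_zero (φ : P' →+ A)

end Functor

/-! ### The coinduced module `A_Γ = Fun(Γ, A)` -/

section FunG

variable (A : Rep.{0} k G)

/-- the diagonal action on functions `Γ → A` -/
def funGρ : Representation k G (Γ → A) where
  toFun g :=
    { toFun := fun f x => A.ρ g (f ((π g)⁻¹ * x))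
      map_add' := fun f f' => by
        funext x
        exact map_add (A.ρ g) _ _
      map_smul' := fun c f => by
        funext x
        exact map_smul (A.ρ g) c _ }
  map_one' := by
    apply LinearMap.ext
    intro f
    funext x
    show A.ρ 1 (f ((π 1)⁻¹ * x)) = f x
    rw [map_one, map_one, inv_one, one_mul]
    rfl
  map_mul' g h := by
    apply LinearMap.ext
    intro f
    funext x
    show A.ρ (g * h) (f ((π (g * h))⁻¹ * x)) = A.ρ g (A.ρ h (f ((π h)⁻¹ * ((π g)⁻¹ * x))))
    rw [map_mul, map_mul, mul_inv_rev, mul_assoc]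
    rfl

/-- `A_Γ`: functions `Γ → A` with `(g·f)(x) = g·f(π(g)⁻¹x)` -/
abbrev funG : Rep.{0} k G := Rep.of (funGρ π A)

variable {A}

lemma funG_ρ_apply (g : G) (f : Γ → A) (x : Γ) :
    ((funG π A).ρ g f : Γ → A) x = A.ρ g (f ((π g)⁻¹ * x)) := rfl

variable {B : Rep.{0} k G}

/-- functoriality of `A ↦ A_Γ` -/
def funG.map (f : A ⟶ B) : funG π A ⟶ funG π B :=
  Rep.ofHom
    { toLinearMap :=
        { toFun := fun u x => f.hom (u x)
          map_add' := fun u u' => by
            funext x
            exact map_add f.hom (u x) (u' x)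
          map_smul' := fun c u => by
            funext x
            exact map_smul f.hom c (u x) }
      isIntertwining' := fun g => by
        apply LinearMap.ext
        intro u
        funext x
        exact Rep.hom_comm_apply f g (u ((π g)⁻¹ * x)) }

@[simp] lemma funG.map_apply (f : A ⟶ B) (u : Γ → A) (x : Γ) :
    ((funG.map π f).hom u : Γ → B) x = f.hom (u x) := rfl

variable (A)

/-- right translation by `δ`, a `G`-automorphism of `A_Γ` -/
def funG.rt (δ : Γ) : funG π A ⟶ funG π A :=
  Rep.ofHom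
    { toLinearMap :=
        { toFun := fun u x => u (x * δ)
          map_add' := fun u u' => rfl
          map_smul' := fun c u => rfl }
      isIntertwining' := fun g => by
        apply LinearMap.ext
        intro u
        funext x
        show A.ρ g (u ((π g)⁻¹ * (x * δ))) = A.ρ g (u ((π g)⁻¹ * x * δ))
        rw [mul_assoc] }

@[simp] lemma funG.rt_apply (δ : Γ) (u : Γ → A) (x : Γ) :
    ((funG.rt π A δ).hom u : Γ → A) x = u (x * δ) := rfl

/-- the constant functions -/
def funG.const : A ⟶ funG π A :=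
  Rep.ofHom
    { toLinearMap :=
        { toFun := fun a _ => a
          map_add' := fun a a' => rfl
          map_smul' := fun c a => rfl }
      isIntertwining' := fun g => rfl }

@[simp] lemma funG.const_apply (a : A) (x : Γ) : ((funG.const π A).hom a : Γ → A) x = a := rfl

lemma funG.rt_const (δ : Γ) (a : A) :
    (funG.rt π A δ).hom ((funG.const π A).hom a) = (funG.const π A).hom a := rfl

/-- evaluation at `1`, equivariant for `ker π` -/
def funG.ev : Rep.res π.ker.subtype (funG π A) ⟶ Rep.res π.ker.subtype A :=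
  Rep.ofHom
    { toLinearMap :=
        { toFun := fun u => (u : Γ → A) 1
          map_add' := fun u u' => rfl
          map_smul' := fun c u => rfl }
      isIntertwining' := fun g => by
        apply LinearMap.ext
        intro u
        show A.ρ g.1 ((u : Γ → A) ((π g.1)⁻¹ * 1)) = A.ρ g.1 ((u : Γ → A) 1)
        rw [MonoidHom.mem_ker.1 g.2, inv_one, one_mul] }

@[simp] lemma funG.ev_apply (u : Γ → A) : (funG.ev π A).hom u = u 1 := rfl

variable {P : Type} [AddCommGroup P] [Module (ZG Γ) P]

/-- evaluation at `x : P`: `Hom(P, A) → A_Γ`, `φ ↦ (δ ↦ φ(δx))` -/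
def homG.evx (x : P) : homG π P A ⟶ funG π A :=
  Rep.ofHom
    { toLinearMap :=
        { toFun := fun φ δ => (φ : P →+ A) (gsm δ x)
          map_add' := fun φ φ' => rfl
          map_smul' := fun c φ => rfl }
      isIntertwining' := fun g => by
        apply LinearMap.ext
        intro φ
        funext δ
        show A.ρ g ((φ : P →+ A) (gsm (π g)⁻¹ (gsm δ x))) = A.ρ g ((φ : P →+ A) (gsm ((π g)⁻¹ * δ) x))
        rw [gsm_mul] }

@[simp] lemma homG.evx_apply (x : P) (φ : P →+ A) (δ : Γ) :
    ((homG.evx π A x).hom φ : Γ → A) δ = φ (gsm δ x) := rfl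

lemma homG.evx_gsm (γ : Γ) (x : P) (φ : homG π P A) :
    (homG.evx π A (gsm γ x)).hom φ = (funG.rt π A γ).hom ((homG.evx π A x).hom φ) := by
  funext δ
  show (φ : P →+ A) (gsm δ (gsm γ x)) = (φ : P →+ A) (gsm (δ * γ) x)
  rw [gsm_mul]

lemma homG.evx_add (x y : P) (φ : homG π P A) :
    (homG.evx π A (x + y)).hom φ = (homG.evx π A x).hom φ + (homG.evx π A y).hom φ := by
  funext δ
  show (φ : P →+ A) (gsm δ (x + y)) = (φ : P →+ A) (gsm δ x) + (φ : P →+ A) (gsm δ y)
  rw [gsm_add, map_add]

lemma homG.evx_zero (φ : homG π P A) : (homG.evx π A (0 : P)).hom φ = 0 := by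
  funext δ
  show (φ : P →+ A) (gsm δ (0 : P)) = 0
  rw [gsm_zero, map_zero]

lemma homG.evx_comap {P' : Type} [AddCommGroup P'] [Module (ZG Γ) P'] (h : P →ₗ[ZG Γ] P') (x : P)
    (φ : homG π P' A) :
    (homG.evx π A x).hom ((homG.comap π A h).hom φ) = (homG.evx π A (h x)).hom φ := by
  funext δ
  show (φ : P' →+ A) (h (gsm δ x)) = (φ : P' →+ A) (gsm δ (h x))
  rw [gsm_linear]

/-! ### exactness of `A ↦ A_Γ` -/

variable {A} in
lemma funG.map_injective (f : A ⟶ B) (hf : Injective f.hom) : Injective (funG.map π f).hom := by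
  intro u u' h
  funext x
  exact hf (congrFun h x)

variable {A} in
lemma funG.map_surjective (f : A ⟶ B) (hf : Surjective f.hom) : Surjective (funG.map π f).hom := by
  intro v
  exact ⟨fun x => surjInv hf ((v : Γ → B) x), funext fun x => surjInv_eq hf _⟩

variable {A} in
lemma funG.map_exact {C : Rep.{0} k G} (f : A ⟶ B) (g : B ⟶ C)
    (hex : ∀ b : B, g.hom b = 0 ↔ ∃ a, f.hom a = b) (v : funG π B) :
    (funG.map π g).hom v = 0 ↔ ∃ u, (funG.map π f).hom u = v := by
  constructor
  · intro h
    have h' : ∀ x, ∃ a, f.hom a = (v : Γ → B) x := fun x => (hex _).1 (congrFun h x)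
    choose u hu using h'
    exact ⟨u, funext hu⟩
  · rintro ⟨u, rfl⟩
    funext x
    exact (hex _).2 ⟨(u : Γ → A) x, rfl⟩

/-! ### smoothness and Shapiro -/

variable (𝒰 : OpenBasis G)

lemma funG.isSm [Finite Γ] (hker : 𝒰.IsOpen π.ker) (hA : IsSm 𝒰 A) : IsSm 𝒰 (funG π A) := by
  intro u
  choose V hV hfix using fun x : Γ => hA ((u : Γ → A) x)
  obtain ⟨W₀, hW₀, hW₀le⟩ := 𝒰.exists_le_of_finite (T := (Set.univ : Set Γ)) Set.finite_univ V
    (fun x _ => ⟨V x, hV x, le_rfl⟩)
  obtain ⟨U₁, hU₁, hU₁le⟩ := hker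
  obtain ⟨W, hW, hle⟩ := 𝒰.directed W₀ hW₀ U₁ hU₁
  refine ⟨W, hW, fun s hs => ?_⟩
  funext x
  have hsk : π s = 1 := MonoidHom.mem_ker.1 (hU₁le ((hle.trans inf_le_right) hs))
  show A.ρ s ((u : Γ → A) ((π s)⁻¹ * x)) = (u : Γ → A) x
  rw [hsk, inv_one, one_mul]
  exact hfix x s (hW₀le x (Set.mem_univ x) ((hle.trans inf_le_left) hs))

/-- `A_Γ` is the smooth coinduction of `A|_{ker π}` -/
def funG.smCoind [Finite Γ] (hπ : Surjective π) (hker : 𝒰.IsOpen π.ker) (hA : IsSm 𝒰 A) :
    SmCoind 𝒰 (fun _ : PUnit.{1} => ↥π.ker) (fun _ => π.ker.subtype)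
      (fun _ => Rep.res π.ker.subtype A) (funG π A) where
  ev := fun _ => funG.ev π A
  sm := funG.isSm π A 𝒰 hker hA
  inj := by
    intro u h
    funext x
    obtain ⟨g, hg⟩ := hπ x⁻¹
    have h1 := h PUnit.unit g
    have h2 : A.ρ g ((u : Γ → A) ((π g)⁻¹ * 1)) = 0 := h1
    rw [hg, inv_inv, mul_one] at h2
    have h3 := congrArg (A.ρ g⁻¹) h2
    rw [map_zero, ← Module.End.mul_apply, ← map_mul, inv_mul_cancel, map_one] at h3
    exact h3
  surj := by
    intro F hF _
    refine ⟨fun γ => A.ρ (surjInv hπ γ⁻¹)⁻¹ (F PUnit.unit (surjInv hπ γ⁻¹)), fun _ g => ?_⟩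
    show A.ρ g (A.ρ (surjInv hπ ((π g)⁻¹ * 1)⁻¹)⁻¹ (F PUnit.unit (surjInv hπ ((π g)⁻¹ * 1)⁻¹))) =
      F PUnit.unit g
    rw [mul_one, inv_inv]
    set g' := surjInv hπ (π g) with hg'
    have hπg' : π g' = π g := surjInv_eq hπ (π g)
    have hd : g * g'⁻¹ ∈ π.ker := by
      rw [MonoidHom.mem_ker, map_mul, map_inv, hπg', mul_inv_cancel]
    have h1 := hF PUnit.unit ⟨g * g'⁻¹, hd⟩ g'
    have e : (π.ker.subtype ⟨g * g'⁻¹, hd⟩) * g' = g := by
      show g * g'⁻¹ * g' = g
      group
    rw [e] at h1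
    rw [h1, ← Module.End.mul_apply, ← map_mul]
    show A.ρ (g * g'⁻¹) _ = A.ρ (g * g'⁻¹) _
    rfl

end FunG

end Fermat.Agent.S56lib.Euler
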