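/-
S56 marathon, block "Euler characteristics" (helper1), file 15.
Smooth cohomology `Hsm 𝒰 · n` as an additive functor of the coefficients (elementwise forms), and the
**`ℤ[Γ]`-module structure on `Hⁿ(G, A_Γ)`** (`HMod`), `Γ` acting through right translations
(coefficient functoriality).  Maps induced by `A ⟶ B` and connecting homomorphisms are `ℤ[Γ]`-linear.
-/
import Fermat.Agent.S56lib.Euler.HomG

set_option autoImplicit false
set_option linter.unusedSectionVars false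

noncomputable section

namespace Fermat.Agent.S56lib.Euler

open Fermat.Agent.S55lib CategoryTheory Function

variable {k G Γ : Type} [CommRing k] [Group G] [Group Γ] (π : G →* Γ) (𝒰 : OpenBasis G)

section Functor

variable {A B C : Rep.{0} k G}

/-- the map induced on smooth cohomology by a morphism of coefficients -/
abbrev cohMap (f : A ⟶ B) (n : ℕ) : Hsm 𝒰 A n →ₗ[k] Hsm 𝒰 B n := (Csm.map 𝒰 f).mapH n

lemma cohMap_congr {f f' : A ⟶ B} (h : ∀ a, f.hom a = f'.hom a) (n : ℕ) (x : Hsm 𝒰 A n) :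
    cohMap 𝒰 f n x = cohMap 𝒰 f' n x := by
  obtain ⟨x0, hx0, rfl⟩ := (Csm 𝒰 A).exists_rep x
  rw [Cpx.Hom.mapH_cl, Cpx.Hom.mapH_cl]
  refine Cpx.cl_congr _ ?_ _
  apply Subtype.ext
  funext g
  exact h _

lemma cohMap_comp (f : A ⟶ B) (g : B ⟶ C) (h : A ⟶ C) (hh : ∀ a, h.hom a = g.hom (f.hom a)) (n : ℕ)
    (x : Hsm 𝒰 A n) : cohMap 𝒰 g n (cohMap 𝒰 f n x) = cohMap 𝒰 h n x := by
  obtain ⟨x0, hx0, rfl⟩ := (Csm 𝒰 A).exists_rep x
  rw [Cpx.Hom.mapH_cl, Cpx.Hom.mapH_cl, Cpx.Hom.mapH_cl]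
  refine Cpx.cl_congr _ ?_ _
  apply Subtype.ext
  funext g
  exact (hh _).symm

lemma cohMap_id (f : A ⟶ A) (h : ∀ a, f.hom a = a) (n : ℕ) (x : Hsm 𝒰 A n) :
    cohMap 𝒰 f n x = x := by
  obtain ⟨x0, hx0, rfl⟩ := (Csm 𝒰 A).exists_rep x
  rw [Cpx.Hom.mapH_cl]
  refine Cpx.cl_congr _ ?_ _
  apply Subtype.ext
  funext g
  exact h _

lemma cohMap_add (f f' h : A ⟶ B) (hh : ∀ a, h.hom a = f.hom a + f'.hom a) (n : ℕ)
    (x : Hsm 𝒰 A n) : cohMap 𝒰 h n x = cohMap 𝒰 f n x + cohMap 𝒰 f' n x := by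
  obtain ⟨x0, hx0, rfl⟩ := (Csm 𝒰 A).exists_rep x
  rw [Cpx.Hom.mapH_cl, Cpx.Hom.mapH_cl, Cpx.Hom.mapH_cl, ← Cpx.cl_add]
  refine Cpx.cl_congr _ ?_ _
  apply Subtype.ext
  funext g
  exact hh _

lemma cohMap_zero (f : A ⟶ B) (h : ∀ a, f.hom a = 0) (n : ℕ) (x : Hsm 𝒰 A n) :
    cohMap 𝒰 f n x = 0 := by
  obtain ⟨x0, hx0, rfl⟩ := (Csm 𝒰 A).exists_rep x
  rw [Cpx.Hom.mapH_cl, Cpx.cl_eq_zero_iff]
  have : (Csm.map 𝒰 f).f n x0 = 0 := by
    apply Subtype.ext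
    funext g
    exact h _
  rw [this]
  exact Submodule.zero_mem _

lemma cohMap_sum {ι : Type} (s : Finset ι) (f : ι → (A ⟶ B)) (h : A ⟶ B)
    (hh : ∀ a, h.hom a = ∑ i ∈ s, (f i).hom a) (n : ℕ) (x : Hsm 𝒰 A n) :
    cohMap 𝒰 h n x = ∑ i ∈ s, cohMap 𝒰 (f i) n x := by
  classical
  induction s using Finset.induction_on generalizing h with
  | empty =>
    rw [Finset.sum_empty]
    exact cohMap_zero 𝒰 h (fun a => by rw [hh a, Finset.sum_empty]) n x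
  | insert i s hi ih =>
    rw [Finset.sum_insert hi]
    have h1 := ih (h - f i) (fun a => by
      show h.hom a - (f i).hom a = _
      rw [hh a, Finset.sum_insert hi, add_sub_cancel_left])
    rw [← h1]
    refine (cohMap_add 𝒰 (f i) (h - f i) h (fun a => ?_) n x)
    show h.hom a = (f i).hom a + (h.hom a - (f i).hom a)
    abel

end Functor

/-! ### The `ℤ[Γ]`-module `Hⁿ(G, A_Γ)` -/

section HMod

variable (A : Rep.{0} k G) (n : ℕ)

/-- `Γ` acts on `Hⁿ(G, A_Γ)` through right translations -/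
def hRep : Representation ℤ Γ (Hsm 𝒰 (funG π A) n) where
  toFun δ := (cohMap 𝒰 (funG.rt π A δ) n).toAddMonoidHom.toIntLinearMap
  map_one' := by
    apply LinearMap.ext
    intro x
    exact cohMap_id 𝒰 _ (fun u => funext fun y => by
      show (u : Γ → A) (y * 1) = (u : Γ → A) y
      rw [mul_one]) n x
  map_mul' δ δ' := by
    apply LinearMap.ext
    intro x
    exact (cohMap_comp 𝒰 (funG.rt π A δ') (funG.rt π A δ) (funG.rt π A (δ * δ'))
      (fun u => funext fun y => by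
        show (u : Γ → A) (y * (δ * δ')) = (u : Γ → A) (y * δ * δ')
        rw [mul_assoc]) n x).symm

/-- `Hⁿ(G, A_Γ)` as a `ℤ[Γ]`-module -/
abbrev HMod : Type := (hRep π 𝒰 A n).asModule

/-- the identification of the underlying groups -/
def HMod.fn : HMod π 𝒰 A n ≃+ Hsm 𝒰 (funG π A) n := (hRep π 𝒰 A n).asModuleEquiv.toAddEquiv

variable {A n}

lemma HMod.fn_gsm (δ : Γ) (x : HMod π 𝒰 A n) :
    HMod.fn π 𝒰 A n (gsm δ x) = cohMap 𝒰 (funG.rt π A δ) n (HMod.fn π 𝒰 A n x) := by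
  rw [gsm_asModule]
  rfl

variable {B C : Rep.{0} k G}

/-- the `ℤ[Γ]`-linear map induced by a morphism of coefficients -/
def HMod.map (f : A ⟶ B) (n : ℕ) : HMod π 𝒰 A n →ₗ[ZG Γ] HMod π 𝒰 B n :=
  linOfComm (((HMod.fn π 𝒰 B n).symm.toAddMonoidHom.comp
      (cohMap 𝒰 (funG.map π f) n).toAddMonoidHom).comp (HMod.fn π 𝒰 A n).toAddMonoidHom)
    (fun δ x => by
      apply (HMod.fn π 𝒰 B n).injective
      rw [HMod.fn_gsm]
      show (HMod.fn π 𝒰 B n) ((HMod.fn π 𝒰 B n).symm (cohMap 𝒰 (funG.map π f) n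
        (HMod.fn π 𝒰 A n (gsm δ x)))) = cohMap 𝒰 (funG.rt π B δ) n ((HMod.fn π 𝒰 B n)
          ((HMod.fn π 𝒰 B n).symm (cohMap 𝒰 (funG.map π f) n (HMod.fn π 𝒰 A n x))))
      rw [AddEquiv.apply_symm_apply, AddEquiv.apply_symm_apply, HMod.fn_gsm]
      rw [cohMap_comp 𝒰 (funG.rt π A δ) (funG.map π f) (funG.rt π A δ ≫ funG.map π f) (fun _ => rfl),
        cohMap_comp 𝒰 (funG.map π f) (funG.rt π B δ) (funG.rt π A δ ≫ funG.map π f) (fun _ => rfl)])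

lemma HMod.fn_map (f : A ⟶ B) (n : ℕ) (x : HMod π 𝒰 A n) :
    HMod.fn π 𝒰 B n (HMod.map π 𝒰 f n x) = cohMap 𝒰 (funG.map π f) n (HMod.fn π 𝒰 A n x) :=
  AddEquiv.apply_symm_apply _ _

lemma HMod.map_apply (f : A ⟶ B) (n : ℕ) (x : HMod π 𝒰 A n) :
    HMod.map π 𝒰 f n x = (HMod.fn π 𝒰 B n).symm (cohMap 𝒰 (funG.map π f) n (HMod.fn π 𝒰 A n x)) :=
  rfl

/-! ### the long exact sequence -/

variable {π 𝒰}

/-- a short exact sequence of coefficients gives a short exact sequence of the complexes of `A_Γ` -/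
theorem funG.isSES [Finite Γ] (hker : 𝒰.IsOpen π.ker) (f : A ⟶ B) (g : B ⟶ C) (hB : IsSm 𝒰 B)
    (hf : Injective f.hom) (hg : Surjective g.hom) (hex : ∀ b : B, g.hom b = 0 ↔ ∃ a, f.hom a = b) :
    Cpx.IsSES (Csm.map 𝒰 (funG.map π f)) (Csm.map 𝒰 (funG.map π g)) :=
  Csm.map_isSES _ _ (funG.isSm π B 𝒰 hker hB) (funG.map_injective π f hf)
    (funG.map_surjective π g hg) (funG.map_exact π f g hex)

variable {f : A ⟶ B} {g : B ⟶ C}
  (S : Cpx.IsSES (Csm.map 𝒰 (funG.map π f)) (Csm.map 𝒰 (funG.map π g)))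

/-- the connecting homomorphism, `ℤ[Γ]`-linear -/
def HMod.δ (n : ℕ) : HMod π 𝒰 C n →ₗ[ZG Γ] HMod π 𝒰 A (n + 1) :=
  linOfComm (((HMod.fn π 𝒰 A (n + 1)).symm.toAddMonoidHom.comp
      (S.δ n).toAddMonoidHom).comp (HMod.fn π 𝒰 C n).toAddMonoidHom)
    (fun δ x => by
      apply (HMod.fn π 𝒰 A (n + 1)).injective
      rw [HMod.fn_gsm]
      show (HMod.fn π 𝒰 A (n + 1)) ((HMod.fn π 𝒰 A (n + 1)).symm (S.δ n
        (HMod.fn π 𝒰 C n (gsm δ x)))) = cohMap 𝒰 (funG.rt π A δ) (n + 1) ((HMod.fn π 𝒰 A (n + 1))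
          ((HMod.fn π 𝒰 A (n + 1)).symm (S.δ n (HMod.fn π 𝒰 C n x))))
      rw [AddEquiv.apply_symm_apply, AddEquiv.apply_symm_apply, HMod.fn_gsm]
      exact (Cpx.IsSES.δ_naturality S S (Csm.map 𝒰 (funG.rt π A δ)) (Csm.map 𝒰 (funG.rt π B δ))
        (Csm.map 𝒰 (funG.rt π C δ)) (fun _ _ => rfl) (fun _ _ => rfl) n _).symm)

lemma HMod.fn_δ (n : ℕ) (x : HMod π 𝒰 C n) :
    HMod.fn π 𝒰 A (n + 1) (HMod.δ S n x) = S.δ n (HMod.fn π 𝒰 C n x) :=
  AddEquiv.apply_symm_apply _ _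

include S in
theorem HMod.map_zero_injective : Injective (HMod.map π 𝒰 f 0) := by
  intro x y h
  apply (HMod.fn π 𝒰 A 0).injective
  apply S.mapH_zero_injective
  have := congrArg (HMod.fn π 𝒰 B 0) h
  rwa [HMod.fn_map, HMod.fn_map] at this

include S in
theorem HMod.exact_mid (n : ℕ) : Exact (HMod.map π 𝒰 f n) (HMod.map π 𝒰 g n) := by
  intro y
  constructor
  · intro h
    have h1 := congrArg (HMod.fn π 𝒰 C n) h
    rw [HMod.fn_map, map_zero] at h1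
    obtain ⟨x, hx⟩ := (S.exact_mid n _).1 h1
    refine ⟨(HMod.fn π 𝒰 A n).symm x, ?_⟩
    apply (HMod.fn π 𝒰 B n).injective
    rw [HMod.fn_map, AddEquiv.apply_symm_apply, hx]
  · rintro ⟨x, rfl⟩
    apply (HMod.fn π 𝒰 C n).injective
    rw [HMod.fn_map, HMod.fn_map, map_zero]
    exact S.mapH_comp_mapH n _

theorem HMod.exact_right (n : ℕ) : Exact (HMod.map π 𝒰 g n) (HMod.δ S n) := by
  intro y
  constructor
  · intro h
    have h1 := congrArg (HMod.fn π 𝒰 A (n + 1)) h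
    rw [HMod.fn_δ, map_zero] at h1
    obtain ⟨x, hx⟩ := (S.exact_right n _).1 h1
    refine ⟨(HMod.fn π 𝒰 B n).symm x, ?_⟩
    apply (HMod.fn π 𝒰 C n).injective
    rw [HMod.fn_map, AddEquiv.apply_symm_apply, hx]
  · rintro ⟨x, rfl⟩
    apply (HMod.fn π 𝒰 A (n + 1)).injective
    rw [HMod.fn_δ, HMod.fn_map, map_zero]
    exact S.δ_comp_mapH n _

theorem HMod.exact_left (n : ℕ) : Exact (HMod.δ S n) (HMod.map π 𝒰 f (n + 1)) := by
  intro y
  constructor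
  · intro h
    have h1 := congrArg (HMod.fn π 𝒰 B (n + 1)) h
    rw [HMod.fn_map, map_zero] at h1
    obtain ⟨x, hx⟩ := (S.exact_left n _).1 h1
    refine ⟨(HMod.fn π 𝒰 C n).symm x, ?_⟩
    apply (HMod.fn π 𝒰 A (n + 1)).injective
    rw [HMod.fn_δ, AddEquiv.apply_symm_apply, hx]
  · rintro ⟨x, rfl⟩
    apply (HMod.fn π 𝒰 B (n + 1)).injective
    rw [HMod.fn_map, HMod.fn_δ, map_zero]
    exact S.mapH_comp_δ n _

end HMod

end Fermat.Agent.S56lib.Euler
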