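/-
S56 marathon, block "Euler characteristics" (helper1), file 18.
**The comparison `Θ_P : Hⁿ(G, Hom(P, μ)) → Hom_{ℤ[Γ]}(P, Hⁿ(G, μ_Γ))`**, `Θ(c)(x) = Hⁿ(ev_x)(c)`, natural in
the `ℤ[Γ]`-module `P`; it is bijective for a "base" module (free of rank one), and bijectivity is inherited by
finite powers and by retracts.
-/
import Fermat.Agent.S56lib.Euler.CohMod

set_option autoImplicit false
set_option linter.unusedSectionVars false

noncomputable section

namespace Fermat.Agent.S56lib.Euler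

open Fermat.Agent.S55lib CategoryTheory Function

variable {k G Γ : Type} [CommRing k] [Group G] [Group Γ] (π : G →* Γ) (𝒰 : OpenBasis G)
  (μ : Rep.{0} k G)

section Def

variable {P P' : Type} [AddCommGroup P] [Module (ZG Γ) P] [AddCommGroup P'] [Module (ZG Γ) P']

/-- `Θ(c) : P → Hⁿ(G, μ_Γ)`, `x ↦ Hⁿ(ev_x)(c)` -/
def theta (n : ℕ) (c : Hsm 𝒰 (homG π P μ) n) : P →ₗ[ZG Γ] HMod π 𝒰 μ n :=
  linOfComm
    { toFun := fun x => (HMod.fn π 𝒰 μ n).symm (cohMap 𝒰 (homG.evx π μ x) n c)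
      map_zero' := by
        rw [cohMap_zero 𝒰 _ (fun φ => homG.evx_zero π μ φ), map_zero]
      map_add' := fun x y => by
        rw [cohMap_add 𝒰 (homG.evx π μ x) (homG.evx π μ y) (homG.evx π μ (x + y))
          (fun φ => homG.evx_add π μ x y φ), map_add] }
    (fun δ x => by
      apply (HMod.fn π 𝒰 μ n).injective
      rw [HMod.fn_gsm]
      show (HMod.fn π 𝒰 μ n) ((HMod.fn π 𝒰 μ n).symm (cohMap 𝒰 (homG.evx π μ (gsm δ x)) n c)) =
        cohMap 𝒰 (funG.rt π μ δ) n ((HMod.fn π 𝒰 μ n) ((HMod.fn π 𝒰 μ n).symm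
          (cohMap 𝒰 (homG.evx π μ x) n c)))
      rw [AddEquiv.apply_symm_apply, AddEquiv.apply_symm_apply]
      exact (cohMap_comp 𝒰 (homG.evx π μ x) (funG.rt π μ δ) (homG.evx π μ (gsm δ x))
        (fun φ => homG.evx_gsm π μ δ x φ) n c).symm)

lemma fn_theta (n : ℕ) (c : Hsm 𝒰 (homG π P μ) n) (x : P) :
    HMod.fn π 𝒰 μ n (theta π 𝒰 μ n c x) = cohMap 𝒰 (homG.evx π μ x) n c :=
  AddEquiv.apply_symm_apply _ _

/-- `Θ` as an additive map -/
def thetaHom (P : Type) [AddCommGroup P] [Module (ZG Γ) P] (n : ℕ) :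
    Hsm 𝒰 (homG π P μ) n →+ (P →ₗ[ZG Γ] HMod π 𝒰 μ n) where
  toFun := theta π 𝒰 μ n
  map_zero' := by
    apply LinearMap.ext
    intro x
    apply (HMod.fn π 𝒰 μ n).injective
    rw [fn_theta, map_zero, LinearMap.zero_apply, map_zero]
  map_add' := fun c c' => by
    apply LinearMap.ext
    intro x
    apply (HMod.fn π 𝒰 μ n).injective
    rw [fn_theta, map_add, LinearMap.add_apply, map_add, fn_theta, fn_theta]

@[simp] lemma thetaHom_apply (n : ℕ) (c : Hsm 𝒰 (homG π P μ) n) :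
    thetaHom π 𝒰 μ P n c = theta π 𝒰 μ n c := rfl

/-- naturality of `Θ` in `P` -/
lemma theta_comap (h : P →ₗ[ZG Γ] P') (n : ℕ) (c : Hsm 𝒰 (homG π P' μ) n) (x : P) :
    theta π 𝒰 μ n (cohMap 𝒰 (homG.comap π μ h) n c) x = theta π 𝒰 μ n c (h x) := by
  apply (HMod.fn π 𝒰 μ n).injective
  rw [fn_theta, fn_theta]
  exact cohMap_comp 𝒰 (homG.comap π μ h) (homG.evx π μ x) (homG.evx π μ (h x))
    (fun φ => (homG.evx_comap π μ h x φ).symm) n c

/-- `Θ_P` is bijective in every degree -/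
def ThetaBij (P : Type) [AddCommGroup P] [Module (ZG Γ) P] : Prop :=
  ∀ n, Bijective (thetaHom π 𝒰 μ P n)

end Def

section Closure

variable {P P' : Type} [AddCommGroup P] [Module (ZG Γ) P] [AddCommGroup P'] [Module (ZG Γ) P']

/-- bijectivity of `Θ` passes to retracts -/
theorem thetaBij_of_retract (i : P →ₗ[ZG Γ] P') (r : P' →ₗ[ZG Γ] P) (hri : ∀ x, r (i x) = x)
    (h : ThetaBij π 𝒰 μ P') : ThetaBij π 𝒰 μ P := by
  intro n
  have hid : ∀ c : Hsm 𝒰 (homG π P μ) n,
      cohMap 𝒰 (homG.comap π μ i) n (cohMap 𝒰 (homG.comap π μ r) n c) = c := fun c => by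
    rw [cohMap_comp 𝒰 (homG.comap π μ r) (homG.comap π μ i) (homG.comap π μ (r.comp i))
      (fun φ => rfl)]
    exact cohMap_id 𝒰 _ (fun φ => by
      apply DFunLike.ext
      intro x
      show (φ : P →+ μ) (r (i x)) = (φ : P →+ μ) x
      rw [hri]) n c
  constructor
  · rw [injective_iff_map_eq_zero]
    intro c hc
    have h1 : thetaHom π 𝒰 μ P' n (cohMap 𝒰 (homG.comap π μ r) n c) = 0 := by
      apply LinearMap.ext
      intro y
      rw [thetaHom_apply, theta_comap, ← thetaHom_apply, hc]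
      rfl
    have h2 := (h n).1 (h1.trans (map_zero _).symm)
    rw [← hid c, h2, map_zero]
  · intro lam
    obtain ⟨c', hc'⟩ := (h n).2 (lam.comp r)
    refine ⟨cohMap 𝒰 (homG.comap π μ i) n c', ?_⟩
    apply LinearMap.ext
    intro x
    rw [thetaHom_apply, theta_comap, ← thetaHom_apply, hc']
    show lam (r (i x)) = lam x
    rw [hri]

/-- bijectivity of `Θ` passes to finite powers -/
theorem thetaBij_pi (ι : Type) [Fintype ι] [DecidableEq ι] (Q : Type) [AddCommGroup Q] [Module (ZG Γ) Q]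
    (h : ThetaBij π 𝒰 μ Q) : ThetaBij π 𝒰 μ (ι → Q) := by
  intro n
  -- `id = Σ_j in_j ∘ pr_j` on cohomology
  have hsum : ∀ c : Hsm 𝒰 (homG π (ι → Q) μ) n,
      c = ∑ j, cohMap 𝒰 (homG.comap π μ (LinearMap.proj (R := ZG Γ) (φ := fun _ : ι => Q) j)) n
        (cohMap 𝒰 (homG.comap π μ (LinearMap.single (ZG Γ) (fun _ : ι => Q) j)) n c) := fun c => by
    have h1 := cohMap_sum 𝒰 Finset.univ
      (fun j => homG.comap π μ ((LinearMap.single (ZG Γ) (fun _ : ι => Q) j).comp
        (LinearMap.proj (R := ZG Γ) (φ := fun _ : ι => Q) j)))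
      (𝟙 (homG π (ι → Q) μ)) (fun φ => by
        apply DFunLike.ext
        intro x
        show (φ : (ι → Q) →+ μ) x = (∑ j, (homG.comap π μ ((LinearMap.single (ZG Γ) (fun _ : ι => Q) j).comp
          (LinearMap.proj (R := ZG Γ) (φ := fun _ : ι => Q) j))).hom φ : (ι → Q) →+ μ) x
        rw [AddMonoidHom.finsetSum_apply]
        have e : ∀ j, ((homG.comap π μ ((LinearMap.single (ZG Γ) (fun _ : ι => Q) j).comp
            (LinearMap.proj (R := ZG Γ) (φ := fun _ : ι => Q) j))).hom φ : (ι → Q) →+ μ) x =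
            (φ : (ι → Q) →+ μ) (Pi.single j (x j)) := fun j => rfl
        rw [Finset.sum_congr rfl (fun j _ => e j), ← map_sum]
        congr 1
        funext i
        simp [Finset.sum_apply, Pi.single_apply]) n c
    rw [cohMap_id 𝒰 _ (fun _ => rfl)] at h1
    refine h1.trans ?_
    refine Finset.sum_congr rfl fun j _ => ?_
    exact (cohMap_comp 𝒰 (homG.comap π μ (LinearMap.single (ZG Γ) (fun _ : ι => Q) j))
      (homG.comap π μ (LinearMap.proj (R := ZG Γ) (φ := fun _ : ι => Q) j))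
      (homG.comap π μ ((LinearMap.single (ZG Γ) (fun _ : ι => Q) j).comp
        (LinearMap.proj (R := ZG Γ) (φ := fun _ : ι => Q) j))) (fun φ => rfl) n c).symm
  constructor
  · rw [injective_iff_map_eq_zero]
    intro c hc
    rw [hsum c]
    refine Finset.sum_eq_zero fun j _ => ?_
    have h1 : thetaHom π 𝒰 μ Q n
        (cohMap 𝒰 (homG.comap π μ (LinearMap.single (ZG Γ) (fun _ : ι => Q) j)) n c) = 0 := by
      apply LinearMap.ext
      intro y
      rw [thetaHom_apply, theta_comap, ← thetaHom_apply, hc]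
      rfl
    rw [(h n).1 (h1.trans (map_zero _).symm), map_zero]
  · intro lam
    choose cj hcj using fun j => (h n).2 (lam.comp (LinearMap.single (ZG Γ) (fun _ : ι => Q) j))
    refine ⟨∑ j, cohMap 𝒰 (homG.comap π μ (LinearMap.proj (R := ZG Γ) (φ := fun _ : ι => Q) j)) n (cj j), ?_⟩
    apply LinearMap.ext
    intro x
    rw [map_sum, LinearMap.sum_apply]
    have : ∀ j, thetaHom π 𝒰 μ (ι → Q) n
        (cohMap 𝒰 (homG.comap π μ (LinearMap.proj (R := ZG Γ) (φ := fun _ : ι => Q) j)) n (cj j)) x =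
        lam (Pi.single j (x j)) := fun j => by
      rw [thetaHom_apply, theta_comap, ← thetaHom_apply, hcj j]
      rfl
    rw [Finset.sum_congr rfl fun j _ => this j, ← map_sum]
    congr 1
    funext j
    simp [Finset.sum_apply, Pi.single_apply]

/-- the base case: a module `Q` with an element `e` such that `ev_e : Hom(Q, μ) → μ_Γ` is bijective and
`λ ↦ λ e` is bijective on `Hom_{ℤ[Γ]}(Q, Hⁿ)` -/
theorem thetaBij_base (Q : Type) [AddCommGroup Q] [Module (ZG Γ) Q] (e : Q)
    (he : Bijective (homG.evx π μ e).hom)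
    (hev : ∀ n, Bijective (fun lam : Q →ₗ[ZG Γ] HMod π 𝒰 μ n => lam e)) : ThetaBij π 𝒰 μ Q := by
  intro n
  -- the inverse morphism of `ev_e`
  let E := Equiv.ofBijective _ he
  have hE : ∀ φ, E φ = (homG.evx π μ e).hom φ := fun φ => rfl
  let inv : funG π μ ⟶ homG π Q μ :=
    Rep.ofHom
      { toLinearMap :=
          { toFun := fun u => E.symm u
            map_add' := fun u u' => by
              apply E.injective
              rw [Equiv.apply_symm_apply, hE, map_add, ← hE, ← hE, Equiv.apply_symm_apply,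
                Equiv.apply_symm_apply]
            map_smul' := fun a u => by
              apply E.injective
              rw [Equiv.apply_symm_apply, hE, map_smul, ← hE, Equiv.apply_symm_apply]
              rfl }
        isIntertwining' := fun g => by
          apply LinearMap.ext
          intro u
          apply E.injective
          show E (E.symm ((funG π μ).ρ g u)) = E ((homG π Q μ).ρ g (E.symm u))
          rw [Equiv.apply_symm_apply, hE, Rep.hom_comm_apply, ← hE, Equiv.apply_symm_apply] }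
  have hinv1 : ∀ u, (homG.evx π μ e).hom (inv.hom u) = u := fun u => E.apply_symm_apply u
  have hinv2 : ∀ φ, inv.hom ((homG.evx π μ e).hom φ) = φ := fun φ => E.symm_apply_apply φ
  have hcoh : Bijective (cohMap 𝒰 (homG.evx π μ e) n) := by
    constructor
    · intro c c' hcc
      have := congrArg (cohMap 𝒰 inv n) hcc
      rwa [cohMap_comp 𝒰 _ _ (𝟙 _) (fun φ => (hinv2 φ).symm), cohMap_comp 𝒰 _ _ (𝟙 _)
        (fun φ => (hinv2 φ).symm), cohMap_id 𝒰 _ (fun _ => rfl), cohMap_id 𝒰 _ (fun _ => rfl)] at this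
    · intro y
      refine ⟨cohMap 𝒰 inv n y, ?_⟩
      rw [cohMap_comp 𝒰 _ _ (𝟙 _) (fun u => (hinv1 u).symm), cohMap_id 𝒰 _ (fun _ => rfl)]
  -- `Θ(c)(e) = Hⁿ(ev_e)(c)`
  have hcomp : (fun lam : Q →ₗ[ZG Γ] HMod π 𝒰 μ n => lam e) ∘ (thetaHom π 𝒰 μ Q n) =
      (HMod.fn π 𝒰 μ n).symm ∘ (cohMap 𝒰 (homG.evx π μ e) n) := rfl
  have hb : Bijective ((fun lam : Q →ₗ[ZG Γ] HMod π 𝒰 μ n => lam e) ∘ (thetaHom π 𝒰 μ Q n)) := by
    rw [hcomp]
    exact (HMod.fn π 𝒰 μ n).symm.bijective.comp hcoh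
  exact ⟨(Injective.of_comp_iff (hev n).1 _).1 hb.1,
    (Surjective.of_comp_iff' (hev n) _).1 hb.2⟩

end Closure

end Fermat.Agent.S56lib.Euler
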