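/-
S56 marathon, block "Euler characteristics" (helper1), file 20.
**`Θ_P` is bijective for retracts of free `𝔽_p[Γ]`-modules**: for `μ` killed by `p` and `P` with a
presentation `Pres p P`, `Hⁿ(G, Hom(P, μ)) ≅ Hom_{ℤ[Γ]}(P, Hⁿ(G, μ_Γ))`, in particular
`|Hⁿ(G, Hom(P, μ))| = |Hom_{ℤ[Γ]}(P, Hⁿ(G, μ_Γ))|`.  Also: smoothness of `Hom(P, A)` for finite `P`,
and `p·Hⁿ(G, A) = 0` when `p·A = 0`.
-/
import Fermat.Agent.S56lib.Euler.Theta
import Fermat.Agent.S56lib.Euler.Proj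

set_option autoImplicit false
set_option linter.unusedSectionVars false

noncomputable section

namespace Fermat.Agent.S56lib.Euler

open Fermat.Agent.S55lib CategoryTheory Function

section Tors

variable {G : Type} [Group G] (𝒰 : OpenBasis G) {p : ℕ}

/-- the cohomology of a module killed by `p` is killed by `p` -/
lemma nsmul_Hsm_eq_zero {A : Rep.{0} ℤ G} (hA : ∀ a : A, p • a = 0) (n : ℕ) (x : Hsm 𝒰 A n) :
    p • x = 0 := by
  have h1 := cohMap_sum 𝒰 (Finset.range p) (fun _ => 𝟙 A) (0 : A ⟶ A) (fun a => by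
    rw [Finset.sum_const, Finset.card_range]
    exact (hA a).symm) n x
  rw [Finset.sum_congr rfl fun i _ => cohMap_id 𝒰 (𝟙 A) (fun _ => rfl) n x, Finset.sum_const,
    Finset.card_range] at h1
  rw [← h1]
  exact cohMap_zero 𝒰 _ (fun _ => rfl) n x

end Tors

section Smooth

variable {G Γ : Type} [Group G] [Group Γ] (π : G →* Γ) (𝒰 : OpenBasis G)

/-- `Hom(P, A)` is smooth for finite `P` -/
lemma homG.isSm {P : Type} [AddCommGroup P] [Module (ZG Γ) P] [Finite P] {A : Rep.{0} ℤ G}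
    (hker : 𝒰.IsOpen π.ker) (hA : IsSm 𝒰 A) : IsSm 𝒰 (homG π P A) := by
  intro φ
  choose V hV hfix using fun x : P => hA ((φ : P →+ A) x)
  obtain ⟨W₀, hW₀, hW₀le⟩ := 𝒰.exists_le_of_finite (T := (Set.univ : Set P)) Set.finite_univ V
    (fun x _ => ⟨V x, hV x, le_rfl⟩)
  obtain ⟨U₁, hU₁, hU₁le⟩ := hker
  obtain ⟨W, hW, hle⟩ := 𝒰.directed W₀ hW₀ U₁ hU₁
  refine ⟨W, hW, fun s hs => ?_⟩
  apply DFunLike.ext
  intro x
  have hsk : π s = 1 := MonoidHom.mem_ker.1 (hU₁le ((hle.trans inf_le_right) hs))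
  show A.ρ s ((φ : P →+ A) (gsm (π s)⁻¹ x)) = (φ : P →+ A) x
  rw [hsk, inv_one, gsm_one]
  exact hfix x s (hW₀le x (Set.mem_univ x) ((hle.trans inf_le_left) hs))

end Smooth

section ThetaPres

variable {G Γ : Type} [Group G] [Group Γ] [Fintype Γ] [DecidableEq Γ] (π : G →* Γ) (𝒰 : OpenBasis G)
  (μ : Rep.{0} ℤ G) {p : ℕ} [hp : Fact p.Prime] (hμ : ∀ x : μ, p • x = 0)

include hμ

/-- `Hⁿ(G, μ_Γ)` is killed by `p` -/
lemma nsmul_HMod (n : ℕ) (x : HMod π 𝒰 μ n) : p • x = 0 := by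
  apply (HMod.fn π 𝒰 μ n).injective
  rw [map_nsmul, map_zero]
  exact nsmul_Hsm_eq_zero 𝒰 (fun u : funG π μ => funext fun y => hμ ((u : Γ → μ) y)) n _

/-- evaluation at `e₁` identifies `Hom(𝔽_p[Γ], μ)` with `μ_Γ` -/
lemma evx_reg_bijective : Bijective (homG.evx π μ (Reg.e (Γ := Γ) p)).hom := by
  constructor
  · intro φ φ' h
    have h1 : ∀ δ : Γ, (φ : Reg Γ p →+ μ) (PermMod.delta (Γ := Γ) (p := p) δ) =
        (φ' : Reg Γ p →+ μ) (PermMod.delta (Γ := Γ) (p := p) δ) := fun δ => by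
      have := congrFun h δ
      rw [← Reg.gsm_e]
      exact this
    obtain ⟨F, _, hF⟩ := exists_unique_addHom_pi (p := p) hμ
      (fun δ : Γ => (φ : Reg Γ p →+ μ) (PermMod.delta (Γ := Γ) (p := p) δ))
    have e1 := hF ((φ : Reg Γ p →+ μ).comp
      (PermMod.fn (Γ := Γ) (A := ZMod p) (X := Γ)).symm.toAddMonoidHom) (fun x => rfl)
    have e2 := hF ((φ' : Reg Γ p →+ μ).comp
      (PermMod.fn (Γ := Γ) (A := ZMod p) (X := Γ)).symm.toAddMonoidHom) (fun x => (h1 x).symm)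
    apply DFunLike.ext
    intro w
    have := DFunLike.congr_fun (e1.trans e2.symm) (PermMod.fn w)
    simpa using this
  · intro u
    obtain ⟨F, hF, _⟩ := exists_unique_addHom_pi (p := p) hμ (u : Γ → μ)
    refine ⟨(F.comp (PermMod.fn (Γ := Γ) (A := ZMod p) (X := Γ)).toAddMonoidHom : Reg Γ p →+ μ), ?_⟩
    funext δ
    show F (PermMod.fn (gsm δ (Reg.e (Γ := Γ) p))) = (u : Γ → μ) δ
    rw [Reg.gsm_e]
    simpa [PermMod.delta] using hF δ

/-- `Θ` is bijective for the regular module -/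
theorem thetaBij_reg : ThetaBij π 𝒰 μ (Reg Γ p) :=
  thetaBij_base π 𝒰 μ (Reg Γ p) (Reg.e p) (evx_reg_bijective π μ hμ)
    (fun n => Reg.eval_bijective p (nsmul_HMod π 𝒰 μ hμ n))

/-- `Θ` is bijective for retracts of finite free modules -/
theorem thetaBij_of_pres {P : Type} [AddCommGroup P] [Module (ZG Γ) P] (𝔭 : Pres (Γ := Γ) p P) :
    ThetaBij π 𝒰 μ P :=
  thetaBij_of_retract π 𝒰 μ 𝔭.i 𝔭.r 𝔭.hri
    (thetaBij_pi π 𝒰 μ (Fin 𝔭.d) (Reg Γ p) (thetaBij_reg π 𝒰 μ hμ))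

/-- `|Hⁿ(G, Hom(P, μ))| = |Hom_{ℤ[Γ]}(P, Hⁿ(G, μ_Γ))|` -/
theorem card_Hsm_homG_of_pres {P : Type} [AddCommGroup P] [Module (ZG Γ) P]
    (𝔭 : Pres (Γ := Γ) p P) (n : ℕ) :
    Nat.card (Hsm 𝒰 (homG π P μ) n) = Nat.card (P →ₗ[ZG Γ] HMod π 𝒰 μ n) :=
  Nat.card_eq_of_bijective _ (thetaBij_of_pres π 𝒰 μ hμ 𝔭 n)

end ThetaPres

end Fermat.Agent.S56lib.Euler
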