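/-
S56 marathon, block "Euler characteristics" (helper1), file 21.
**The generic Euler characteristic formula.**  `π : G ↠ Γ` finite with open kernel, `μ` a finite smooth
`G`-module killed by `p`, `Tⁿ = Hⁿ(G, μ_Γ)` (`HMod`).  Hypotheses: `T¹, T²` finite, `H³(G, Hom(N, μ)) = 0`
for all finite `𝔽_p[Γ]`-modules `N` (`EulerHyp`), and the base identity
`ψ(T⁰) − ψ(T¹) + ψ(T²) = −ψ(X)` for all additive invariants `ψ` of `ℤ[Γ]`-modules.  Conclusion
(`euler_generic`): `χ(G, Hom(N, μ)) = −ℓ(N)` for every finite `N` killed by `p`, where `ℓ` is any additive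
invariant with `ℓ(P) = dim Hom_Γ(P, X)` on retracts of free modules.
-/
import Fermat.Agent.S56lib.Euler.ThetaPres
import Fermat.Agent.S56lib.Euler.Main
import Fermat.Agent.S56lib.Fin.Additive
import Fermat.Agent.S56lib.Fin.H1Gen

set_option autoImplicit false
set_option linter.unusedSectionVars false

noncomputable section

namespace Fermat.Agent.S56lib.Euler

open Fermat.Agent.S55lib CategoryTheory Function

/-! ### Exactness of `N ↦ Hom(N, A)` -/

section Exactness

variable {G Γ : Type} [Group G] [Group Γ] (π : G →* Γ) {N' N N'' : Type} [AddCommGroup N']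
  [Module (ZG Γ) N'] [AddCommGroup N] [Module (ZG Γ) N] [AddCommGroup N''] [Module (ZG Γ) N'']
  (f : N' →ₗ[ZG Γ] N) (g : N →ₗ[ZG Γ] N'') (A : Rep.{0} ℤ G)

lemma homG.comap_injective (hg : Surjective g) : Injective (homG.comap π A g).hom := by
  intro φ φ' h
  apply DFunLike.ext
  intro y
  obtain ⟨x, rfl⟩ := hg y
  exact DFunLike.congr_fun h x

lemma homG.comap_surjective {p : ℕ} [Fact p.Prime] (hf : Injective f) (hN : ∀ v : N, p • v = 0) :
    Surjective (homG.comap π A f).hom := by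
  intro φ'
  obtain ⟨r, hr⟩ := exists_additive_retraction (p := p) f.toAddMonoidHom hf hN
  refine ⟨((φ' : N' →+ A).comp r : N →+ A), ?_⟩
  apply DFunLike.ext
  intro x
  show (φ' : N' →+ A) (r (f x)) = (φ' : N' →+ A) x
  rw [show r (f x) = x from hr x]

lemma homG.comap_exact (hg : Surjective g) (hfg : Exact f g) (φ : homG π N A) :
    (homG.comap π A f).hom φ = 0 ↔ ∃ φ'' : homG π N'' A, (homG.comap π A g).hom φ'' = φ := by
  constructor
  · intro h
    have hker : g.toAddMonoidHom.ker ≤ (φ : N →+ A).ker := by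
      intro x hx
      obtain ⟨y, rfl⟩ := (hfg x).1 hx
      exact DFunLike.congr_fun h y
    refine ⟨(g.toAddMonoidHom.liftOfRightInverse (surjInv hg) (rightInverse_surjInv hg)
      ⟨(φ : N →+ A), hker⟩ : N'' →+ A), ?_⟩
    apply DFunLike.ext
    intro x
    exact AddMonoidHom.liftOfRightInverse_comp_apply g.toAddMonoidHom (surjInv hg)
      (rightInverse_surjInv hg) ⟨(φ : N →+ A), hker⟩ x
  · rintro ⟨φ'', rfl⟩
    apply DFunLike.ext
    intro x
    show (φ'' : N'' →+ A) (g (f x)) = 0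
    rw [hfg.apply_apply_eq_zero, map_zero]

end Exactness

/-! ### Small lemmas -/

section Small

/-- the middle term of an exact sequence with finite ends is finite -/
theorem finite_of_exact_mid {X Y Z : Type*} [AddCommGroup X] [AddCommGroup Y] [AddCommGroup Z]
    [Finite X] [Finite Z] (f : X →+ Y) (g : Y →+ Z) (h : ∀ y, g y = 0 ↔ ∃ x, f x = y) : Finite Y := by
  classical
  let s : Z → Y := fun b => if h : ∃ a, g a = b then h.choose else 0
  have hs : ∀ a, g (s (g a)) = g a := by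
    intro a
    have h' : ∃ a', g a' = g a := ⟨a, rfl⟩
    simp only [s, dif_pos h']
    exact h'.choose_spec
  have hk : ∀ a, ∃ x, f x = a - s (g a) := fun a => (h _).1 (by rw [map_sub, hs, sub_self])
  choose t ht using hk
  let Φ : Y → X × Z := fun a => (t a, g a)
  refine Finite.of_injective Φ ?_
  intro a a' hh
  have h1 : g a = g a' := congrArg Prod.snd hh
  have h2 : t a = t a' := congrArg Prod.fst hh
  have h3 : a - s (g a) = a' - s (g a') := by rw [← ht, ← ht, h2]
  rw [h1] at h3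
  exact sub_left_injective h3

instance IsPFin.pi {p : ℕ} {ι : Type} [Finite ι] {V : Type} [AddCommGroup V] [IsPFin p V] :
    IsPFin p (ι → V) where
  finite := haveI := IsPFin.finite (p := p) (V := V); inferInstance
  nsmul_eq_zero v := funext fun i => IsPFin.nsmul_eq_zero (p := p) (v i)

lemma padicValNat_mul5 {p : ℕ} [Fact p.Prime] {a b c d e : ℕ} (ha : a ≠ 0) (hb : b ≠ 0) (hc : c ≠ 0)
    (hd : d ≠ 0) (he : e ≠ 0) :
    padicValNat p (a * b * c * d * e) =
      padicValNat p a + padicValNat p b + padicValNat p c + padicValNat p d + padicValNat p e := by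
  rw [padicValNat.mul (by positivity) he, padicValNat.mul (by positivity) hd,
    padicValNat.mul (by positivity) hc, padicValNat.mul ha hb]

lemma padicValNat_mul4 {p : ℕ} [Fact p.Prime] {a b c d : ℕ} (ha : a ≠ 0) (hb : b ≠ 0) (hc : c ≠ 0)
    (hd : d ≠ 0) :
    padicValNat p (a * b * c * d) =
      padicValNat p a + padicValNat p b + padicValNat p c + padicValNat p d := by
  rw [padicValNat.mul (by positivity) hd, padicValNat.mul (by positivity) hc,
    padicValNat.mul ha hb]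

end Small

section Generic

variable {G Γ : Type} [Group G] [Group Γ] [Fintype Γ] [DecidableEq Γ] (π : G →* Γ) (𝒰 : OpenBasis G)
  (μ : Rep.{0} ℤ G) (p : ℕ) [hp : Fact p.Prime]

/-- the standing hypotheses of the generic Euler characteristic formula -/
structure EulerHyp : Prop where
  hker : 𝒰.IsOpen π.ker
  sm : IsSm 𝒰 μ
  tors : ∀ x : μ, p • x = 0
  fin : Finite μ
  finT1 : Finite (HMod π 𝒰 μ 1)
  finT2 : Finite (HMod π 𝒰 μ 2)
  h3 : ∀ (N : Type) [AddCommGroup N] [Module (ZG Γ) N] [IsPFin p N]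
    (x : Hsm 𝒰 (homG π N μ) 3), x = 0

variable {π 𝒰 μ p}

/-- every finite module killed by `p` is a quotient of a finite free `𝔽_p[Γ]`-module -/
lemma exists_free_cover (N : Type) [AddCommGroup N] [Module (ZG Γ) N] [IsPFin p N] :
    ∃ (d : ℕ) (lam : (Fin d → Reg Γ p) →ₗ[ZG Γ] N), Surjective lam := by
  haveI := IsPFin.finite (p := p) (V := N)
  obtain ⟨d, ⟨e⟩⟩ := Finite.exists_equiv_fin N
  obtain ⟨lam, hlam⟩ := exists_pi_reg (Γ := Γ) (p := p) (IsPFin.nsmul_eq_zero (p := p) (V := N))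
    (fun j : Fin d => e.symm j)
  refine ⟨d, lam, fun x => ⟨Pi.single (e x) (Reg.e p), ?_⟩⟩
  rw [hlam, Equiv.symm_apply_apply]

/-- the tautological presentation of a free module -/
def Pres.free (d : ℕ) : Pres (Γ := Γ) p (Fin d → Reg Γ p) where
  d := d
  i := LinearMap.id
  r := LinearMap.id
  hri := fun _ => rfl

namespace EulerHyp

variable (h : EulerHyp π 𝒰 μ p)
include h

lemma finite_homG (N : Type) [AddCommGroup N] [Module (ZG Γ) N] [Finite N] :
    Finite (homG π N μ) := by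
  haveI := h.fin
  exact Finite.of_injective (fun φ : N →+ μ => (φ : N → μ)) DFunLike.coe_injective

lemma finite_H0 (N : Type) [AddCommGroup N] [Module (ZG Γ) N] [IsPFin p N] :
    Finite (Hsm 𝒰 (homG π N μ) 0) := by
  haveI := IsPFin.finite (p := p) (V := N)
  haveI := h.finite_homG N
  exact Fin.finite_H0 𝒰 _

lemma finite_HMod (n : ℕ) (hn : n ≤ 2) : Finite (HMod π 𝒰 μ n) := by
  interval_cases n
  · haveI := h.fin
    haveI : Finite (funG π μ) := (inferInstance : Finite (Γ → μ))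
    haveI := Fin.finite_H0 𝒰 (funG π μ)
    exact Finite.of_injective _ (HMod.fn π 𝒰 μ 0).injective
  · exact h.finT1
  · exact h.finT2

lemma finite_of_pres {P : Type} [AddCommGroup P] [Module (ZG Γ) P] [Finite P]
    (𝔭 : Pres (Γ := Γ) p P) (n : ℕ) (hn : n ≤ 2) : Finite (Hsm 𝒰 (homG π P μ) n) := by
  haveI := h.finite_HMod n hn
  haveI := finite_linearMap (Γ := Γ) (P := P) (V := HMod π 𝒰 μ n)
  exact Finite.of_injective _ (thetaBij_of_pres π 𝒰 μ h.tors 𝔭 n).1

/-- the short exact sequence of complexes attached to a short exact sequence of modules -/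
lemma isSES {N' N N'' : Type} [AddCommGroup N'] [Module (ZG Γ) N'] [AddCommGroup N]
    [Module (ZG Γ) N] [AddCommGroup N''] [Module (ZG Γ) N''] [IsPFin p N]
    (f : N' →ₗ[ZG Γ] N) (g : N →ₗ[ZG Γ] N'') (hf : Injective f) (hg : Surjective g)
    (hfg : Exact f g) :
    Cpx.IsSES (Csm.map 𝒰 (homG.comap π μ g)) (Csm.map 𝒰 (homG.comap π μ f)) := by
  haveI := IsPFin.finite (p := p) (V := N)
  exact Csm.map_isSES _ _ (homG.isSm π 𝒰 h.hker h.sm) (homG.comap_injective π g μ hg)
    (homG.comap_surjective π f μ hf (IsPFin.nsmul_eq_zero (p := p)))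
    (homG.comap_exact π f g μ hg hfg)

/-- dévissage: finiteness in degree `n + 1` from finiteness in degree `n` -/
lemma finite_succ (n : ℕ) (hn : n + 1 ≤ 2)
    (hprev : ∀ (K : Type) [AddCommGroup K] [Module (ZG Γ) K] [IsPFin p K],
      Finite (Hsm 𝒰 (homG π K μ) n))
    (N : Type) [AddCommGroup N] [Module (ZG Γ) N] [IsPFin p N] :
    Finite (Hsm 𝒰 (homG π N μ) (n + 1)) := by
  obtain ⟨d, lam, hlam⟩ := exists_free_cover (Γ := Γ) (p := p) N
  have hex : Exact (LinearMap.ker lam).subtype lam := fun x => by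
    constructor
    · intro hx
      exact ⟨⟨x, hx⟩, rfl⟩
    · rintro ⟨y, rfl⟩
      exact y.2
  have S := h.isSES (N' := LinearMap.ker lam) (LinearMap.ker lam).subtype lam
    (Submodule.injective_subtype _) hlam hex
  haveI := hprev (LinearMap.ker lam)
  haveI : Finite (Fin d → Reg Γ p) := IsPFin.finite (p := p)
  haveI := h.finite_of_pres (Pres.free (Γ := Γ) (p := p) d) (n + 1) hn
  exact finite_of_exact_mid (S.δ n).toAddMonoidHom
    ((Csm.map 𝒰 (homG.comap π μ lam)).mapH (n + 1)).toAddMonoidHom (S.exact_left n)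

lemma finite_H1 (N : Type) [AddCommGroup N] [Module (ZG Γ) N] [IsPFin p N] :
    Finite (Hsm 𝒰 (homG π N μ) 1) :=
  h.finite_succ 0 (by omega) (fun K _ _ _ => h.finite_H0 K) N

lemma finite_H2 (N : Type) [AddCommGroup N] [Module (ZG Γ) N] [IsPFin p N] :
    Finite (Hsm 𝒰 (homG π N μ) 2) :=
  h.finite_succ 1 (by omega) (fun K _ _ _ => h.finite_H1 K) N

end EulerHyp

variable (π 𝒰 μ p)

/-- `v_p |Hⁿ(G, Hom(N, μ))|` -/
def vH (N : Type) [AddCommGroup N] [Module (ZG Γ) N] (n : ℕ) : ℤ :=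
  (padicValNat p (Nat.card (Hsm 𝒰 (homG π N μ) n)) : ℤ)

/-- the Euler characteristic `χ(G, Hom(N, μ))` -/
def chiN (N : Type) [AddCommGroup N] [Module (ZG Γ) N] : ℤ :=
  vH π 𝒰 μ p N 0 - vH π 𝒰 μ p N 1 + vH π 𝒰 μ p N 2

variable {π 𝒰 μ p}

lemma card_Hsm_homG_congr {V W : Type} [AddCommGroup V] [Module (ZG Γ) V] [AddCommGroup W]
    [Module (ZG Γ) W] (e : V ≃ₗ[ZG Γ] W) (n : ℕ) :
    Nat.card (Hsm 𝒰 (homG π V μ) n) = Nat.card (Hsm 𝒰 (homG π W μ) n) := by
  refine Nat.card_congr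
    { toFun := cohMap 𝒰 (homG.comap π μ e.symm.toLinearMap) n
      invFun := cohMap 𝒰 (homG.comap π μ e.toLinearMap) n
      left_inv := fun x => ?_
      right_inv := fun y => ?_ }
  · rw [cohMap_comp 𝒰 _ _ (𝟙 _) (fun φ => ?_), cohMap_id 𝒰 _ (fun _ => rfl)]
    apply DFunLike.ext
    intro v
    show (φ : V →+ μ) v = (φ : V →+ μ) (e.symm (e v))
    rw [e.symm_apply_apply]
  · rw [cohMap_comp 𝒰 _ _ (𝟙 _) (fun φ => ?_), cohMap_id 𝒰 _ (fun _ => rfl)]
    apply DFunLike.ext
    intro w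
    show (φ : W →+ μ) w = (φ : W →+ μ) (e (e.symm w))
    rw [e.apply_symm_apply]

/-- `N ↦ χ(G, Hom(N, μ)) + ℓ(N)` as an additive invariant -/
def chiInv (h : EulerHyp π 𝒰 μ p) (ℓ : AddInvariant (ZG Γ) p) : AddInvariant (ZG Γ) p where
  val N _ _ := chiN π 𝒰 μ p N + ℓ.val N
  iso V W _ _ _ _ _ e := by
    unfold chiN vH
    rw [card_Hsm_homG_congr e 0, card_Hsm_homG_congr e 1, card_Hsm_homG_congr e 2, ℓ.iso V W e]
  add V' V V'' _ _ _ _ _ _ _ f g hf hg hfg := by
    haveI : IsPFin p V' := IsPFin.of_injective f.toAddMonoidHom hf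
    haveI : IsPFin p V'' := IsPFin.of_surjective g.toAddMonoidHom hg
    haveI := h.finite_H0 V'
    haveI := h.finite_H0 V
    haveI := h.finite_H0 V''
    haveI := h.finite_H1 V'
    haveI := h.finite_H1 V
    haveI := h.finite_H1 V''
    haveI := h.finite_H2 V'
    haveI := h.finite_H2 V
    haveI := h.finite_H2 V''
    have key := Fin.card_les_of_isSES (h.isSES f g hf hg hfg) (h.h3 V'')
    have hv := congrArg (padicValNat p) key
    rw [padicValNat_mul5 Nat.card_pos.ne' Nat.card_pos.ne' Nat.card_pos.ne' Nat.card_pos.ne'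
      Nat.card_pos.ne', padicValNat_mul4 Nat.card_pos.ne' Nat.card_pos.ne' Nat.card_pos.ne'
      Nat.card_pos.ne'] at hv
    have hℓ := ℓ.add V' V V'' f g hf hg hfg
    unfold chiN vH
    rw [hℓ]
    have hv' : ((padicValNat p (Nat.card (Hsm 𝒰 (homG π V'' μ) 0)) : ℤ) +
        padicValNat p (Nat.card (Hsm 𝒰 (homG π V' μ) 0)) +
        padicValNat p (Nat.card (Hsm 𝒰 (homG π V μ) 1)) +
        padicValNat p (Nat.card (Hsm 𝒰 (homG π V'' μ) 2)) +
        padicValNat p (Nat.card (Hsm 𝒰 (homG π V' μ) 2))) =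
        padicValNat p (Nat.card (Hsm 𝒰 (homG π V μ) 0)) +
        padicValNat p (Nat.card (Hsm 𝒰 (homG π V'' μ) 1)) +
        padicValNat p (Nat.card (Hsm 𝒰 (homG π V' μ) 1)) +
        padicValNat p (Nat.card (Hsm 𝒰 (homG π V μ) 2)) := by
      exact_mod_cast hv
    linarith

/-- **the generic Euler characteristic formula** -/
theorem euler_generic (h : EulerHyp π 𝒰 μ p) (ℓ : AddInvariant (ZG Γ) p)
    (X : Type) [AddCommGroup X] [Module (ZG Γ) X]
    (hstar : ∀ ψ : AddInvariant (ZG Γ) p,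
      ψ.val (HMod π 𝒰 μ 0) - ψ.val (HMod π 𝒰 μ 1) + ψ.val (HMod π 𝒰 μ 2) = - ψ.val X)
    (hℓ : ∀ (P : Type) [AddCommGroup P] [Module (ZG Γ) P] [Finite P] (𝔭 : Pres (Γ := Γ) p P),
      ℓ.val P = (homCov 𝔭).val X)
    (N : Type) [AddCommGroup N] [Module (ZG Γ) N] [IsPFin p N] :
    chiN π 𝒰 μ p N = - ℓ.val N := by
  have key : (chiInv h ℓ).val N = 0 := by
    apply reduction_module (chiInv h ℓ) N
    intro C' _ hC'
    obtain ⟨𝔭⟩ := exists_pres_tw (Γ := Γ) (p := p) (N := N) C' hC'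
    haveI : Finite (TwMod Γ (Γ ⧸ C') N) := IsPFin.finite (p := p)
    show chiN π 𝒰 μ p (TwMod Γ (Γ ⧸ C') N) + ℓ.val (TwMod Γ (Γ ⧸ C') N) = 0
    have e : ∀ n, vH π 𝒰 μ p (TwMod Γ (Γ ⧸ C') N) n = (homCov 𝔭).val (HMod π 𝒰 μ n) := fun n => by
      unfold vH
      rw [card_Hsm_homG_of_pres π 𝒰 μ h.tors 𝔭 n, homCov_val]
    unfold chiN
    rw [e 0, e 1, e 2, hstar (homCov 𝔭), hℓ _ 𝔭]
    ring
  have : chiN π 𝒰 μ p N + ℓ.val N = 0 := key
  linarith

end Generic

end Fermat.Agent.S56lib.Euler
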