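/-
S56 marathon, block "Euler characteristics" (helper1), file 25.
**`H³(G_q, Hom(N, ℚ̄_qˣ)) = 0`** for every finite smooth `G_q`-module `N` killed by `p` (`p` odd), for the
full topology `basisLoc q` of `G_q`: helper8's `PT9.ext3_tower_eq_zero` for the tower `basisLoc q` itself
and `H³(G, Hom(N, X)) ≅ Ext³(N, X)` (`ExtC.ofCoker_bijective`).
-/
import Fermat.Agent.S56lib.PT9.CoarseBase
import Fermat.Agent.S56lib.PT9a.LocIndex
import Fermat.Agent.S56lib.PT9a.PhiJ2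
import Fermat.Agent.S55lib.Cpx.Baer
import Fermat.Agent.S55lib.GlobDual.PTPair

set_option autoImplicit false
set_option linter.unusedSectionVars false
set_option linter.style.haveILetI false

open scoped IntermediateField

noncomputable section

namespace Fermat.Agent.S56lib.Euler

open Fermat.Agent.S55lib Fermat.Agent.S55lib.Cpx Fermat.Agent.S55lib.CFDual
  Fermat.Agent.S55lib.LocalUnr ExtCitation CategoryTheory Function

/-- an automorphism fixing `ζ` fixes `K₀(ζ)` -/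
lemma mem_fixing_adjoin_simple {K₀ Ω : Type} [Field K₀] [Field Ω] [Algebra K₀ Ω]
    (σ : Ω ≃ₐ[K₀] Ω) {ζ : Ω} (h : σ ζ = ζ) : σ ∈ (K₀⟮ζ⟯).fixingSubgroup := by
  rw [IntermediateField.mem_fixingSubgroup_iff]
  intro x hx
  induction hx using IntermediateField.adjoin_induction with
  | mem x hx => rw [Set.mem_singleton_iff.1 hx, h]
  | algebraMap x => exact σ.commutes x
  | add x y _ _ hx hy => rw [map_add, hx, hy]
  | inv x _ hx => rw [map_inv₀, hx]
  | mul x y _ _ hx hy => rw [map_mul, hx, hy]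

variable {p : ℕ} [hp : Fact p.Prime] (q : Nat.Primes)

/-- **the local `Ext³` vanishes** (full topology of `G_q`) -/
theorem ext3_loc_eq_zero (hp2 : p ≠ 2)
    (P0 P1 : Rep.{0} ℤ (Gloc q)) [Module.Finite ℤ P0] [Module.Free ℤ P0]
    [Module.Finite ℤ P1] [Module.Free ℤ P1] (hsm0 : IsSm (basisLoc q) P0)
    (hsm1 : IsSm (basisLoc q) P1) (d : P1 ⟶ P0)
    (hinj : Injective d.hom) (hdiv : ∀ x : P0, ∃ y : P1, d.hom y = p • x)
    (x : ExtH (basisLoc q) d (Yloc q) 3) : x = 0 := by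
  letI := galBasisLevel q
  -- an auxiliary set of primes containing `p`
  let S : Finset Nat.Primes := {⟨p, hp.out⟩}
  have hpS : (⟨p, hp.out⟩ : Nat.Primes) ∈ S := Finset.mem_singleton_self _
  obtain ⟨ζ, W₁, hζ, hW₁, hfixζ⟩ := S56lib.PT9a.exists_open_fixing_zeta S q hpS
  have hco := coarser_basisLoc S q
  have hζo : (basisLoc q).IsOpen
      ((ℚ_[(q : ℕ)]⟮ζ⟯).fixingSubgroup :
        Subgroup (PadicAlgCl (q : ℕ) ≃ₐ[ℚ_[(q : ℕ)]] PadicAlgCl (q : ℕ))) := by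
    obtain ⟨B, hB, hBle⟩ := hco (W₁.comap (rloc q)) ((basisS S).comap_mem_comap (rloc q) hW₁)
    exact ⟨B, hB, fun v hv => mem_fixing_adjoin_simple _ (hfixζ v (hBle hv))⟩
  have hidx : ∀ m : ℕ, ∃ W ∈ (basisLoc q).sets, p ^ m ∣ W.index := by
    intro m
    obtain ⟨V, hV, hdvd⟩ := S56lib.PT9a.exists_index_dvd q S hp2 hpS m
    obtain ⟨B, hB, hBle⟩ := hco V hV
    exact ⟨B, hB, hdvd.trans (Subgroup.index_dvd_of_le hBle)⟩
  exact S56lib.PT9.ext3_tower_eq_zero (K₀ := ℚ_[(q : ℕ)]) (Ω := PadicAlgCl (q : ℕ))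
    (basisLoc q) (fun U hU => ⟨U, hU, le_rfl⟩) p hidx hζ hζo P0 P1 hsm0 hsm1 d hinj hdiv x

/-- **`H³(G_q, Hom(N, ℚ̄_qˣ)) = 0`** -/
theorem H3_homRep_loc_eq_zero (hp2 : p ≠ 2) (N : Rep.{0} ℤ (Gloc q)) [Finite N]
    (hN : IsSm (basisLoc q) N) (hpN : ∀ x : N, p • x = 0)
    (x : Hsm (basisLoc q) (homRep N (Yloc q)) 3) : x = 0 := by
  obtain ⟨R⟩ := exists_twoTermRes (basisLoc q) N hN
  have i0 := PT.finite_toInt _ R.fin0
  have i1 := PT.finite_toInt _ R.fin1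
  have j0 := PT.free_toInt _ R.free0
  have j1 := PT.free_toInt _ R.free1
  have hpdiv : ∀ x : R.P0, ∃ y, R.d.hom y = p • x := fun x =>
    (R.exact (p • x)).1 (by rw [map_nsmul, hpN])
  have hext := homRep.mapL_surjective_of_pDivisible (addLin_int _ _) p R.d R.d_inj hpdiv
    (Yloc_divisible q p hp.out.pos)
  apply (ExtC.ofCoker_bijective (basisLoc q) R.d R.sm0 R.q R.q_surj R.exact (isSm_Yloc q) hext 3).1
  rw [map_zero]
  exact ext3_loc_eq_zero q hp2 R.P0 R.P1 R.sm0 R.sm1 R.d R.d_inj hpdiv _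

end Fermat.Agent.S56lib.Euler
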