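/-
S56 marathon, block "Euler characteristics" (helper1), file 16.
**`InvMod π hπ A`**: the `ker π`-invariants `A^U` of `A : Rep k G` as a `ℤ[Γ]`-module (`π : G →* Γ` onto;
`gsm (π g) a = g·a`), and the identification `H⁰(G, A_Γ) ≅ A^U` of `ℤ[Γ]`-modules (`HMod.zeroEquiv`).
-/
import Fermat.Agent.S56lib.Euler.CohMod
import Fermat.Agent.S56lib.PT9.Inv0

set_option autoImplicit false
set_option linter.unusedSectionVars false

noncomputable section

namespace Fermat.Agent.S56lib.Euler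

open Fermat.Agent.S55lib CategoryTheory Function

variable {k G Γ : Type} [CommRing k] [Group G] [Group Γ] (π : G →* Γ) (hπ : Surjective π)
  (A : Rep.{0} k G)

/-- the `ker π`-invariants -/
def invSub : Submodule k A where
  carrier := {a | ∀ u ∈ π.ker, A.ρ u a = a}
  add_mem' := fun ha hb u hu => by rw [map_add, ha u hu, hb u hu]
  zero_mem' := fun u _ => map_zero _
  smul_mem' := fun c a ha u hu => by rw [map_smul, ha u hu]

variable {π A}

lemma ρ_mem_invSub (g : G) {a : A} (ha : a ∈ invSub π A) : A.ρ g a ∈ invSub π A := by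
  intro u hu
  have h1 : g⁻¹ * u * g ∈ π.ker := by
    rw [MonoidHom.mem_ker] at hu ⊢
    rw [map_mul, map_mul, hu, mul_one, map_inv, inv_mul_cancel]
  have h2 := ha _ h1
  rw [← Module.End.mul_apply, ← map_mul]
  have e : u * g = g * (g⁻¹ * u * g) := by group
  rw [e, map_mul, Module.End.mul_apply, h2]

lemma ρ_eq_of_π_eq {g g' : G} (h : π g = π g') {a : A} (ha : a ∈ invSub π A) :
    A.ρ g a = A.ρ g' a := by
  have h1 : g'⁻¹ * g ∈ π.ker := by
    rw [MonoidHom.mem_ker, map_mul, map_inv, h, inv_mul_cancel]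
  have e : g = g' * (g'⁻¹ * g) := by group
  rw [e, map_mul, Module.End.mul_apply, ha _ h1]

variable (π A)

/-- `Γ` acts on `A^U` -/
def invRep : Representation ℤ Γ (invSub π A) where
  toFun γ :=
    { toFun := fun a => ⟨A.ρ (surjInv hπ γ) a.1, ρ_mem_invSub _ a.2⟩
      map_add' := fun a b => Subtype.ext (map_add _ _ _)
      map_smul' := fun c a => Subtype.ext (map_zsmul (A.ρ (surjInv hπ γ)).toAddMonoidHom c a.1) }
  map_one' := by
    apply LinearMap.ext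
    intro a
    apply Subtype.ext
    show A.ρ (surjInv hπ 1) a.1 = a.1
    rw [ρ_eq_of_π_eq (g' := 1) (by rw [surjInv_eq hπ, map_one]) a.2, map_one]
    rfl
  map_mul' γ γ' := by
    apply LinearMap.ext
    intro a
    apply Subtype.ext
    show A.ρ (surjInv hπ (γ * γ')) a.1 = A.ρ (surjInv hπ γ) (A.ρ (surjInv hπ γ') a.1)
    rw [← Module.End.mul_apply, ← map_mul]
    exact ρ_eq_of_π_eq (by rw [surjInv_eq hπ, map_mul, surjInv_eq hπ, surjInv_eq hπ]) a.2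

/-- `A^U` as a `ℤ[Γ]`-module -/
abbrev InvMod : Type := (invRep π hπ A).asModule

/-- the underlying invariant element -/
def InvMod.fn : InvMod π hπ A ≃+ invSub π A := (invRep π hπ A).asModuleEquiv.toAddEquiv

variable {π hπ A}

/-- an element of `A^U` -/
def InvMod.mk (a : A) (ha : ∀ u ∈ π.ker, A.ρ u a = a) : InvMod π hπ A :=
  (InvMod.fn π hπ A).symm ⟨a, ha⟩

@[simp] lemma InvMod.fn_mk (a : A) (ha : ∀ u ∈ π.ker, A.ρ u a = a) :
    ((InvMod.fn π hπ A (InvMod.mk (hπ := hπ) a ha) : invSub π A) : A) = a := by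
  unfold InvMod.mk
  rw [AddEquiv.apply_symm_apply]

lemma InvMod.ext {x y : InvMod π hπ A}
    (h : ((InvMod.fn π hπ A x : invSub π A) : A) = (InvMod.fn π hπ A y : invSub π A)) : x = y :=
  (InvMod.fn π hπ A).injective (Subtype.ext h)

/-- **the action**: `π g` acts on `A^U` as `g` -/
lemma InvMod.fn_gsm (g : G) (x : InvMod π hπ A) :
    ((InvMod.fn π hπ A (gsm (π g) x) : invSub π A) : A) = A.ρ g (InvMod.fn π hπ A x : invSub π A) := by
  rw [gsm_asModule]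
  show A.ρ (surjInv hπ (π g)) _ = _
  exact ρ_eq_of_π_eq (surjInv_eq hπ (π g)) (InvMod.fn π hπ A x).2

/-! ### `H⁰(G, A_Γ) ≅ A^U` -/

section Zero

variable (𝒰 : OpenBasis G)

open Fermat.Agent.S56lib.PT9

lemma inv0_cohMap {A B : Rep.{0} k G} (f : A ⟶ B) (x : Hsm 𝒰 A 0) :
    inv0 𝒰 B (cohMap 𝒰 f 0 x) = f.hom (inv0 𝒰 A x) := by
  obtain ⟨x0, hx0, rfl⟩ := (Csm 𝒰 A).exists_rep x
  rw [Cpx.Hom.mapH_cl, inv0_cl, inv0_cl]
  rfl

/-- the invariant function attached to a class in `H⁰(G, A_Γ)` -/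
def HMod.fun0 (x : HMod π 𝒰 A 0) : Γ → A := inv0 𝒰 (funG π A) (HMod.fn π 𝒰 A 0 x)

lemma HMod.fun0_equivariant (x : HMod π 𝒰 A 0) (g : G) (y : Γ) :
    HMod.fun0 𝒰 x (π g * y) = A.ρ g (HMod.fun0 𝒰 x y) := by
  have h := ρ_inv0 𝒰 (funG π A) (HMod.fn π 𝒰 A 0 x) g
  have h2 := congrFun h (π g * y)
  rw [funG_ρ_apply, inv_mul_cancel_left] at h2
  exact h2.symm

lemma HMod.fun0_gsm (δ : Γ) (x : HMod π 𝒰 A 0) (y : Γ) :
    HMod.fun0 𝒰 (gsm δ x) y = HMod.fun0 𝒰 x (y * δ) := by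
  unfold HMod.fun0
  rw [HMod.fn_gsm, inv0_cohMap]
  rfl

lemma HMod.fun0_add (x y : HMod π 𝒰 A 0) : HMod.fun0 𝒰 (x + y) = HMod.fun0 𝒰 x + HMod.fun0 𝒰 y := by
  unfold HMod.fun0
  rw [map_add, map_add]

lemma HMod.fun0_injective : Injective (HMod.fun0 (π := π) (A := A) 𝒰) := by
  intro x y h
  apply (HMod.fn π 𝒰 A 0).injective
  exact inv0_injective 𝒰 (funG π A) h

lemma HMod.fun0_one_mem (x : HMod π 𝒰 A 0) : ∀ u ∈ π.ker, A.ρ u (HMod.fun0 𝒰 x 1) = HMod.fun0 𝒰 x 1 := by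
  intro u hu
  have h := HMod.fun0_equivariant 𝒰 x u 1
  rw [MonoidHom.mem_ker.1 hu, one_mul] at h
  exact h.symm

variable (hπ) in
/-- `f ↦ f(1)` -/
def HMod.zeroHom : HMod π 𝒰 A 0 →+ InvMod π hπ A where
  toFun x := InvMod.mk (hπ := hπ) (HMod.fun0 𝒰 x 1) (HMod.fun0_one_mem 𝒰 x)
  map_zero' := by
    apply InvMod.ext
    rw [InvMod.fn_mk, map_zero]
    unfold HMod.fun0
    rw [map_zero, map_zero]
    rfl
  map_add' := fun x y => by
    apply InvMod.ext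
    rw [InvMod.fn_mk, map_add, HMod.fun0_add]
    show HMod.fun0 𝒰 x 1 + HMod.fun0 𝒰 y 1 = _
    rw [Submodule.coe_add, InvMod.fn_mk, InvMod.fn_mk]

lemma HMod.fn_zeroHom (x : HMod π 𝒰 A 0) :
    ((InvMod.fn π hπ A (HMod.zeroHom hπ 𝒰 x) : invSub π A) : A) = HMod.fun0 𝒰 x 1 :=
  InvMod.fn_mk _ _

lemma HMod.zeroHom_injective : Injective (HMod.zeroHom (A := A) hπ 𝒰) := by
  intro x y h
  apply HMod.fun0_injective (π := π) (A := A) 𝒰
  funext δ
  obtain ⟨g, rfl⟩ := hπ δ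
  have hx := HMod.fun0_equivariant 𝒰 x g 1
  have hy := HMod.fun0_equivariant 𝒰 y g 1
  rw [mul_one] at hx hy
  rw [hx, hy, ← HMod.fn_zeroHom (hπ := hπ), ← HMod.fn_zeroHom (hπ := hπ), h]

lemma HMod.zeroHom_surjective : Surjective (HMod.zeroHom (A := A) hπ 𝒰) := by
  intro z
  set a : A := ((InvMod.fn π hπ A z : invSub π A) : A) with ha
  have hainv : a ∈ invSub π A := (InvMod.fn π hπ A z).2
  -- the invariant function `δ ↦ g·a`
  let f : funG π A := fun δ => A.ρ (surjInv hπ δ) a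
  have hf : ∀ g, (funG π A).ρ g f = f := by
    intro g
    funext δ
    show A.ρ g (A.ρ (surjInv hπ ((π g)⁻¹ * δ)) a) = A.ρ (surjInv hπ δ) a
    rw [← Module.End.mul_apply, ← map_mul]
    exact ρ_eq_of_π_eq (by rw [map_mul, surjInv_eq hπ, surjInv_eq hπ, mul_inv_cancel_left]) hainv
  obtain ⟨h0, hh0⟩ := exists_inv0_eq 𝒰 (funG π A) f hf
  refine ⟨(HMod.fn π 𝒰 A 0).symm h0, ?_⟩
  apply InvMod.ext
  rw [HMod.fn_zeroHom]
  unfold HMod.fun0
  rw [AddEquiv.apply_symm_apply, hh0]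
  show A.ρ (surjInv hπ 1) a = a
  rw [ρ_eq_of_π_eq (g' := 1) (by rw [surjInv_eq hπ, map_one]) hainv, map_one]
  rfl

variable (hπ) in
/-- `H⁰(G, A_Γ) ≅ A^U` as `ℤ[Γ]`-modules: `f ↦ f(1)` -/
def HMod.zeroEquiv : HMod π 𝒰 A 0 ≃ₗ[ZG Γ] InvMod π hπ A :=
  equivOfComm
    (AddEquiv.ofBijective (HMod.zeroHom hπ 𝒰) ⟨HMod.zeroHom_injective 𝒰, HMod.zeroHom_surjective 𝒰⟩)
    (fun δ x => by
      apply InvMod.ext
      obtain ⟨g, rfl⟩ := hπ δ
      rw [InvMod.fn_gsm]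
      show ((InvMod.fn π hπ A (HMod.zeroHom hπ 𝒰 (gsm (π g) x)) : invSub π A) : A) =
        A.ρ g ((InvMod.fn π hπ A (HMod.zeroHom hπ 𝒰 x) : invSub π A) : A)
      rw [HMod.fn_zeroHom, HMod.fn_zeroHom, HMod.fun0_gsm, one_mul]
      have h := HMod.fun0_equivariant 𝒰 x g 1
      rw [mul_one] at h
      exact h)

end Zero

end Fermat.Agent.S56lib.Euler
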