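/-
S56 marathon, block "Euler characteristics" (helper1), file 17.
**The Kummer ten-term formula** (pure algebra over any ring `R`): from a long exact sequence
`0 → B⁰ → E⁰ →p E⁰ → B¹ → E¹ →p E¹ → B² → E² →p E² → 0` with `Bⁱ` finite killed by `p`,
`ψ(B⁰) − ψ(B¹) + ψ(B²) = δ_ψ(E⁰) − δ_ψ(E¹) + δ_ψ(E²)` for every additive invariant `ψ`.
-/
import Mathlib
import Fermat.Agent.S56lib.Euler.SixTerm

set_option autoImplicit false

namespace Fermat.Agent.S56lib.Euler

open Function

variable {R : Type} [Ring R] {p : ℕ}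

section Step

variable {E' B E : Type} [AddCommGroup E'] [Module R E'] [AddCommGroup B] [Module R B]
  [AddCommGroup E] [Module R E] (b : E' →ₗ[R] B) (a : B →ₗ[R] E)

/-- `E'/p → B` induced by `b` when `b` kills `pE'` -/
noncomputable def cotLift (hb : ∀ x, b (p • x) = 0) : Cot R p E' →ₗ[R] B :=
  Submodule.liftQ _ b (by
    rintro _ ⟨x, rfl⟩
    exact hb x)

@[simp] theorem cotLift_mk (hb : ∀ x, b (p • x) = 0) (x : E') :
    cotLift b hb (Submodule.Quotient.mk x) = b x := rfl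

/-- `B → E[p]` induced by `a` when `p·a = 0` -/
noncomputable def torsLift (ha : ∀ y, p • a y = 0) : B →ₗ[R] tors R p E :=
  LinearMap.codRestrict _ a ha

@[simp] theorem torsLift_coe (ha : ∀ y, p • a y = 0) (y : B) : (torsLift a ha y : E) = a y := rfl

variable (hpb : Exact (mulP R p E') b) (hba : Exact b a) (hap : Exact a (mulP R p E))
include hpb hba hap

theorem kummer_step_aux :
    (∀ x, b (p • x) = 0) ∧ (∀ y, p • a y = 0) := by
  refine ⟨fun x => (hpb _).2 ⟨x, rfl⟩, fun y => ?_⟩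
  exact (hap _).2 ⟨y, rfl⟩

theorem cotLift_injective : Injective (cotLift b (kummer_step_aux b a hpb hba hap).1) := by
  rw [← LinearMap.ker_eq_bot, LinearMap.ker_eq_bot']
  intro z hz
  obtain ⟨x, rfl⟩ := Submodule.Quotient.mk_surjective _ z
  rw [cotLift_mk] at hz
  obtain ⟨x', hx'⟩ := (hpb x).1 hz
  rw [cot_mk_eq_zero]
  exact ⟨x', hx'⟩

theorem torsLift_surjective : Surjective (torsLift a (kummer_step_aux b a hpb hba hap).2) := by
  intro e
  obtain ⟨y, hy⟩ := (hap e.1).1 e.2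
  exact ⟨y, Subtype.ext hy⟩

theorem cotLift_torsLift_exact :
    Exact (cotLift b (kummer_step_aux b a hpb hba hap).1)
      (torsLift a (kummer_step_aux b a hpb hba hap).2) := by
  intro y
  constructor
  · intro hy
    have hy' : a y = 0 := congrArg Subtype.val hy
    obtain ⟨x, hx⟩ := (hba y).1 hy'
    exact ⟨Submodule.Quotient.mk x, hx⟩
  · rintro ⟨z, rfl⟩
    obtain ⟨x, rfl⟩ := Submodule.Quotient.mk_surjective _ z
    apply Subtype.ext
    exact (hba _).2 ⟨x, rfl⟩

variable [IsPFin p B]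

theorem kummer_step_finite : Finite (Cot R p E') ∧ Finite (tors R p E) := by
  haveI := IsPFin.finite (p := p) (V := B)
  exact ⟨Finite.of_injective _ (cotLift_injective b a hpb hba hap),
    Finite.of_surjective _ (torsLift_surjective b a hpb hba hap)⟩

/-- one step: `ψ(B) = ψ(E'/p) + ψ(E[p])` -/
theorem kummer_step (ψ : AddInvariant R p) :
    ψ.val B = ψ.val (Cot R p E') + ψ.val (tors R p E) :=
  ψ.add _ _ _ _ _ (cotLift_injective b a hpb hba hap) (torsLift_surjective b a hpb hba hap)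
    (cotLift_torsLift_exact b a hpb hba hap)

end Step

section Ten

variable {B0 B1 B2 E0 E1 E2 : Type} [AddCommGroup B0] [Module R B0] [AddCommGroup B1] [Module R B1]
  [AddCommGroup B2] [Module R B2] [AddCommGroup E0] [Module R E0] [AddCommGroup E1] [Module R E1]
  [AddCommGroup E2] [Module R E2] [IsPFin p B0] [IsPFin p B1] [IsPFin p B2]
  (a0 : B0 →ₗ[R] E0) (b0 : E0 →ₗ[R] B1) (a1 : B1 →ₗ[R] E1) (b1 : E1 →ₗ[R] B2) (a2 : B2 →ₗ[R] E2)
  (ha0 : Injective a0) (h1 : Exact a0 (mulP R p E0)) (h2 : Exact (mulP R p E0) b0) (h3 : Exact b0 a1)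
  (h4 : Exact a1 (mulP R p E1)) (h5 : Exact (mulP R p E1) b1) (h6 : Exact b1 a2)
  (h7 : Exact a2 (mulP R p E2)) (h8 : Surjective (mulP R p E2))
include ha0 h1 h2 h3 h4 h5 h6 h7 h8

/-- the three `Eⁱ` have finite `p`-torsion and cotorsion -/
theorem kummer_pGood : PGood R p E0 ∧ PGood R p E1 ∧ PGood R p E2 := by
  have f1 := kummer_step_finite b0 a1 h2 h3 h4
  have f2 := kummer_step_finite b1 a2 h5 h6 h7
  haveI := IsPFin.finite (p := p) (V := B0)
  have f0 : Finite (tors R p E0) := by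
    have hs : Surjective (torsLift a0 (fun y => (h1 _).2 ⟨y, rfl⟩)) := by
      intro e
      obtain ⟨y, hy⟩ := (h1 e.1).1 e.2
      exact ⟨y, Subtype.ext hy⟩
    exact Finite.of_surjective _ hs
  have f3 : Finite (Cot R p E2) := by
    have : Subsingleton (Cot R p E2) := by
      refine ⟨fun x y => ?_⟩
      obtain ⟨x, rfl⟩ := Submodule.Quotient.mk_surjective _ x
      obtain ⟨y, rfl⟩ := Submodule.Quotient.mk_surjective _ y
      rw [← sub_eq_zero, ← Submodule.Quotient.mk_sub, Submodule.Quotient.mk_eq_zero]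
      exact LinearMap.mem_range.2 (h8 _)
    infer_instance
  exact ⟨⟨f0, f1.1⟩, ⟨f1.2, f2.1⟩, ⟨f2.2, f3⟩⟩

/-- **the Kummer ten-term formula** -/
theorem kummer_ten (ψ : AddInvariant R p) :
    ψ.val B0 - ψ.val B1 + ψ.val B2 = delta R p E0 ψ - delta R p E1 ψ + delta R p E2 ψ := by
  have s1 := kummer_step b0 a1 h2 h3 h4 ψ
  have s2 := kummer_step b1 a2 h5 h6 h7 ψ
  -- `B⁰ ≅ E⁰[p]`
  have hs : Surjective (torsLift a0 (fun y => (h1 _).2 ⟨y, rfl⟩)) := by
    intro e
    obtain ⟨y, hy⟩ := (h1 e.1).1 e.2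
    exact ⟨y, Subtype.ext hy⟩
  have hi : Injective (torsLift a0 (fun y => (h1 _).2 ⟨y, rfl⟩)) := by
    intro x y h
    exact ha0 (congrArg Subtype.val h)
  have s0 : ψ.val B0 = ψ.val (tors R p E0) :=
    ψ.iso _ _ (LinearEquiv.ofBijective _ ⟨hi, hs⟩)
  -- `E²/p = 0`
  have s3 : ψ.val (Cot R p E2) = 0 := by
    have : Subsingleton (Cot R p E2) := by
      refine ⟨fun x y => ?_⟩
      obtain ⟨x, rfl⟩ := Submodule.Quotient.mk_surjective _ x
      obtain ⟨y, rfl⟩ := Submodule.Quotient.mk_surjective _ y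
      rw [← sub_eq_zero, ← Submodule.Quotient.mk_sub, Submodule.Quotient.mk_eq_zero]
      exact LinearMap.mem_range.2 (h8 _)
    exact ψ.eq_zero_of_subsingleton _
  unfold delta
  omega

end Ten

end Fermat.Agent.S56lib.Euler
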