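/-
S56 marathon, block "Euler characteristics" (helper1), file 22.
**The Kummer sequence in the cohomology of `A_Γ`** and Shapiro's lemma for `A_Γ`:
* `pMul p A : A ⟶ A`, `HMod.map_pMul` : `Hⁿ(p) = p`;
* `KummerData 𝒰 μ 𝔼 p` : `0 → μ → 𝔼 →ᵖ 𝔼 → 0`; `KummerData.ten` : the ten-term formula
  `ψ(T⁰μ) − ψ(T¹μ) + ψ(T²μ) = δ_ψ(T⁰𝔼) − δ_ψ(T¹𝔼) + δ_ψ(T²𝔼)`; `KummerData.finite_succ` : finiteness of
  `Tⁿ⁺¹μ` from that of `Tⁿ𝔼/p` and `Tⁿ⁺¹𝔼[p]`;
* `shV` : Shapiro's map `Hⁿ(G, A_Γ) → Hⁿ(V, A)`, `V = ker π`; bijective for `n ≤ 2`, injective for `n = 3`;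
  `shV_const` : `sh ∘ ι_* = res`;
* `gsm_eq_of_res` : `Γ` acts trivially on classes whose Shapiro image is a restriction from `G`.
-/
import Fermat.Agent.S56lib.Euler.Kummer
import Fermat.Agent.S56lib.Euler.InvMod
import Fermat.Agent.S55lib.Cpx.Shapiro3
import Fermat.Agent.S55lib.CFDual.Hyp
import Fermat.Agent.S56lib.PT9a.Shapiro2S

set_option autoImplicit false
set_option linter.unusedSectionVars false

noncomputable section

namespace Fermat.Agent.S56lib.Euler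

open Fermat.Agent.S55lib Fermat.Agent.S55lib.CFDual CategoryTheory Function

variable {G Γ : Type} [Group G] [Group Γ] (π : G →* Γ) (𝒰 : OpenBasis G)

/-- the middle term of an exact sequence with finite ends is finite -/
theorem finite_mid_of_exact {X Y Z : Type*} [AddCommGroup X] [AddCommGroup Y] [AddCommGroup Z]
    [Finite X] [Finite Z] (f : X →+ Y) (g : Y →+ Z) (h : ∀ y, g y = 0 ↔ ∃ x, f x = y) : Finite Y := by
  classical
  let s : Z → Y := fun b => if h : ∃ a, g a = b then h.choose else 0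
  have hs : ∀ a, g (s (g a)) = g a := by
    intro a
    have h' : ∃ a', g a' = g a := ⟨a, rfl⟩
    simp only [s, dif_pos h']
    exact h'.choose_spec
  have hk : ∀ a, ∃ x, f x = a - s (g a) := fun a => (h _).1 (by rw [map_sub, hs, sub_self])
  choose t ht using hk
  let Φ : Y → X × Z := fun a => (t a, g a)
  refine Finite.of_injective Φ ?_
  intro a a' hh
  have h1 : g a = g a' := congrArg Prod.snd hh
  have h2 : t a = t a' := congrArg Prod.fst hh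
  have h3 : a - s (g a) = a' - s (g a') := by rw [← ht, ← ht, h2]
  rw [h1] at h3
  exact sub_left_injective h3

/-! ### multiplication by `p` -/

section PMul

variable (p : ℕ) (A : Rep.{0} ℤ G)

/-- multiplication by `p` on a representation -/
def pMul : A ⟶ A := p • 𝟙 A

@[simp] lemma pMul_apply (a : A) : (pMul p A).hom a = p • a := rfl

variable {A}

lemma cohMap_pMul (n : ℕ) (x : Hsm 𝒰 A n) : cohMap 𝒰 (pMul p A) n x = p • x := by
  have h1 := cohMap_sum 𝒰 (Finset.range p) (fun _ => 𝟙 A) (pMul p A) (fun a => by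
    rw [Finset.sum_const, Finset.card_range, pMul_apply]
    rfl) n x
  rw [Finset.sum_congr rfl fun i _ => cohMap_id 𝒰 (𝟙 A) (fun _ => rfl) n x, Finset.sum_const,
    Finset.card_range] at h1
  exact h1

lemma HMod.map_pMul (n : ℕ) (x : HMod π 𝒰 A n) : HMod.map π 𝒰 (pMul p A) n x = p • x := by
  apply (HMod.fn π 𝒰 A n).injective
  rw [HMod.fn_map, map_nsmul, ← cohMap_pMul 𝒰 p n]
  exact cohMap_congr 𝒰 (fun u => by
    funext y
    show (pMul p A).hom ((u : Γ → A) y) = ((pMul p (funG π A)).hom u : Γ → A) y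
    rw [pMul_apply, pMul_apply]
    rfl) n _

lemma HMod.map_pMul_eq (n : ℕ) : HMod.map π 𝒰 (pMul p A) n = mulP (ZG Γ) p (HMod π 𝒰 A n) :=
  LinearMap.ext fun x => HMod.map_pMul π 𝒰 p n x

end PMul

/-! ### The Kummer sequence -/

section Kummer

variable (μ 𝔼 : Rep.{0} ℤ G) (p : ℕ)

/-- a Kummer sequence `0 → μ → 𝔼 →ᵖ 𝔼 → 0` -/
structure KummerData where
  i : μ ⟶ 𝔼
  inj : Injective i.hom
  smE : IsSm 𝒰 𝔼
  exact : ∀ a : 𝔼, p • a = 0 ↔ ∃ m, i.hom m = a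
  div : ∀ a : 𝔼, ∃ b : 𝔼, p • b = a

variable {𝒰 μ 𝔼 p} [Finite Γ] (K : KummerData 𝒰 μ 𝔼 p) (hker : 𝒰.IsOpen π.ker)

include hker in
/-- the short exact sequence of complexes -/
theorem KummerData.ses : Cpx.IsSES (Csm.map 𝒰 (funG.map π K.i)) (Csm.map 𝒰 (funG.map π (pMul p 𝔼))) :=
  funG.isSES hker K.i (pMul p 𝔼) K.smE K.inj
    (fun a => by
      obtain ⟨b, hb⟩ := K.div a
      exact ⟨b, by rw [pMul_apply, hb]⟩)
    (fun a => by
      rw [pMul_apply]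
      exact K.exact a)

variable [hp : Fact p.Prime]

include K hker in
/-- **the ten-term Kummer formula** -/
theorem KummerData.ten [IsPFin p (HMod π 𝒰 μ 0)] [IsPFin p (HMod π 𝒰 μ 1)]
    [IsPFin p (HMod π 𝒰 μ 2)] (hdiv : Surjective (mulP (ZG Γ) p (HMod π 𝒰 𝔼 2))) :
    (PGood (ZG Γ) p (HMod π 𝒰 𝔼 0) ∧ PGood (ZG Γ) p (HMod π 𝒰 𝔼 1) ∧
      PGood (ZG Γ) p (HMod π 𝒰 𝔼 2)) ∧
    ∀ ψ : AddInvariant (ZG Γ) p,
      ψ.val (HMod π 𝒰 μ 0) - ψ.val (HMod π 𝒰 μ 1) + ψ.val (HMod π 𝒰 μ 2) =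
        delta (ZG Γ) p (HMod π 𝒰 𝔼 0) ψ - delta (ZG Γ) p (HMod π 𝒰 𝔼 1) ψ +
          delta (ZG Γ) p (HMod π 𝒰 𝔼 2) ψ := by
  have S := K.ses π hker
  have ha0 : Injective (HMod.map π 𝒰 K.i 0) := HMod.map_zero_injective S
  have h1 : Exact (HMod.map π 𝒰 K.i 0) (mulP (ZG Γ) p (HMod π 𝒰 𝔼 0)) := by
    rw [← HMod.map_pMul_eq]
    exact HMod.exact_mid S 0
  have h2 : Exact (mulP (ZG Γ) p (HMod π 𝒰 𝔼 0)) (HMod.δ S 0) := by
    rw [← HMod.map_pMul_eq]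
    exact HMod.exact_right S 0
  have h3 : Exact (HMod.δ S 0) (HMod.map π 𝒰 K.i 1) := HMod.exact_left S 0
  have h4 : Exact (HMod.map π 𝒰 K.i 1) (mulP (ZG Γ) p (HMod π 𝒰 𝔼 1)) := by
    rw [← HMod.map_pMul_eq]
    exact HMod.exact_mid S 1
  have h5 : Exact (mulP (ZG Γ) p (HMod π 𝒰 𝔼 1)) (HMod.δ S 1) := by
    rw [← HMod.map_pMul_eq]
    exact HMod.exact_right S 1
  have h6 : Exact (HMod.δ S 1) (HMod.map π 𝒰 K.i 2) := HMod.exact_left S 1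
  have h7 : Exact (HMod.map π 𝒰 K.i 2) (mulP (ZG Γ) p (HMod π 𝒰 𝔼 2)) := by
    rw [← HMod.map_pMul_eq]
    exact HMod.exact_mid S 2
  exact ⟨kummer_pGood _ _ _ _ _ ha0 h1 h2 h3 h4 h5 h6 h7 hdiv,
    fun ψ => kummer_ten _ _ _ _ _ ha0 h1 h2 h3 h4 h5 h6 h7 hdiv ψ⟩

include K hker in
/-- finiteness of `Tⁿ⁺¹μ` from `Tⁿ𝔼/p` and `Tⁿ⁺¹𝔼[p]` -/
theorem KummerData.finite_succ (n : ℕ) [Finite (Cot (ZG Γ) p (HMod π 𝒰 𝔼 n))]
    [Finite (tors (ZG Γ) p (HMod π 𝒰 𝔼 (n + 1)))] : Finite (HMod π 𝒰 μ (n + 1)) := by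
  have S := K.ses π hker
  have h2 : Exact (mulP (ZG Γ) p (HMod π 𝒰 𝔼 n)) (HMod.δ S n) := by
    rw [← HMod.map_pMul_eq]
    exact HMod.exact_right S n
  have h3 : Exact (HMod.δ S n) (HMod.map π 𝒰 K.i (n + 1)) := HMod.exact_left S n
  have h4 : Exact (HMod.map π 𝒰 K.i (n + 1)) (mulP (ZG Γ) p (HMod π 𝒰 𝔼 (n + 1))) := by
    rw [← HMod.map_pMul_eq]
    exact HMod.exact_mid S (n + 1)
  have hb : ∀ x, HMod.δ S n (p • x) = 0 := fun x => (h2 _).2 ⟨x, rfl⟩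
  have ha : ∀ y, p • HMod.map π 𝒰 K.i (n + 1) y = 0 := fun y => (h4 _).2 ⟨y, rfl⟩
  -- `Cot(Tⁿ𝔼) → Tⁿ⁺¹μ → Tⁿ⁺¹𝔼[p]` is exact in the middle
  refine finite_mid_of_exact (cotLift (HMod.δ S n) hb).toAddMonoidHom
    (torsLift (HMod.map π 𝒰 K.i (n + 1)) ha).toAddMonoidHom (fun y => ?_)
  constructor
  · intro hy
    have hy' : HMod.map π 𝒰 K.i (n + 1) y = 0 := congrArg Subtype.val hy
    obtain ⟨x, rfl⟩ := (h3 y).1 hy'
    exact ⟨Submodule.Quotient.mk x, cotLift_mk _ hb x⟩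
  · rintro ⟨x, rfl⟩
    obtain ⟨x, rfl⟩ := Submodule.Quotient.mk_surjective _ x
    apply Subtype.ext
    show HMod.map π 𝒰 K.i (n + 1) (cotLift (HMod.δ S n) hb (Submodule.Quotient.mk x)) = 0
    rw [cotLift_mk]
    exact (h3 _).2 ⟨x, rfl⟩

end Kummer

end Fermat.Agent.S56lib.Euler
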