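/-
S56 marathon, block "Euler characteristics" (helper1), file 26.
**From `Hom(N, μ)` with the `π`-diagonal action to `Hom(N_G, 𝔼)`**:
* `infRep π N` : a `ℤ[Γ]`-module as a `G`-module through `π`;
* `torRep p A`, `torRep.incl`, `KummerData.ofTor` : the Kummer sequence `0 → A[p] → A →ᵖ A → 0` of a smooth
  `p`-divisible module;
* `twistHom` : for `N` killed by `p` and an equivariant identification `e : N ≃+ N_G`, the bijective
  morphism `Hom(N, μ) ⟶ Hom(N_G, 𝔼)`, `φ ↦ i ∘ φ ∘ e⁻¹`, and the induced bijections on cohomology.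
-/
import Fermat.Agent.S56lib.Euler.KummerCoh
import Fermat.Agent.S55lib.Cpx.HomRep
import Fermat.Agent.S55lib.Iface.ExtCompare
import Fermat.Agent.S55lib.Cpx.Baer

set_option autoImplicit false
set_option linter.unusedSectionVars false

noncomputable section

namespace Fermat.Agent.S56lib.Euler

open Fermat.Agent.S55lib CategoryTheory Function

variable {G Γ : Type} [Group G] [Group Γ] (π : G →* Γ) (𝒰 : OpenBasis G)

/-! ### inflation -/

section InfRep

variable (N : Type) [AddCommGroup N] [Module (ZG Γ) N]

/-- `G` acts on a `ℤ[Γ]`-module through `π` -/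
def infRepρ : Representation ℤ G N where
  toFun g := (gsmHom (π g)).toIntLinearMap
  map_one' := by
    apply LinearMap.ext
    intro x
    show gsm (π 1) x = x
    rw [map_one, gsm_one]
  map_mul' g h := by
    apply LinearMap.ext
    intro x
    show gsm (π (g * h)) x = gsm (π g) (gsm (π h) x)
    rw [map_mul, gsm_mul]

/-- a `ℤ[Γ]`-module as a `G`-module -/
abbrev infRep : Rep.{0} ℤ G := Rep.of (infRepρ π N)

variable {N}

lemma infRep_ρ_apply (g : G) (x : N) : (infRep π N).ρ g x = gsm (π g) x := rfl

variable (N)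

lemma infRep.isSm (hker : 𝒰.IsOpen π.ker) : IsSm 𝒰 (infRep π N) := by
  intro x
  obtain ⟨U, hU, hle⟩ := hker
  refine ⟨U, hU, fun s hs => ?_⟩
  show gsm (π s) x = x
  rw [MonoidHom.mem_ker.1 (hle hs), gsm_one]

end InfRep

/-! ### the `p`-torsion subrepresentation -/

section TorRep

variable {k : Type} [CommRing k] (p : ℕ) (A : Rep.{0} k G)

/-- the `p`-torsion submodule -/
def torSub : Submodule k A where
  carrier := {a | p • a = 0}
  add_mem' := fun {a b} ha hb => by
    show p • (a + b) = 0
    rw [smul_add, ha, hb, add_zero]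
  zero_mem' := smul_zero p
  smul_mem' := fun c a ha => by
    show p • (c • a) = 0
    rw [smul_comm, ha, smul_zero]

lemma torSub_le_comap (g : G) : torSub p A ≤ (torSub p A).comap (A.ρ g) := by
  intro a ha
  show p • A.ρ g a = 0
  rw [← map_nsmul, ha, map_zero]

/-- the `p`-torsion subrepresentation `A[p]` -/
abbrev torRep : Rep.{0} k G := Rep.subrepresentation A (torSub p A) (torSub_le_comap p A)

/-- the inclusion `A[p] ⟶ A` -/
def torRep.incl : torRep p A ⟶ A := Rep.subtype A (torSub p A) (torSub_le_comap p A)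

lemma torRep.incl_apply (x : torRep p A) : (torRep.incl p A).hom x = (x : torSub p A).1 := rfl

variable {p A}

lemma torRep.nsmul_eq_zero (x : torRep p A) : p • x = 0 :=
  Subtype.ext (x : torSub p A).2

lemma torRep.isSm (hA : IsSm 𝒰 A) : IsSm 𝒰 (torRep p A) := by
  intro x
  obtain ⟨U, hU, h⟩ := hA (x : torSub p A).1
  exact ⟨U, hU, fun s hs => Subtype.ext (h s hs)⟩

/-- the Kummer sequence of a smooth `p`-divisible module -/
def KummerData.ofTor {A : Rep.{0} ℤ G} (hA : IsSm 𝒰 A) (hdiv : ∀ a : A, ∃ b : A, p • b = a) :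
    KummerData 𝒰 (torRep p A) A p where
  i := torRep.incl p A
  inj := fun x y h => Subtype.ext h
  smE := hA
  exact := fun a => ⟨fun h => ⟨⟨a, h⟩, rfl⟩, fun ⟨m, hm⟩ => by
    rw [← hm]
    exact (m : torSub p A).2⟩
  div := hdiv

end TorRep

/-! ### the twist -/

section Twist

variable {k : Type} [CommRing k] {μ 𝔼 : Rep.{0} k G} (i : μ ⟶ 𝔼)
  {N : Type} [AddCommGroup N] [Module (ZG Γ) N] (NG : Rep.{0} k G) (hlin : AddLin NG 𝔼)
  (e : N ≃+ NG) (he : ∀ (g : G) (x : N), e (gsm (π g) x) = NG.ρ g (e x))

/-- `φ ↦ i ∘ φ ∘ e⁻¹` -/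
def twistHom : homG π N μ ⟶ homRep NG 𝔼 :=
  Rep.ofHom
    { toLinearMap :=
        { toFun := fun φ =>
            { toFun := fun x => i.hom ((φ : N →+ μ) (e.symm x))
              map_add' := fun x y => by rw [map_add, map_add, map_add]
              map_smul' := fun c x =>
                hlin (((repAddHom i).comp (φ : N →+ μ)).comp e.symm.toAddMonoidHom) c x }
          map_add' := fun φ φ' => by
            apply LinearMap.ext
            intro x
            exact map_add i.hom _ _
          map_smul' := fun c φ => by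
            apply LinearMap.ext
            intro x
            exact map_smul i.hom c _ }
      isIntertwining' := fun g => by
        apply LinearMap.ext
        intro φ
        apply LinearMap.ext
        intro x
        show i.hom (μ.ρ g ((φ : N →+ μ) (gsm (π g)⁻¹ (e.symm x)))) =
          𝔼.ρ g (i.hom ((φ : N →+ μ) (e.symm (NG.ρ g⁻¹ x))))
        rw [Rep.hom_comm_apply]
        congr 3
        apply e.injective
        rw [← map_inv, he, e.apply_symm_apply, e.apply_symm_apply] }

lemma twistHom_apply (φ : N →+ μ) (x : NG) :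
    ((twistHom π i NG hlin e he).hom φ : NG →ₗ[k] 𝔼) x = i.hom (φ (e.symm x)) := rfl

include he in
lemma twistHom_bijective {p : ℕ} (hi : Injective i.hom)
    (hex : ∀ a : 𝔼, p • a = 0 → ∃ m, i.hom m = a) (hN : ∀ x : N, p • x = 0) :
    Bijective (twistHom π i NG hlin e he).hom := by
  constructor
  · intro φ φ' h
    apply DFunLike.ext
    intro x
    apply hi
    have := LinearMap.congr_fun h (e x)
    rwa [twistHom_apply, twistHom_apply, e.symm_apply_apply] at this
  · intro ψ
    -- values of `ψ` are `p`-torsion, hence in the image of `i`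
    have h1 : ∀ x : N, ∃ m : μ, i.hom m = (ψ : NG →ₗ[k] 𝔼) (e x) := fun x => by
      apply hex
      rw [← map_nsmul, ← map_nsmul, hN, map_zero, map_zero]
    choose m hm using h1
    let φ : N →+ μ :=
      { toFun := m
        map_zero' := hi (by rw [hm, map_zero, map_zero, map_zero])
        map_add' := fun x y => hi (by rw [hm, map_add, map_add, map_add, hm, hm]) }
    refine ⟨φ, ?_⟩
    apply LinearMap.ext
    intro x
    rw [twistHom_apply]
    show i.hom (m (e.symm x)) = _
    rw [hm, e.apply_symm_apply]

include he in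
/-- the induced bijection on cohomology -/
lemma cohMap_twistHom_bijective {p : ℕ} (hi : Injective i.hom)
    (hex : ∀ a : 𝔼, p • a = 0 → ∃ m, i.hom m = a) (hN : ∀ x : N, p • x = 0) (n : ℕ) :
    Bijective (cohMap 𝒰 (twistHom π i NG hlin e he) n) :=
  Cpx.Hom.mapH_bijective_of_bijective _
    (Csm.map_bijective 𝒰 _ (twistHom_bijective π i NG hlin e he hi hex hN)) n

end Twist

end Fermat.Agent.S56lib.Euler
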