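/-
S56 marathon, block "Euler characteristics" (helper1), file 27.
Small module-theoretic lemmas for the Euler characteristic assemblies:
* `PGood.of_linearEquiv`;
* `exists_equiv_trivMod` : a `ℤ[Γ]`-module with `p` elements and trivial action is `𝔽_p[Γ/Γ]`;
* `exists_torRep_equiv` : `A[p] ≃+ ℤ/p` when `A[p]` is generated by an element `ζ ≠ 0`;
* `delta_of_tors_triv` : `δ_ψ(E) = ψ(𝔽_p)` for `E` `p`-divisible with `E[p]` of order `p`, trivial action.
-/
import Fermat.Agent.S56lib.Euler.Perm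
import Fermat.Agent.S56lib.Euler.Twist
import Fermat.Agent.S55lib.Iface.DualTwist

set_option autoImplicit false
set_option linter.unusedSectionVars false

noncomputable section

namespace Fermat.Agent.S56lib.Euler

open Fermat.Agent.S55lib Function

section PGoodEquiv

variable {R : Type} [Ring R] {p : ℕ} {A B : Type} [AddCommGroup A] [Module R A] [AddCommGroup B]
  [Module R B]

theorem PGood.of_linearEquiv [h : PGood R p A] (e : A ≃ₗ[R] B) : PGood R p B where
  fin_tors := by
    haveI := h.fin_tors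
    refine Finite.of_injective (fun b : tors R p B => (⟨e.symm b.1, by
      rw [mem_tors, ← map_nsmul, mem_tors.1 b.2, map_zero]⟩ : tors R p A)) ?_
    intro b b' hbb
    exact Subtype.ext (e.symm.injective (congrArg Subtype.val hbb))
  fin_cot := by
    haveI := h.fin_cot
    exact Finite.of_surjective _ (cotMap_surjective (p := p) e.toLinearMap e.surjective)

end PGoodEquiv

section Triv

variable {Γ : Type} [Group Γ] {p : ℕ} [hp : Fact p.Prime]

/-- a module with `p` elements and trivial action is the trivial module `𝔽_p` -/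
theorem exists_equiv_trivMod (T : Type) [AddCommGroup T] [Module (ZG Γ) T] (hcard : Nat.card T = p)
    (htriv : ∀ (δ : Γ) (t : T), gsm δ t = t) :
    Nonempty (T ≃ₗ[ZG Γ] PermMod Γ (ZMod p) (Γ ⧸ (⊤ : Subgroup Γ))) := by
  haveI : Finite T := Nat.finite_of_card_ne_zero (by rw [hcard]; exact hp.out.ne_zero)
  haveI : Subsingleton (Γ ⧸ (⊤ : Subgroup Γ)) := QuotientGroup.subsingleton_quotient_top
  -- `T` is killed by `p`
  have hpT : ∀ t : T, p • t = 0 := fun t => by
    have := card_nsmul_eq_zero' (G := T) (x := t)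
    rwa [hcard] at this
  -- a nonzero element
  obtain ⟨t₀, ht₀⟩ : ∃ t₀ : T, t₀ ≠ 0 := by
    haveI : Nontrivial T := by
      rw [← Finite.one_lt_card_iff_nontrivial, hcard]
      exact hp.out.one_lt
    exact exists_ne 0
  have hζp : (p : ℤ) • t₀ = 0 := by rw [natCast_zsmul]; exact hpT t₀
  let pt : Γ ⧸ (⊤ : Subgroup Γ) := ((1 : Γ) : Γ ⧸ (⊤ : Subgroup Γ))
  let f : PermMod Γ (ZMod p) (Γ ⧸ (⊤ : Subgroup Γ)) →ₗ[ZG Γ] T :=
    linOfComm
      { toFun := fun w => zetaHom t₀ hζp (PermMod.fn w pt)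
        map_zero' := by rw [map_zero, Pi.zero_apply, map_zero]
        map_add' := fun w w' => by rw [map_add, Pi.add_apply, map_add] }
      (fun δ w => by
        show zetaHom t₀ hζp (PermMod.fn (gsm δ w) pt) = gsm δ (zetaHom t₀ hζp (PermMod.fn w pt))
        rw [htriv, PermMod.fn_gsm, Subsingleton.elim (δ⁻¹ • pt) pt])
  have hinj : Injective f := by
    intro w w' h
    have h1 : PermMod.fn w pt = PermMod.fn w' pt := zetaHom_injective t₀ hζp ht₀ h
    apply PermMod.ext
    intro x
    rw [Subsingleton.elim x pt, h1]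
  have hcard' : Nat.card (PermMod Γ (ZMod p) (Γ ⧸ (⊤ : Subgroup Γ))) = p := by
    rw [Nat.card_congr (PermMod.fn (Γ := Γ) (A := ZMod p) (X := Γ ⧸ (⊤ : Subgroup Γ))).toEquiv,
      Nat.card_fun, Nat.card_zmod, Nat.card_unique, pow_one]
  have hbij : Bijective f := by
    refine ⟨hinj, ?_⟩
    exact (Nat.bijective_iff_injective_and_card f).2 ⟨hinj, by rw [hcard', hcard]⟩ |>.2
  exact ⟨(LinearEquiv.ofBijective f hbij).symm⟩

/-- `δ_ψ(E) = ψ(𝔽_p)` for a `p`-divisible module whose `p`-torsion has order `p` and trivial action -/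
theorem delta_of_tors_triv (E : Type) [AddCommGroup E] [Module (ZG Γ) E]
    (hdiv : Surjective (mulP (ZG Γ) p E)) (hcard : Nat.card (tors (ZG Γ) p E) = p)
    (htriv : ∀ (δ : Γ) (t : E), p • t = 0 → gsm δ t = t) (ψ : AddInvariant (ZG Γ) p) :
    delta (ZG Γ) p E ψ = ψ.val (PermMod Γ (ZMod p) (Γ ⧸ (⊤ : Subgroup Γ))) := by
  haveI : Finite (tors (ZG Γ) p E) :=
    Nat.finite_of_card_ne_zero (by rw [hcard]; exact hp.out.ne_zero)
  haveI : IsPFin p (tors (ZG Γ) p E) := ⟨inferInstance, fun t => Subtype.ext (mem_tors.1 t.2)⟩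
  obtain ⟨e⟩ := exists_equiv_trivMod (Γ := Γ) (p := p) (tors (ZG Γ) p E) hcard
    (fun δ t => Subtype.ext (by
      show ((MonoidAlgebra.of ℤ Γ δ • t : tors (ZG Γ) p E) : E) = t.1
      rw [Submodule.coe_smul]
      exact htriv δ t.1 (mem_tors.1 t.2)))
  have h0 : ψ.val (Cot (ZG Γ) p E) = 0 := by
    haveI : Subsingleton (Cot (ZG Γ) p E) := by
      refine ⟨fun x y => ?_⟩
      obtain ⟨x, rfl⟩ := Submodule.Quotient.mk_surjective _ x
      obtain ⟨y, rfl⟩ := Submodule.Quotient.mk_surjective _ y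
      rw [← sub_eq_zero, ← Submodule.Quotient.mk_sub, Submodule.Quotient.mk_eq_zero]
      exact LinearMap.mem_range.2 (hdiv _)
    exact ψ.eq_zero_of_subsingleton _
  unfold delta
  rw [h0, sub_zero]
  exact ψ.iso _ _ e

end Triv

section TorEquiv

variable {G : Type} [Group G] {p : ℕ} [hp : Fact p.Prime]

/-- `A[p] ≃+ ℤ/p` when `A[p]` is generated by `ζ ≠ 0` -/
theorem exists_torRep_equiv {A : Rep.{0} ℤ G} (ζ : A) (hζp : (p : ℤ) • ζ = 0) (hζ0 : ζ ≠ 0)
    (htor : ∀ x : A, (p : ℤ) • x = 0 → ∃ n : ℤ, x = n • ζ) : Nonempty (torRep p A ≃+ ZMod p) := by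
  have hmem : ∀ a : ZMod p, p • zetaHom ζ hζp a = 0 := fun a => by
    rw [← map_nsmul, ZModModule.char_nsmul_eq_zero p a, map_zero]
  let F : ZMod p →+ torRep p A :=
    { toFun := fun a => (⟨zetaHom ζ hζp a, hmem a⟩ : torSub p A)
      map_zero' := Subtype.ext (map_zero _)
      map_add' := fun a b => Subtype.ext (map_add _ a b) }
  have hF : Bijective F := by
    constructor
    · intro a b h
      exact zetaHom_injective ζ hζp hζ0 (congrArg (fun x : torSub p A => (x : A)) h)
    · intro x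
      obtain ⟨n, hn⟩ := htor (x : torSub p A).1 (by
        rw [natCast_zsmul]
        exact (x : torSub p A).2)
      refine ⟨(n : ZMod p), Subtype.ext ?_⟩
      show zetaHom ζ hζp (n : ZMod p) = _
      rw [zetaHom_intCast, hn]
  exact ⟨(AddEquiv.ofBijective F hF).symm⟩

end TorEquiv

end Fermat.Agent.S56lib.Euler
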