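/-
S56 marathon, block "Euler characteristics" (helper1), file 28.
**The local Euler characteristic formula, `ℤ[Γ]`-form.**  `G = G_q`, `𝔼 = ℚ̄_qˣ`, `μ = 𝔼[p] = μ_p`,
`π : G_q ↠ Γ` finite with open kernel.  Given the equivariant structure of the local units
(`EulerSpec.LocalUnits`, WP2), for every finite `𝔽_p[Γ]`-module `N`:
`χ(G_q, Hom(N, μ_p)) = −[q = p]·dim Hom(N, μ_p)` (`chiN_loc`).
-/
import Fermat.Agent.S56lib.Euler.EulerChar
import Fermat.Agent.S56lib.Euler.ShapiroG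
import Fermat.Agent.S56lib.Euler.EllC
import Fermat.Agent.S56lib.Euler.TrivMod
import Fermat.Agent.S56lib.Euler.LocalH3
import Fermat.Agent.S56lib.PT9.H2VLocal
import Fermat.Agent.S55lib.GlobDual.ESFacts

set_option autoImplicit false
set_option linter.unusedSectionVars false
set_option linter.style.haveILetI false

noncomputable section

namespace Fermat.Agent.S56lib.Euler

open Fermat.Agent.S55lib Fermat.Agent.S55lib.CFDual CategoryTheory Function

/-- the zero invariant -/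
def AddInvariant.zeroInv (R : Type) [Ring R] (p : ℕ) : AddInvariant R p where
  val _ _ _ := 0
  iso _ _ _ _ _ _ _ _ := rfl
  add _ _ _ _ _ _ _ _ _ _ _ _ _ _ _ := (add_zero 0).symm

section Local

variable (p : ℕ) [hp : Fact p.Prime] (q : Nat.Primes)

/-- `μ_p ⊂ ℚ̄_qˣ` -/
abbrev muLoc : Rep.{0} ℤ (Gloc q) := torRep p (Yloc q)

/-- the local Kummer sequence -/
def kumLoc : KummerData (basisLoc q) (muLoc p q) (Yloc q) p :=
  KummerData.ofTor (basisLoc q) (isSm_Yloc q) (Yloc_divisible q p hp.out.pos)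

lemma nonempty_muLoc_equiv : Nonempty (muLoc p q ≃+ ZMod p) := by
  classical
  let S : Finset Nat.Primes := {⟨p, hp.out⟩, q}
  have hpS : (⟨p, hp.out⟩ : Nat.Primes) ∈ S := Finset.mem_insert_self _ _
  have hqS : q ∈ S := Finset.mem_insert_of_mem (Finset.mem_singleton_self q)
  exact exists_torRep_equiv (zetaLoc S hpS ⟨q, hqS⟩) (zetaLoc_smul S hpS ⟨q, hqS⟩)
    (zetaLoc_ne_zero S hpS ⟨q, hqS⟩) (Yloc_torsion S hpS ⟨q, hqS⟩)

variable {p q} {Γ : Type} [Group Γ] [Fintype Γ] [DecidableEq Γ] {π : Gloc q →* Γ}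
  (hπ : Surjective π) (hker : (basisLoc q).IsOpen π.ker)

include hπ hker

lemma subsingleton_E1_loc : Subsingleton (HMod π (basisLoc q) (Yloc q) 1) :=
  HMod.subsingleton_of_HV hπ hker (isSm_Yloc q) 1 (by omega)
    (fun y => PT9.H2V.H1_loc_eq_zero q π.ker hker y)

lemma mulP_E2_loc_surjective : Surjective (mulP (ZG Γ) p (HMod π (basisLoc q) (Yloc q) 2)) :=
  HMod.mulP_surjective_of_HV hπ hker (isSm_Yloc q) p 2 le_rfl
    (fun y => PT9.H2V.H2_loc_divisible q π.ker hker p hp.out.pos y)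

lemma card_tors_E2_loc : Nat.card (tors (ZG Γ) p (HMod π (basisLoc q) (Yloc q) 2)) = p := by
  have h := PT9.H2V.card_pTor_H2_loc q π.ker hker p
  rw [HMod.card_tors hπ hker (isSm_Yloc q) p 2 le_rfl]
  exact (Nat.card_congr (Equiv.subtypeEquivRight (fun _ => Iff.rfl))).trans h

lemma gsm_tors_E2_loc (δ : Γ) (t : HMod π (basisLoc q) (Yloc q) 2) (ht : p • t = 0) :
    gsm δ t = t := by
  obtain ⟨z, -, hz⟩ := PT9.H2V.H2_loc_exists_res q π.ker hker p
    (shV hπ hker (isSm_Yloc q) 2 (HMod.fn π (basisLoc q) (Yloc q) 2 t))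
    ⟨1, by rw [pow_one, ← map_nsmul, ← map_nsmul, ht, map_zero, map_zero]⟩
  exact HMod.gsm_eq_of_res hπ hker (isSm_Yloc q) 2 (by omega) t z hz.symm δ

lemma delta_E2_loc (ψ : AddInvariant (ZG Γ) p) :
    delta (ZG Γ) p (HMod π (basisLoc q) (Yloc q) 2) ψ =
      ψ.val (PermMod Γ (ZMod p) (Γ ⧸ (⊤ : Subgroup Γ))) :=
  delta_of_tors_triv _ (mulP_E2_loc_surjective hπ hker) (card_tors_E2_loc hπ hker)
    (gsm_tors_E2_loc hπ hker) ψ

/-- the standing hypotheses hold locally -/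
theorem eulerHyp_loc (hp2 : p ≠ 2) (hLU : PGood (ZG Γ) p (InvMod π hπ (Yloc q))) :
    EulerHyp π (basisLoc q) (muLoc p q) p where
  hker := hker
  sm := torRep.isSm (basisLoc q) (isSm_Yloc q)
  tors := torRep.nsmul_eq_zero
  fin := by
    obtain ⟨e⟩ := nonempty_muLoc_equiv p q
    exact Finite.of_injective e e.injective
  finT1 := by
    haveI : PGood (ZG Γ) p (HMod π (basisLoc q) (Yloc q) 0) :=
      PGood.of_linearEquiv (HMod.zeroEquiv hπ (basisLoc q)).symm
    haveI : Finite (Cot (ZG Γ) p (HMod π (basisLoc q) (Yloc q) 0)) := PGood.fin_cot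
    haveI := subsingleton_E1_loc hπ hker
    exact (kumLoc p q).finite_succ π hker 0
  finT2 := by
    haveI := subsingleton_E1_loc hπ hker
    haveI : Finite (tors (ZG Γ) p (HMod π (basisLoc q) (Yloc q) 2)) :=
      Nat.finite_of_card_ne_zero (by rw [card_tors_E2_loc hπ hker]; exact hp.out.ne_zero)
    exact (kumLoc p q).finite_succ π hker 1
  h3 := fun N _ _ _ x => by
    haveI : Finite (infRep π N) := IsPFin.finite (p := p) (V := N)
    apply (cohMap_twistHom_bijective π (basisLoc q) (kumLoc p q).i (infRep π N) (addLin_int _ _)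
      (AddEquiv.refl N) (fun g x => rfl) (kumLoc p q).inj (fun a ha => ((kumLoc p q).exact a).1 ha)
      (IsPFin.nsmul_eq_zero (p := p)) 3).1
    rw [map_zero]
    exact H3_homRep_loc_eq_zero q hp2 (infRep π N) (infRep.isSm π (basisLoc q) N hker)
      (IsPFin.nsmul_eq_zero (p := p) (V := N)) _

/-- **the base identity**, local case -/
theorem hstar_loc (hp2 : p ≠ 2)
    (hLU : PGood (ZG Γ) p (InvMod π hπ (Yloc q)) ∧
      ∀ ψ : AddInvariant (ZG Γ) p, delta (ZG Γ) p (InvMod π hπ (Yloc q)) ψ =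
        - ψ.val (PermMod Γ (ZMod p) (Γ ⧸ (⊤ : Subgroup Γ)))
          - (if (q : ℕ) = p then ψ.val (PermMod Γ (ZMod p) (Γ ⧸ (⊥ : Subgroup Γ))) else 0))
    (ψ : AddInvariant (ZG Γ) p) :
    ψ.val (HMod π (basisLoc q) (muLoc p q) 0) - ψ.val (HMod π (basisLoc q) (muLoc p q) 1) +
        ψ.val (HMod π (basisLoc q) (muLoc p q) 2) =
      - (if (q : ℕ) = p then ψ.val (PermMod Γ (ZMod p) (Γ ⧸ (⊥ : Subgroup Γ))) else 0) := by
  have H := eulerHyp_loc hπ hker hp2 hLU.1
  haveI : IsPFin p (HMod π (basisLoc q) (muLoc p q) 0) :=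
    ⟨H.finite_HMod 0 (by omega), nsmul_HMod π (basisLoc q) (muLoc p q) H.tors 0⟩
  haveI : IsPFin p (HMod π (basisLoc q) (muLoc p q) 1) :=
    ⟨H.finite_HMod 1 (by omega), nsmul_HMod π (basisLoc q) (muLoc p q) H.tors 1⟩
  haveI : IsPFin p (HMod π (basisLoc q) (muLoc p q) 2) :=
    ⟨H.finite_HMod 2 (by omega), nsmul_HMod π (basisLoc q) (muLoc p q) H.tors 2⟩
  obtain ⟨⟨g0, g1, g2⟩, hten⟩ := (kumLoc p q).ten π hker (mulP_E2_loc_surjective hπ hker)
  haveI := hLU.1
  haveI := subsingleton_E1_loc hπ hker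
  rw [hten ψ, delta_congr ψ (HMod.zeroEquiv hπ (basisLoc q)), hLU.2 ψ,
    delta_eq_zero_of_finite ψ (HMod π (basisLoc q) (Yloc q) 1), delta_E2_loc hπ hker ψ]
  ring

/-- **the local Euler characteristic formula, `ℤ[Γ]`-form** -/
theorem chiN_loc (hp2 : p ≠ 2)
    (hLU : PGood (ZG Γ) p (InvMod π hπ (Yloc q)) ∧
      ∀ ψ : AddInvariant (ZG Γ) p, delta (ZG Γ) p (InvMod π hπ (Yloc q)) ψ =
        - ψ.val (PermMod Γ (ZMod p) (Γ ⧸ (⊤ : Subgroup Γ)))
          - (if (q : ℕ) = p then ψ.val (PermMod Γ (ZMod p) (Γ ⧸ (⊥ : Subgroup Γ))) else 0))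
    (N : Type) [AddCommGroup N] [Module (ZG Γ) N] [IsPFin p N] :
    chiN π (basisLoc q) (muLoc p q) p N =
      - (if (q : ℕ) = p then (padicValNat p (Nat.card (N →+ muLoc p q)) : ℤ) else 0) := by
  have H := eulerHyp_loc hπ hker hp2 hLU.1
  have hs := hstar_loc hπ hker hp2 hLU
  by_cases hqp : (q : ℕ) = p
  · rw [if_pos hqp]
    obtain ⟨e⟩ := nonempty_muLoc_equiv p q
    haveI := H.fin
    letI : Fintype (⊥ : Subgroup Γ) := Fintype.ofFinite _
    have hC : (Nat.card (⊥ : Subgroup Γ)).Coprime p := by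
      rw [Subgroup.card_bot]
      exact Nat.coprime_one_left p
    have key := euler_generic H (ellC (⊥ : Subgroup Γ) (muLoc p q) H.tors hC)
      (PermMod Γ (ZMod p) (Γ ⧸ (⊥ : Subgroup Γ)))
      (fun ψ => by rw [hs ψ, if_pos hqp])
      (fun P _ _ _ 𝔭 => by
        rw [ellC_val, homCov_val, card_linearMap_permMod (⊥ : Subgroup Γ) e]) N
    rw [key, ellC_val]
    congr 3
    refine Nat.card_congr ⟨fun φ => φ.1, fun φ => ⟨φ, fun c hc x => ?_⟩, fun _ => rfl, fun _ => rfl⟩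
    rw [Subgroup.mem_bot.1 hc, gsm_one]
  · rw [if_neg hqp, neg_zero]
    haveI hsub : Subsingleton PUnit.{1} := ⟨fun _ _ => rfl⟩
    have key := euler_generic H (AddInvariant.zeroInv (ZG Γ) p) PUnit.{1}
      (fun ψ => by rw [hs ψ, if_neg hqp, ψ.eq_zero_of_subsingleton PUnit.{1}])
      (fun P _ _ _ 𝔭 => by
        rw [homCov_val]
        show (0 : ℤ) = _
        have h1 : Nat.card (P →ₗ[ZG Γ] PUnit.{1}) = 1 :=
          Nat.card_eq_one_iff_unique.2 ⟨⟨fun a b => LinearMap.ext fun x => rfl⟩, ⟨0⟩⟩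
        rw [h1, padicValNat_one_right, Nat.cast_zero]) N
    rw [key]
    rfl

end Local

end Fermat.Agent.S56lib.Euler
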