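/-
S56 marathon, block "Euler characteristics" (helper1), file 29.
**The local Euler characteristic formula (N4)/(N5)** in the interface language: for a finite
`𝔽_p[G_ℚ]`-module `M` unramified outside `S ∋ p` (`p` odd) and ANY prime `q`,
`|H⁰(G_q, M)| · |H²(G_q, M)| · |M|^{[q = p]} = |H¹(G_q, M)|` (`card_local_euler`), given the equivariant
structure of the local units at `q` (`EulerSpec.LocalUnits p q`, WP2).
-/
import Fermat.Agent.S56lib.Euler.LocalEuler
import Fermat.Agent.S56lib.Main.H0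
import Fermat.Agent.S56lib.Fin.Chi
import Fermat.Agent.S55lib.GlobDual.PTHalf

set_option autoImplicit false
set_option linter.unusedSectionVars false
set_option linter.style.haveILetI false

noncomputable section

namespace Fermat.Agent.S56lib.Euler

open Fermat.Agent.S55lib Fermat.Agent.S55lib.CFDual CategoryTheory Function ExtCitation

/-! ### `A` as a `ℤ[Γ]`-module when `ker π` acts trivially -/

section TrivKer

variable {G Γ : Type} [Group G] [Group Γ] {π : G →* Γ} (hπ : Surjective π) (A : Rep.{0} ℤ G)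
  (h : ∀ u ∈ π.ker, ∀ a : A, A.ρ u a = a)

/-- `A^{ker π} = A` -/
def InvMod.equivOfTriv : InvMod π hπ A ≃+ A where
  toFun x := (InvMod.fn π hπ A x).1
  invFun a := InvMod.mk a (fun u hu => h u hu a)
  left_inv x := by
    apply InvMod.ext
    rw [InvMod.fn_mk]
  right_inv a := by
    show ((InvMod.fn π hπ A (InvMod.mk a (fun u hu => h u hu a))).1 : A) = a
    rw [InvMod.fn_mk]
  map_add' x y := by rw [map_add]; rfl

lemma InvMod.equivOfTriv_gsm (g : G) (x : InvMod π hπ A) :
    InvMod.equivOfTriv hπ A h (gsm (π g) x) = A.ρ g (InvMod.equivOfTriv hπ A h x) := by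
  show ((InvMod.fn π hπ A (gsm (π g) x)).1 : A) = A.ρ g (InvMod.fn π hπ A x).1
  rw [InvMod.fn_gsm]

end TrivKer

/-! ### The quotient through which a finite smooth module factors -/

section Quot

variable {G : Type} [Group G] (𝒰 : OpenBasis G) (A : Rep.{0} ℤ G) [Finite A]

/-- a finite smooth module is trivial on a basic open subgroup -/
lemma exists_triv_of_finite' (hA : IsSm 𝒰 A) : ∃ U ∈ 𝒰.sets, ∀ s ∈ U, ∀ a : A, A.ρ s a = a := by
  have hfin : @Module.Finite ℤ A _ _ A.hV2 := by
    have e : A.hV2 = AddCommGroup.toIntModule _ := Subsingleton.elim _ _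
    rw [e]
    exact Module.Finite.of_finite
  exact exists_triv_of_finite 𝒰 A hA

end Quot

/-! ### Orders are powers of `p` -/

lemma card_eq_pow_of_tors {p : ℕ} [hp : Fact p.Prime] {X : Type} [AddCommGroup X] [Finite X]
    (hX : ∀ x : X, p • x = 0) : Nat.card X = p ^ padicValNat p (Nat.card X) := by
  haveI : IsPFin p X := ⟨inferInstance, hX⟩
  exact IsPFin.card_eq_pow X

section Final

variable {p : ℕ} [hp : Fact p.Prime]

/-- **(N4)/(N5): the local Euler characteristic formula** -/
theorem card_local_euler (hp2 : p ≠ 2) (q : Nat.Primes)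
    (hLU : ∀ (Γ : Type) [Group Γ] [Finite Γ] (π : Gloc q →* Γ) (hπ : Surjective π),
      (basisLoc q).IsOpen π.ker →
      PGood (ZG Γ) p (InvMod π hπ (Yloc q)) ∧
      ∀ ψ : AddInvariant (ZG Γ) p,
        delta (ZG Γ) p (InvMod π hπ (Yloc q)) ψ =
          - ψ.val (PermMod Γ (ZMod p) (Γ ⧸ (⊤ : Subgroup Γ)))
            - (if (q : ℕ) = p then ψ.val (PermMod Γ (ZMod p) (Γ ⧸ (⊥ : Subgroup Γ))) else 0))
    (S : Finset Nat.Primes) (hpS : (⟨p, hp.out⟩ : Nat.Primes) ∈ S)
    (M : Rep.{0} (ZMod p) GQ) [FiniteDimensional (ZMod p) M]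
    (hM : Sm.IsSmooth (MonoidHom.id GQ) (LevelClass.unr S) M) :
    Nat.card (Main.H0loc M q) * Nat.card (H2loc M q) *
        (if (q : ℕ) = p then Nat.card M else 1) = Nat.card (H1loc M q) := by
  classical
  haveI : Finite M := Module.finite_of_finite (ZMod p)
  -- the auxiliary set of primes for the twist
  let S₀ : Finset Nat.Primes := {⟨p, hp.out⟩, q}
  have hpS₀ : (⟨p, hp.out⟩ : Nat.Primes) ∈ S₀ := Finset.mem_insert_self _ _
  have hqS₀ : q ∈ S₀ := Finset.mem_insert_of_mem (Finset.mem_singleton_self q)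
  let q' : S₀ := ⟨q, hqS₀⟩
  -- the modules
  let A : Rep.{0} ℤ (Gloc q) := Rep.res (rloc q) (toIntRep M)
  let NG : Rep.{0} ℤ (Gloc q) := Rep.res (rloc q) (PT.N M)
  have hAsm : IsSm (basisLoc q) A := isSm_res_basisLoc S q (PT.isSm_M S M hM)
  have hNGsm : IsSm (basisLoc q) NG := isSm_res_basisLoc S q (PT.isSm_N S hpS M hM)
  haveI : Finite NG := (inferInstance : Finite (PT.N M))
  have hNGp : ∀ x : NG, p • x = 0 := fun x =>
    ZModModule.char_nsmul_eq_zero p (x : Module.Dual (ZMod p) M)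
  -- the finite quotient
  obtain ⟨U, hU, hUtriv⟩ := exists_triv_of_finite' (basisLoc q) NG hNGsm
  haveI : U.Normal := (basisLoc q).normal U hU
  haveI : U.FiniteIndex := (basisLoc q).finiteIndex U hU
  let Γ : Type := Gloc q ⧸ U
  let π : Gloc q →* Γ := QuotientGroup.mk' U
  have hπ : Surjective π := QuotientGroup.mk'_surjective U
  have hkerU : π.ker = U := QuotientGroup.ker_mk' U
  have hker : (basisLoc q).IsOpen π.ker := ⟨U, hU, by rw [hkerU]⟩
  haveI : Finite Γ := Subgroup.finite_quotient_of_finiteIndex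
  letI : Fintype Γ := Fintype.ofFinite Γ
  have htriv : ∀ u ∈ π.ker, ∀ a : NG, NG.ρ u a = a := fun u hu a => by
    rw [hkerU] at hu
    exact hUtriv u hu a
  -- the `ℤ[Γ]`-module
  let N : Type := InvMod π hπ NG
  let e : N ≃+ NG := InvMod.equivOfTriv hπ NG htriv
  have he : ∀ (g : Gloc q) (x : N), e (gsm (π g) x) = NG.ρ g (e x) :=
    InvMod.equivOfTriv_gsm hπ NG htriv
  have hNp : ∀ x : N, p • x = 0 := fun x => e.injective (by rw [map_nsmul, hNGp, map_zero])
  haveI : IsPFin p N := ⟨Finite.of_injective e e.injective, hNp⟩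
  haveI : Finite N := IsPFin.finite (p := p)
  -- the Euler characteristic of `Hom(N, μ)`
  have hLUΓ := hLU Γ π hπ hker
  have H := eulerHyp_loc hπ hker hp2 hLUΓ.1
  have hchi := chiN_loc hπ hker hp2 hLUΓ N
  -- the two twists
  let K := kumLoc p q
  let T1 := twistHom π K.i NG (addLin_int _ _) e he
  have hT1 : Bijective T1.hom :=
    twistHom_bijective π K.i NG (addLin_int _ _) e he K.inj (fun a ha => (K.exact a).1 ha) hNp
  have hT2 : Bijective (locTwist S₀ hpS₀ M q').hom := locTwist_bijective S₀ hpS₀ M q'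
  have hc : ∀ n, Nat.card (Hsm (basisLoc q) A n) =
      Nat.card (Hsm (basisLoc q) (homG π N (muLoc p q)) n) := fun n => by
    rw [Nat.card_eq_of_bijective _ (Cpx.Hom.mapH_bijective_of_bijective _
      (Csm.map_bijective (basisLoc q) _ hT2) n),
      Nat.card_eq_of_bijective _ (Cpx.Hom.mapH_bijective_of_bijective _
      (Csm.map_bijective (basisLoc q) _ hT1) n)]
  have hcM : Nat.card M = Nat.card (N →+ muLoc p q) := by
    rw [Nat.card_eq_of_bijective _ hT2]
    exact (Nat.card_eq_of_bijective _ hT1).symm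
  -- orders are powers of `p`
  haveI := H.fin
  haveI := H.finite_H0 N
  haveI := H.finite_H1 N
  haveI := H.finite_H2 N
  haveI : Finite (N →+ muLoc p q) :=
    Finite.of_injective (fun φ : N →+ muLoc p q => (φ : N → muLoc p q)) DFunLike.coe_injective
  have hhom : ∀ φ : homG π N (muLoc p q), p • φ = 0 := fun φ => by
    apply DFunLike.ext
    intro x
    exact H.tors ((φ : N →+ muLoc p q) x)
  have e0 := card_eq_pow_of_tors (nsmul_Hsm_eq_zero (basisLoc q) hhom 0)
  have e1 := card_eq_pow_of_tors (nsmul_Hsm_eq_zero (basisLoc q) hhom 1)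
  have e2 := card_eq_pow_of_tors (nsmul_Hsm_eq_zero (basisLoc q) hhom 2)
  have em := card_eq_pow_of_tors (X := N →+ muLoc p q) hhom
  -- the interface groups
  have b0 : Nat.card (Main.H0loc M q) = Nat.card (Hsm (basisLoc q) A 0) := by
    rw [Main.H0loc_eq_invariants]
    exact (Fin.card_H0_eq (basisLoc q) (Rep.res (rloc q) M)).symm
  have b1 : Nat.card (H1loc M q) = Nat.card (Hsm (basisLoc q) A 1) :=
    (Nat.card_eq_of_bijective _ (PT.φ1_bijective S₀ M q')).symm
  have b2 : Nat.card (H2loc M q) = Nat.card (Hsm (basisLoc q) A 2) :=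
    (Nat.card_eq_of_bijective (PT.φ2loc S₀ M q')
      (Sm.intH2_bijective.comp (Csm.toSmH2_bijective (isSm_ofLevel_iff.1 hAsm)))).symm
  rw [b0, b1, b2, hc 0, hc 1, hc 2, hcM]
  unfold chiN vH at hchi
  by_cases hqp : (q : ℕ) = p
  · rw [if_pos hqp] at hchi ⊢
    rw [e0, e1, e2, em, ← pow_add, ← pow_add]
    congr 1
    omega
  · rw [if_neg hqp] at hchi ⊢
    rw [e0, e1, e2, mul_one, ← pow_add]
    congr 1
    omega

end Final

end Fermat.Agent.S56lib.Euler
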