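/-
S56 marathon, block "Euler characteristics" (helper1), file 30.
**(N5)** unconditionally (helper7's `PT9a.localUnits_ne`) and **(N4)** from `EulerSpec.LocalUnits p ⟨p,_⟩`
(WP2 at `q = p`), in the shapes consumed by `Main/Final.s56_of_inputs`.
-/
import Fermat.Agent.S56lib.Euler.LocalFinal
import Fermat.Agent.S56lib.PT9a.LocUnitsNe

set_option autoImplicit false
set_option linter.unusedSectionVars false

noncomputable section

namespace Fermat.Agent.S56lib.Euler

open Fermat.Agent.S55lib Function ExtCitation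

variable {p : ℕ} [hp : Fact p.Prime]

/-- **(N5)**: `|H⁰(G_q, M)| · |H²(G_q, M)| = |H¹(G_q, M)|` for `q ≠ p` -/
theorem card_local_euler_ne (hp2 : p ≠ 2) (q : Nat.Primes) (hqp : (q : ℕ) ≠ p)
    (S : Finset Nat.Primes) (hpS : (⟨p, hp.out⟩ : Nat.Primes) ∈ S)
    (M : Rep.{0} (ZMod p) GQ) [FiniteDimensional (ZMod p) M]
    (hM : Sm.IsSmooth (MonoidHom.id GQ) (LevelClass.unr S) M) :
    Nat.card (Main.H0loc M q) * Nat.card (H2loc M q) = Nat.card (H1loc M q) := by
  have h := card_local_euler hp2 q (S56lib.PT9a.localUnits_ne p q hqp) S hpS M hM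
  rwa [if_neg hqp, mul_one] at h

/-- **(N5)** in the shape of `Main/Final` -/
theorem n5 (hp2 : p ≠ 2) (q : Nat.Primes) (hq : q ≠ (⟨p, hp.out⟩ : Nat.Primes))
    (S : Finset Nat.Primes) (hpS : (⟨p, hp.out⟩ : Nat.Primes) ∈ S)
    (M : Rep.{0} (ZMod p) GQ) [FiniteDimensional (ZMod p) M]
    (hM : Sm.IsSmooth (MonoidHom.id GQ) (LevelClass.unr S) M) :
    Nat.card (Main.H0loc M q) * Nat.card (H2loc M q) ≤ Nat.card (H1loc M q) :=
  (card_local_euler_ne hp2 q (fun h => hq (Subtype.ext h)) S hpS M hM).le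

/-- **(N4)** in the shape of `Main/Final`, from WP2 at `q = p` (stated for a variable `q` with `(q : ℕ) = p`:
instance search cannot see `Group (Gloc ⟨p, _⟩)`) -/
theorem n4 (hp2 : p ≠ 2) (q : Nat.Primes) (hq : (q : ℕ) = p)
    (hLU : ∀ (Γ : Type) [Group Γ] [Finite Γ] (π : Gloc q →* Γ) (hπ : Surjective π),
      (basisLoc q).IsOpen π.ker →
      PGood (ZG Γ) p (InvMod π hπ (Yloc q)) ∧
      ∀ ψ : AddInvariant (ZG Γ) p,
        delta (ZG Γ) p (InvMod π hπ (Yloc q)) ψ =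
          - ψ.val (PermMod Γ (ZMod p) (Γ ⧸ (⊤ : Subgroup Γ)))
            - (if (q : ℕ) = p then ψ.val (PermMod Γ (ZMod p) (Γ ⧸ (⊥ : Subgroup Γ))) else 0))
    (S : Finset Nat.Primes) (hpS : (⟨p, hp.out⟩ : Nat.Primes) ∈ S)
    (M : Rep.{0} (ZMod p) GQ) [FiniteDimensional (ZMod p) M]
    (hM : Sm.IsSmooth (MonoidHom.id GQ) (LevelClass.unr S) M) :
    Nat.card (Main.H0loc M q) * Nat.card (H2loc M q) * Nat.card M ≤ Nat.card (H1loc M q) := by
  have h := card_local_euler hp2 q hLU S hpS M hM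
  rw [if_pos hq] at h
  exact h.le

end Fermat.Agent.S56lib.Euler
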