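/-
S56 marathon, block "Euler characteristics" (helper1), file 23.
**Shapiro's lemma for `A_Γ = Fun(Γ, A)`**, `V = ker π`:
* `shV n : Hⁿ(G, A_Γ) → Hⁿ(V, A)`, injective for `n ≤ 3`, surjective for `n ≤ 2`;
* `shV_const` : `sh ∘ ι_* = res` (`ι : A → A_Γ` the constant functions);
* `HMod.gsm_eq_of_res` : `Γ` acts trivially on the classes whose Shapiro image is a restriction from `G`;
* consequences in `V`-form: vanishing, `p`-divisibility and the `p`-torsion of `Hⁿ(G, A_Γ)` from those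
  of `Hⁿ(V, A)`.
-/
import Fermat.Agent.S56lib.Euler.KummerCoh

set_option autoImplicit false
set_option linter.unusedSectionVars false

noncomputable section

namespace Fermat.Agent.S56lib.Euler

open Fermat.Agent.S55lib Fermat.Agent.S55lib.CFDual CategoryTheory Function

variable {G Γ : Type} [Group G] [Group Γ] [Finite Γ] {π : G →* Γ} {𝒰 : OpenBasis G}
  (hπ : Surjective π) (hker : 𝒰.IsOpen π.ker) {A : Rep.{0} ℤ G} (hA : IsSm 𝒰 A)

/-- cohomology of `V = ker π` -/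
abbrev HV (π : G →* Γ) (𝒰 : OpenBasis G) (A : Rep.{0} ℤ G) (n : ℕ) : Type :=
  Hsm (𝒰.comap π.ker.subtype) (Rep.res π.ker.subtype A) n

/-- Shapiro's map `Hⁿ(G, A_Γ) → Hⁿ(V, A)` -/
def shV (n : ℕ) : Hsm 𝒰 (funG π A) n →ₗ[ℤ] HV π 𝒰 A n :=
  ((funG.smCoind π A 𝒰 hπ hker hA).sh PUnit.unit).mapH n

lemma shV_injective (n : ℕ) (hn : n ≤ 3) : Injective (shV hπ hker hA n) := by
  rw [injective_iff_map_eq_zero]
  intro x hx
  interval_cases n
  · exact (funG.smCoind π A 𝒰 hπ hker hA).sh_H0_injective x (fun _ => hx)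
  · exact (funG.smCoind π A 𝒰 hπ hker hA).sh_H1_injective x (fun _ => hx)
  · exact (funG.smCoind π A 𝒰 hπ hker hA).sh_H2_injective x (fun _ => hx)
  · exact (funG.smCoind π A 𝒰 hπ hker hA).sh_H3_injective x (fun _ => hx)

lemma shV_surjective (n : ℕ) (hn : n ≤ 2) : Surjective (shV hπ hker hA n) := by
  intro y
  interval_cases n
  · obtain ⟨x, hx⟩ := (funG.smCoind π A 𝒰 hπ hker hA).sh_H0_surjective (fun _ => y)
    exact ⟨x, hx PUnit.unit⟩
  · obtain ⟨x, hx⟩ := (funG.smCoind π A 𝒰 hπ hker hA).sh_H1_surjective (fun _ => y)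
    exact ⟨x, hx PUnit.unit⟩
  · obtain ⟨x, hx⟩ := (funG.smCoind π A 𝒰 hπ hker hA).sh_H2_surjective (fun _ => y)
    exact ⟨x, hx PUnit.unit⟩

/-- `sh ∘ ι_* = res` -/
lemma shV_const (n : ℕ) (z : Hsm 𝒰 A n) :
    shV hπ hker hA n (cohMap 𝒰 (funG.const π A) n z) = (resHom 𝒰 π.ker A).mapH n z :=
  (funG.smCoind π A 𝒰 hπ hker hA).sh_unit PUnit.unit (funG.const π A) (𝟙 _) (fun _ => rfl) n z

/-- `Γ` acts trivially on the classes whose Shapiro image is a restriction from `G` -/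
theorem HMod.gsm_eq_of_res (n : ℕ) (hn : n ≤ 3) (x : HMod π 𝒰 A n) (z : Hsm 𝒰 A n)
    (hz : shV hπ hker hA n (HMod.fn π 𝒰 A n x) = (resHom 𝒰 π.ker A).mapH n z) (δ : Γ) :
    gsm δ x = x := by
  have h1 : HMod.fn π 𝒰 A n x = cohMap 𝒰 (funG.const π A) n z := by
    apply shV_injective hπ hker hA n hn
    rw [hz, shV_const]
  apply (HMod.fn π 𝒰 A n).injective
  rw [HMod.fn_gsm, h1]
  exact cohMap_comp 𝒰 (funG.const π A) (funG.rt π A δ) (funG.const π A)
    (fun a => (funG.rt_const π A δ a).symm) n z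

include hπ hker hA in
/-- vanishing in `V`-form -/
theorem HMod.subsingleton_of_HV (n : ℕ) (hn : n ≤ 3) (h0 : ∀ y : HV π 𝒰 A n, y = 0) :
    Subsingleton (HMod π 𝒰 A n) := by
  refine ⟨fun x y => ?_⟩
  apply (HMod.fn π 𝒰 A n).injective
  apply shV_injective hπ hker hA n hn
  rw [h0 (shV hπ hker hA n _), h0 (shV hπ hker hA n _)]

include hπ hker hA in
/-- `p`-divisibility in `V`-form -/
theorem HMod.mulP_surjective_of_HV (p : ℕ) (n : ℕ) (hn : n ≤ 2)
    (hdiv : ∀ y : HV π 𝒰 A n, ∃ y', p • y' = y) :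
    Surjective (mulP (ZG Γ) p (HMod π 𝒰 A n)) := by
  intro x
  obtain ⟨y', hy'⟩ := hdiv (shV hπ hker hA n (HMod.fn π 𝒰 A n x))
  obtain ⟨x', rfl⟩ := shV_surjective hπ hker hA n hn y'
  refine ⟨(HMod.fn π 𝒰 A n).symm x', ?_⟩
  apply (HMod.fn π 𝒰 A n).injective
  apply shV_injective hπ hker hA n (by omega)
  rw [mulP_apply, map_nsmul, AddEquiv.apply_symm_apply, map_nsmul, hy']

include hπ hker hA in
/-- the `p`-torsion in `V`-form -/
theorem HMod.card_tors (p : ℕ) (n : ℕ) (hn : n ≤ 2) :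
    Nat.card (tors (ZG Γ) p (HMod π 𝒰 A n)) = Nat.card {y : HV π 𝒰 A n // p • y = 0} := by
  refine Nat.card_eq_of_bijective
    (fun x : tors (ZG Γ) p (HMod π 𝒰 A n) =>
      (⟨shV hπ hker hA n (HMod.fn π 𝒰 A n x.1), by
        rw [← map_nsmul, ← map_nsmul, mem_tors.1 x.2, map_zero, map_zero]⟩ :
        {y : HV π 𝒰 A n // p • y = 0})) ⟨?_, ?_⟩
  · intro x x' h
    apply Subtype.ext
    apply (HMod.fn π 𝒰 A n).injective
    exact shV_injective hπ hker hA n (by omega) (congrArg Subtype.val h)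
  · rintro ⟨y, hy⟩
    obtain ⟨x, rfl⟩ := shV_surjective hπ hker hA n hn y
    refine ⟨⟨(HMod.fn π 𝒰 A n).symm x, ?_⟩, ?_⟩
    · rw [mem_tors]
      apply (HMod.fn π 𝒰 A n).injective
      apply shV_injective hπ hker hA n (by omega)
      rw [map_nsmul, AddEquiv.apply_symm_apply, map_nsmul, hy, map_zero, map_zero]
    · apply Subtype.ext
      show shV hπ hker hA n (HMod.fn π 𝒰 A n ((HMod.fn π 𝒰 A n).symm x)) = _
      rw [AddEquiv.apply_symm_apply]

end Fermat.Agent.S56lib.Euler
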