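/-
S56 marathon, block "Euler characteristics" (helper1), file 34.
**(N3), unconditional**: Tate's global Euler characteristic formula for a finite `𝔽_p[G_ℚ]`-module `M`
unramified outside `S ∋ p`, `p` odd:
`|H¹(G_S, M)| · |M^{c}| = |H²(G_S, M)| · |M| · |H⁰(G_S, M)|`  (`card_global_euler'`),
and the inequality `n3` in the literal shape of the input `hN3` of `Main.s56_of_inputs`
(`c₀ := complexConjugation`).  = `Euler/GlobalFinal` + helper8's WP5 (`PT9.T2G.globalH2`).
-/
import Fermat.Agent.S56lib.Euler.GlobalFinal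
import Fermat.Agent.S56lib.PT9.T2G.Main

set_option autoImplicit false
set_option linter.unusedSectionVars false

noncomputable section

namespace Fermat.Agent.S56lib.Euler

open Fermat.Agent.S55lib Fermat.Agent.S55lib.CFDual CategoryTheory Function ExtCitation

variable {p : ℕ} [hp : Fact p.Prime]

/-- **Tate's global Euler characteristic formula** -/
theorem card_global_euler' (hp2 : p ≠ 2) (S : Finset Nat.Primes)
    (hpS : (⟨p, hp.out⟩ : Nat.Primes) ∈ S)
    (M : Rep.{0} (ZMod p) GQ) [FiniteDimensional (ZMod p) M]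
    (hM : Sm.IsSmooth (MonoidHom.id GQ) (LevelClass.unr S) M) :
    Nat.card (H1S S M) * Nat.card {m : M // M.ρ complexConjugation m = m} =
      Nat.card (H2S S M) * Nat.card M * Nat.card M.ρ.invariants :=
  card_global_euler hp2 S hpS
    (fun _Γ _ _ _π hπ hker hμ => PT9.T2G.globalH2 S hπ hker hp2 hpS hμ) M hM

/-- **(N3)** in the literal shape of `hN3` of `Main.s56_of_inputs` -/
theorem n3 (hp2 : p ≠ 2) (S : Finset Nat.Primes) (hpS : (⟨p, hp.out⟩ : Nat.Primes) ∈ S)
    (M : Rep.{0} (ZMod p) GQ) [FiniteDimensional (ZMod p) M]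
    (hM : Sm.IsSmooth (MonoidHom.id GQ) (LevelClass.unr S) M) :
    Nat.card (H1S S M) * Nat.card {m : M // M.ρ complexConjugation m = m} ≤
      Nat.card (H2S S M) * Nat.card M * Nat.card M.ρ.invariants :=
  (card_global_euler' hp2 S hpS M hM).le

end Fermat.Agent.S56lib.Euler
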