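/-
S56 marathon, block "Euler characteristics" (helper1), file 31.
**`H³(G_S, A) = 0`** for every finite `ℤ[G_ℚ]`-module `A` killed by `p` (odd, `p ∈ S`) and smooth for the
topology of `G_S` (wrapper of helper8's `PT9.h3_eq_zero`, which is stated for `𝔽_p[G_ℚ]`-modules), and its
consequences for the Kummer sequence of `E_S`: `T²(E_Γ)` is `p`-divisible and `T³(E_Γ)[p] = 0`.
-/
import Fermat.Agent.S56lib.Euler.Twist
import Fermat.Agent.S56lib.PT9.H3Final

set_option autoImplicit false
set_option linter.unusedSectionVars false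
set_option linter.style.haveILetI false

noncomputable section

namespace Fermat.Agent.S56lib.Euler

open Fermat.Agent.S55lib Fermat.Agent.S55lib.CFDual CategoryTheory Function

section ZModRep

variable {G : Type} [Group G] (p : ℕ) [hp : Fact p.Prime] {V : Type} [AddCommGroup V]
  (ρ : Representation ℤ G V) (hpA : ∀ a : V, p • a = 0)

/-- a `ℤ[G]`-module killed by `p` as an `𝔽_p[G]`-module -/
def zmodRep : Rep.{0} (ZMod p) G :=
  letI := AddCommGroup.zmodModule hpA
  Rep.of (k := ZMod p) (G := G) (X := V)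
    { toFun := fun g => (ρ g).toAddMonoidHom.toZModLinearMap p
      map_one' := by
        apply LinearMap.ext
        intro a
        show ρ 1 a = a
        rw [map_one]
        rfl
      map_mul' := fun g h => by
        apply LinearMap.ext
        intro a
        show ρ (g * h) a = ρ g (ρ h a)
        rw [map_mul]
        rfl }

lemma zmodRep_ρ_apply (g : G) (a : V) : (zmodRep p ρ hpA).ρ g a = ρ g a := rfl

/-- the identity `toIntRep (zmodRep ρ) ⟶ Rep.of ρ` -/
def zmodRep.toHom : toIntRep (zmodRep p ρ hpA) ⟶ Rep.of ρ :=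
  Rep.ofHom
    { toLinearMap :=
        { toFun := fun a => a
          map_add' := fun _ _ => rfl
          map_smul' := fun _ _ => rfl }
      isIntertwining' := fun g => by
        apply LinearMap.ext
        intro a
        rfl }

lemma zmodRep.toHom_bijective : Bijective (zmodRep.toHom p ρ hpA).hom :=
  ⟨fun _ _ h => h, fun a => ⟨a, rfl⟩⟩

end ZModRep

section Global

variable {p : ℕ} [hp : Fact p.Prime] (S : Finset Nat.Primes)
  (hpS : (⟨p, hp.out⟩ : Nat.Primes) ∈ S)

include hpS in
/-- `H³(G_S, A) = 0`, canonical-instance form -/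
theorem H3_glob_eq_zero_of (hp2 : p ≠ 2) {V : Type} [AddCommGroup V] [Finite V]
    (ρ : Representation ℤ GQ V) (hpA : ∀ a : V, p • a = 0)
    (hsm : IsSm (basisS S) (Rep.of ρ)) (x : Hsm (basisS S) (Rep.of ρ) 3) : x = 0 := by
  have hb := Cpx.Hom.mapH_bijective_of_bijective _
    (Csm.map_bijective (basisS S) _ (zmodRep.toHom_bijective p ρ hpA)) 3
  obtain ⟨y, rfl⟩ := hb.2 x
  haveI : Finite (zmodRep p ρ hpA) := ‹Finite V›
  haveI : FiniteDimensional (ZMod p) (zmodRep p ρ hpA) := Module.Finite.of_finite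
  have hM : Sm.IsSmooth (MonoidHom.id GQ) (LevelClass.unr S) (zmodRep p ρ hpA) :=
    isSm_ofLevel_iff.1 (fun a => hsm a)
  rw [PT9.h3_eq_zero S hpS (zmodRep p ρ hpA) hM hp2 y, map_zero]

include hpS in
/-- **`H³(G_S, A) = 0`** for finite smooth `A` killed by `p` -/
theorem H3_glob_eq_zero (hp2 : p ≠ 2) (A : Rep.{0} ℤ GQ) [hfin : Finite A]
    (hpA : ∀ a : A, p • a = 0) (hsm : IsSm (basisS S) A) (x : Hsm (basisS S) A 3) : x = 0 := by
  revert hfin hpA hsm x
  obtain ⟨V, ρ⟩ := A
  rename_i hV1 hV2
  obtain rfl : hV2 = AddCommGroup.toIntModule V := Subsingleton.elim _ _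
  intro hfin hpA hsm x
  exact H3_glob_eq_zero_of S hpS hp2 ρ hpA hsm x

end Global

end Fermat.Agent.S56lib.Euler
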