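/-
S56 marathon, block "Euler characteristics" (helper1), file 32.
**The global Euler characteristic formula, `ℤ[Γ]`-form.**  `G = G_ℚ` with the topology of `G_S`,
`𝔼 = E_S` (the `S`-units of `ℚ_S`), `μ = 𝔼[p] = μ_p`, `π : G_ℚ ↠ Γ` finite with kernel open in `G_S`.
Inputs: the equivariant structure of the `S`-units (`GU.globalUnits`, lead + helper7), finiteness of
`H¹(U, E_S)` (`ClsFin.classFinite`, helper4), `cd_p G_S ≤ 2` (`PT9.h3_eq_zero`, helper8) and the structure of
`H²(U, E_S)` (WP5, helper8: taken as a hypothesis `hWP5` in its literal shape).  Output, for every finite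
`𝔽_p[Γ]`-module `N`:  `χ(G_S, Hom(N, μ_p)) = −dim Hom(N, μ_p)^{⟨π c⟩}` (`chiN_glob`), `c` the complex
conjugation acting on `N` ONLY.
-/
import Fermat.Agent.S56lib.Euler.EulerChar
import Fermat.Agent.S56lib.Euler.ShapiroG
import Fermat.Agent.S56lib.Euler.EllC
import Fermat.Agent.S56lib.Euler.TrivMod
import Fermat.Agent.S56lib.Euler.GlobalH3
import Fermat.Agent.S56lib.GU.Spec
import Fermat.Agent.S56lib.ClsFin.Main
import Fermat.Agent.S55lib.GlobDual.ESFacts

set_option autoImplicit false
set_option linter.unusedSectionVars false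
set_option linter.style.haveILetI false

noncomputable section

namespace Fermat.Agent.S56lib.Euler

open Fermat.Agent.S55lib Fermat.Agent.S55lib.CFDual CategoryTheory Function

section Global

variable (p : ℕ) [hp : Fact p.Prime] (S : Finset Nat.Primes)
  (hpS : (⟨p, hp.out⟩ : Nat.Primes) ∈ S)

/-- `μ_p ⊂ E_S` -/
abbrev muGlob : Rep.{0} ℤ GQ := torRep p (ESrep S)

/-- the global Kummer sequence -/
def kumGlob : KummerData (basisS S) (muGlob p S) (ESrep S) p :=
  KummerData.ofTor (basisS S) (isSm_ESrep S) (ESrep_divisible S hpS)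

include hpS in
lemma nonempty_muGlob_equiv : Nonempty (muGlob p S ≃+ ZMod p) :=
  exists_torRep_equiv (zetaES S hpS) (zetaES_smul S hpS) (zetaES_ne_zero S hpS)
    (ESrep_torsion S hpS)

include hpS in
lemma finite_muGlob : Finite (muGlob p S) := by
  obtain ⟨e⟩ := nonempty_muGlob_equiv p S hpS
  exact Finite.of_injective e e.injective

variable {p S} {Γ : Type} [Group Γ] [Fintype Γ] [DecidableEq Γ] {π : GQ →* Γ}
  (hπ : Surjective π) (hker : (basisS S).IsOpen π.ker)

include hπ hker

/-- `T¹(E_Γ) = H¹(U, E_S)` is finite (finiteness of the class group) -/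
lemma finite_E1_glob : Finite (HMod π (basisS S) (ESrep S) 1) := by
  haveI := ClsFin.classFinite S π.ker inferInstance hker
  exact Finite.of_injective
    (fun x => shV hπ hker (isSm_ESrep S) 1 (HMod.fn π (basisS S) (ESrep S) 1 x))
    (fun x y h => (HMod.fn π (basisS S) (ESrep S) 1).injective
      (shV_injective hπ hker (isSm_ESrep S) 1 (by omega) h))

include hpS in
/-- `T³(μ_Γ) = 0` -/
lemma subsingleton_T3_glob (hp2 : p ≠ 2) : Subsingleton (HMod π (basisS S) (muGlob p S) 3) := by
  haveI := finite_muGlob p S hpS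
  haveI : Finite (funG π (muGlob p S)) := inferInstanceAs (Finite (Γ → muGlob p S))
  refine ⟨fun x y => (HMod.fn π (basisS S) (muGlob p S) 3).injective ?_⟩
  have h0 := H3_glob_eq_zero S hpS hp2 (funG π (muGlob p S))
    (fun u => funext fun x => torRep.nsmul_eq_zero ((u : Γ → muGlob p S) x))
    (funG.isSm π (muGlob p S) (basisS S) hker (torRep.isSm (basisS S) (isSm_ESrep S)))
  rw [h0 (HMod.fn π (basisS S) (muGlob p S) 3 x), h0 (HMod.fn π (basisS S) (muGlob p S) 3 y)]

include hpS in
/-- `T²(E_Γ)` is `p`-divisible -/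
lemma mulP_E2_glob_surjective (hp2 : p ≠ 2) :
    Surjective (mulP (ZG Γ) p (HMod π (basisS S) (ESrep S) 2)) := by
  intro x
  haveI := subsingleton_T3_glob hpS hπ hker hp2
  have h := HMod.exact_right ((kumGlob p S hpS).ses π hker) 2
  rw [HMod.map_pMul_eq] at h
  exact (h x).1 (Subsingleton.elim _ _)

include hpS in
/-- `T³(E_Γ)[p] = 0` -/
lemma tors_E3_glob (hp2 : p ≠ 2) (x : HMod π (basisS S) (ESrep S) 3) (hx : p • x = 0) : x = 0 := by
  haveI := subsingleton_T3_glob hpS hπ hker hp2
  have h := HMod.exact_mid ((kumGlob p S hpS).ses π hker) 3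
  rw [HMod.map_pMul_eq] at h
  obtain ⟨y, rfl⟩ := (h x).1 hx
  rw [Subsingleton.elim y 0, map_zero]

include hpS in
/-- the standing hypotheses hold globally -/
theorem eulerHyp_glob (hp2 : p ≠ 2) (hE2 : PGood (ZG Γ) p (HMod π (basisS S) (ESrep S) 2)) :
    EulerHyp π (basisS S) (muGlob p S) p where
  hker := hker
  sm := torRep.isSm (basisS S) (isSm_ESrep S)
  tors := torRep.nsmul_eq_zero
  fin := finite_muGlob p S hpS
  finT1 := by
    haveI : PGood (ZG Γ) p (InvMod π hπ (ESrep S)) := (GU.globalUnits p S Γ π hπ hker).1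
    haveI : PGood (ZG Γ) p (HMod π (basisS S) (ESrep S) 0) :=
      PGood.of_linearEquiv (HMod.zeroEquiv hπ (basisS S)).symm
    haveI : Finite (Cot (ZG Γ) p (HMod π (basisS S) (ESrep S) 0)) := PGood.fin_cot
    haveI := finite_E1_glob hπ hker
    exact (kumGlob p S hpS).finite_succ π hker 0
  finT2 := by
    haveI := finite_E1_glob hπ hker
    haveI : Finite (tors (ZG Γ) p (HMod π (basisS S) (ESrep S) 2)) := PGood.fin_tors
    exact (kumGlob p S hpS).finite_succ π hker 1
  h3 := fun N _ _ _ x => by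
    haveI := finite_muGlob p S hpS
    haveI : Finite N := IsPFin.finite (p := p) (V := N)
    haveI : Finite (homG π N (muGlob p S)) :=
      Finite.of_injective (fun φ : N →+ muGlob p S => (φ : N → muGlob p S))
        DFunLike.coe_injective
    exact H3_glob_eq_zero S hpS hp2 (homG π N (muGlob p S))
      (fun φ => by
        apply DFunLike.ext
        intro x
        exact torRep.nsmul_eq_zero ((φ : N →+ muGlob p S) x))
      (homG.isSm π (basisS S) hker (torRep.isSm (basisS S) (isSm_ESrep S))) x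

include hpS in
/-- **the base identity**, global case -/
theorem hstar_glob (hp2 : p ≠ 2)
    (hWP5 : PGood (ZG Γ) p (HMod π (basisS S) (ESrep S) 2) ∧
      ∀ ψ : AddInvariant (ZG Γ) p, delta (ZG Γ) p (HMod π (basisS S) (ESrep S) 2) ψ =
        ∑ q : S, ψ.val (PermMod Γ (ZMod p) (Γ ⧸ (π.comp (rloc q.1)).range))
          - ψ.val (PermMod Γ (ZMod p) (Γ ⧸ (⊤ : Subgroup Γ))))
    (ψ : AddInvariant (ZG Γ) p) :
    ψ.val (HMod π (basisS S) (muGlob p S) 0) - ψ.val (HMod π (basisS S) (muGlob p S) 1) +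
        ψ.val (HMod π (basisS S) (muGlob p S) 2) =
      - ψ.val (PermMod Γ (ZMod p) (Γ ⧸ Subgroup.zpowers (π complexConjugation))) := by
  have H := eulerHyp_glob hpS hπ hker hp2 hWP5.1
  haveI : IsPFin p (HMod π (basisS S) (muGlob p S) 0) :=
    ⟨H.finite_HMod 0 (by omega), nsmul_HMod π (basisS S) (muGlob p S) H.tors 0⟩
  haveI : IsPFin p (HMod π (basisS S) (muGlob p S) 1) :=
    ⟨H.finite_HMod 1 (by omega), nsmul_HMod π (basisS S) (muGlob p S) H.tors 1⟩
  haveI : IsPFin p (HMod π (basisS S) (muGlob p S) 2) :=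
    ⟨H.finite_HMod 2 (by omega), nsmul_HMod π (basisS S) (muGlob p S) H.tors 2⟩
  obtain ⟨⟨g0, g1, g2⟩, hten⟩ :=
    (kumGlob p S hpS).ten π hker (mulP_E2_glob_surjective hpS hπ hker hp2)
  obtain ⟨hGU, hδ0⟩ := GU.globalUnits p S Γ π hπ hker
  haveI := hGU
  haveI := finite_E1_glob hπ hker
  rw [hten ψ, delta_congr ψ (HMod.zeroEquiv hπ (basisS S)), hδ0 ψ,
    delta_eq_zero_of_finite ψ (HMod π (basisS S) (ESrep S) 1), hWP5.2 ψ]
  ring

omit hπ hker in
/-- the image of the complex conjugation generates a group of order prime to `p` -/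
lemma coprime_card_zpowers_cc (hp2 : p ≠ 2) (π : GQ →* Γ) :
    (Nat.card (Subgroup.zpowers (π complexConjugation))).Coprime p := by
  rw [Nat.card_zpowers]
  have h2 : orderOf (π complexConjugation) ∣ 2 := by
    apply orderOf_dvd_of_pow_eq_one
    rw [← map_pow, complexConjugation_sq, map_one]
  exact Nat.Coprime.coprime_dvd_left h2
    ((Nat.coprime_primes Nat.prime_two hp.out).2 (Ne.symm hp2))

include hpS in
/-- **the global Euler characteristic formula, `ℤ[Γ]`-form** -/
theorem chiN_glob (hp2 : p ≠ 2)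
    (hWP5 : PGood (ZG Γ) p (HMod π (basisS S) (ESrep S) 2) ∧
      ∀ ψ : AddInvariant (ZG Γ) p, delta (ZG Γ) p (HMod π (basisS S) (ESrep S) 2) ψ =
        ∑ q : S, ψ.val (PermMod Γ (ZMod p) (Γ ⧸ (π.comp (rloc q.1)).range))
          - ψ.val (PermMod Γ (ZMod p) (Γ ⧸ (⊤ : Subgroup Γ))))
    (N : Type) [AddCommGroup N] [Module (ZG Γ) N] [IsPFin p N] :
    chiN π (basisS S) (muGlob p S) p N =
      - (padicValNat p (Nat.card
          (invHom (Subgroup.zpowers (π complexConjugation)) N (muGlob p S))) : ℤ) := by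
  have H := eulerHyp_glob hpS hπ hker hp2 hWP5.1
  have hs := hstar_glob hpS hπ hker hp2 hWP5
  obtain ⟨e⟩ := nonempty_muGlob_equiv p S hpS
  haveI := H.fin
  letI : Fintype (Subgroup.zpowers (π complexConjugation)) := Fintype.ofFinite _
  have hC := coprime_card_zpowers_cc hp2 π
  have key := euler_generic H
    (ellC (Subgroup.zpowers (π complexConjugation)) (muGlob p S) H.tors hC)
    (PermMod Γ (ZMod p) (Γ ⧸ Subgroup.zpowers (π complexConjugation))) hs
    (fun P _ _ _ 𝔭 => by
      rw [ellC_val, homCov_val,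
        card_linearMap_permMod (Subgroup.zpowers (π complexConjugation)) e]) N
  rw [key, ellC_val]

end Global

end Fermat.Agent.S56lib.Euler
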