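/-
S56 marathon, block "Euler characteristics" (helper1), file 33.
**The global Euler characteristic formula (N3)** in the interface language: for a finite
`𝔽_p[G_ℚ]`-module `M` unramified outside `S ∋ p` (`p` odd),
`|H¹(G_S, M)| · |M^{c}| = |H²(G_S, M)| · |M| · |H⁰(G_S, M)|`, `c` the complex conjugation
(`card_global_euler`; `n3` is the inequality consumed by `Main.s56_of_inputs`).  The structure of
`H²(U, E_S)` (WP5, helper8's `PT9.T2G.globalH2`) enters as the hypothesis `hWP5` in its literal shape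
(it is plugged in `Euler/N3.lean`).
-/
import Fermat.Agent.S56lib.Euler.GlobalEuler
import Fermat.Agent.S56lib.Euler.LocalFinal
import Fermat.Agent.S56lib.TW.ConjC
import Fermat.Agent.S55lib.GlobDual.SmoothM

set_option autoImplicit false
set_option linter.unusedSectionVars false
set_option linter.style.haveILetI false

noncomputable section

namespace Fermat.Agent.S56lib.Euler

open Fermat.Agent.S55lib Fermat.Agent.S55lib.CFDual CategoryTheory Function ExtCitation

/-! ### invariance under a cyclic group -/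

section Zpowers

variable {Γ : Type} [Group Γ] {N : Type} [AddCommGroup N] [Module (ZG Γ) N] {Z : Type}
  [AddCommGroup Z]

/-- the elements of `Γ` under which `φ` is invariant -/
def invStab (φ : N →+ Z) : Subgroup Γ where
  carrier := {c | ∀ x, φ (gsm c x) = φ x}
  one_mem' := fun x => by rw [gsm_one]
  mul_mem' := fun {a b} ha hb x => by rw [gsm_mul, ha, hb]
  inv_mem' := fun {a} ha x => by
    have h := ha (gsm a⁻¹ x)
    rw [← gsm_mul, mul_inv_cancel, gsm_one] at h
    exact h.symm

lemma mem_invHom_zpowers (g : Γ) (φ : N →+ Z) :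
    φ ∈ invHom (Subgroup.zpowers g) N Z ↔ ∀ x, φ (gsm g x) = φ x := by
  constructor
  · intro h x
    exact h g (Subgroup.mem_zpowers g) x
  · intro h c hc x
    have hle : Subgroup.zpowers g ≤ invStab (Γ := Γ) φ := by
      rw [Subgroup.zpowers_le]
      exact h
    exact hle hc x

end Zpowers

/-! ### a level fixing the `p`-th roots of unity -/

section Roots

variable {p : ℕ} [hp : Fact p.Prime] (S : Finset Nat.Primes)

/-- a basic open subgroup of `G_S` fixing `μ_p` (`p ∈ S`) -/
lemma exists_level_fixing_roots (hpS : (⟨p, hp.out⟩ : Nat.Primes) ∈ S) :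
    ∃ U ∈ (basisS S).sets, ∀ u ∈ U, ∀ μ : Qbar, μ ^ p = 1 → u μ = μ := by
  have : NeZero p := ⟨hp.out.ne_zero⟩
  obtain ⟨-, F, hF, hζF⟩ := zetaUnit_mem S hpS
  obtain ⟨U, hU, hle⟩ := OpenBasis.exists_ofLevel_le (r := MonoidHom.id GQ)
    (𝓛 := LevelClass.unr S) (F := F) hF
  refine ⟨U, hU, fun u hu μ hμ => ?_⟩
  have h1 : u (zetaQbar p) = zetaQbar p :=
    (IntermediateField.mem_fixingSubgroup_iff _ _).1 (hle hu) _ hζF
  obtain ⟨i, -, rfl⟩ := (zetaQbar_spec p).eq_pow_of_pow_eq_one hμ
  rw [map_pow, h1]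

end Roots

section Final

variable {p : ℕ} [hp : Fact p.Prime]

/-- **(N3): the global Euler characteristic formula** -/
theorem card_global_euler (hp2 : p ≠ 2) (S : Finset Nat.Primes)
    (hpS : (⟨p, hp.out⟩ : Nat.Primes) ∈ S)
    (hWP5 : ∀ (Γ : Type) [Group Γ] [Finite Γ] (π : GQ →* Γ) (_hπ : Surjective π),
      (basisS S).IsOpen π.ker → (∀ u ∈ π.ker, ∀ μ : Qbar, μ ^ p = 1 → u μ = μ) →
      PGood (ZG Γ) p (HMod π (basisS S) (ESrep S) 2) ∧
      ∀ ψ : AddInvariant (ZG Γ) p, delta (ZG Γ) p (HMod π (basisS S) (ESrep S) 2) ψ =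
        ∑ q : S, ψ.val (PermMod Γ (ZMod p) (Γ ⧸ (π.comp (rloc q.1)).range))
          - ψ.val (PermMod Γ (ZMod p) (Γ ⧸ (⊤ : Subgroup Γ))))
    (M : Rep.{0} (ZMod p) GQ) [FiniteDimensional (ZMod p) M]
    (hM : Sm.IsSmooth (MonoidHom.id GQ) (LevelClass.unr S) M) :
    Nat.card (H1S S M) * Nat.card {m : M // M.ρ complexConjugation m = m} =
      Nat.card (H2S S M) * Nat.card M * Nat.card M.ρ.invariants := by
  classical
  haveI : Finite M := Module.finite_of_finite (ZMod p)
  -- the modules
  let A : Rep.{0} ℤ GQ := toIntRep M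
  let NG : Rep.{0} ℤ GQ := PT.N M
  have hNGsm : IsSm (basisS S) NG := PT.isSm_N S hpS M hM
  haveI : Finite NG := (inferInstance : Finite (PT.N M))
  have hNGp : ∀ x : NG, p • x = 0 := fun x =>
    ZModModule.char_nsmul_eq_zero p (x : Module.Dual (ZMod p) M)
  -- the finite quotient
  obtain ⟨U₁, hU₁, hU₁triv⟩ := exists_triv_of_finite' (basisS S) NG hNGsm
  obtain ⟨U₂, hU₂, hU₂fix⟩ := exists_level_fixing_roots S hpS
  obtain ⟨U, hU, hUle⟩ := (basisS S).directed U₁ hU₁ U₂ hU₂
  have hUtriv : ∀ s ∈ U, ∀ a : NG, NG.ρ s a = a := fun s hs => hU₁triv s (hUle hs).1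
  have hUfix : ∀ u ∈ U, ∀ μ : Qbar, μ ^ p = 1 → u μ = μ := fun u hu => hU₂fix u (hUle hu).2
  haveI : U.Normal := (basisS S).normal U hU
  haveI : U.FiniteIndex := (basisS S).finiteIndex U hU
  let Γ : Type := GQ ⧸ U
  let π : GQ →* Γ := QuotientGroup.mk' U
  have hπ : Surjective π := QuotientGroup.mk'_surjective U
  have hkerU : π.ker = U := QuotientGroup.ker_mk' U
  have hker : (basisS S).IsOpen π.ker := ⟨U, hU, by rw [hkerU]⟩
  haveI : Finite Γ := Subgroup.finite_quotient_of_finiteIndex
  letI : Fintype Γ := Fintype.ofFinite Γ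
  have htriv : ∀ u ∈ π.ker, ∀ a : NG, NG.ρ u a = a := fun u hu a => by
    rw [hkerU] at hu
    exact hUtriv u hu a
  -- the `ℤ[Γ]`-module
  let N : Type := InvMod π hπ NG
  let e : N ≃+ NG := InvMod.equivOfTriv hπ NG htriv
  have he : ∀ (g : GQ) (x : N), e (gsm (π g) x) = NG.ρ g (e x) :=
    InvMod.equivOfTriv_gsm hπ NG htriv
  have hNp : ∀ x : N, p • x = 0 := fun x => e.injective (by rw [map_nsmul, hNGp, map_zero])
  haveI : IsPFin p N := ⟨Finite.of_injective e e.injective, hNp⟩
  haveI : Finite N := IsPFin.finite (p := p)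
  -- the Euler characteristic of `Hom(N, μ)`
  have hW := hWP5 Γ π hπ hker (fun u hu => hUfix u (by rw [← hkerU]; exact hu))
  have H := eulerHyp_glob hpS hπ hker hp2 hW.1
  have hchi := chiN_glob hpS hπ hker hp2 hW N
  -- the two twists
  let K := kumGlob p S hpS
  let T1 := twistHom π K.i NG (addLin_int _ _) e he
  have hT1 : Bijective T1.hom :=
    twistHom_bijective π K.i NG (addLin_int _ _) e he K.inj (fun a ha => (K.exact a).1 ha) hNp
  have hT2 : Bijective (globTwist S hpS M).hom := globTwist_bijective S hpS M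
  have hc : ∀ n, Nat.card (Hsm (basisS S) A n) =
      Nat.card (Hsm (basisS S) (homG π N (muGlob p S)) n) := fun n => by
    rw [Nat.card_eq_of_bijective _ (Cpx.Hom.mapH_bijective_of_bijective _
      (Csm.map_bijective (basisS S) _ hT2) n),
      Nat.card_eq_of_bijective _ (Cpx.Hom.mapH_bijective_of_bijective _
      (Csm.map_bijective (basisS S) _ hT1) n)]
  -- the linear term
  let B : M ≃ (N →+ muGlob p S) :=
    (Equiv.ofBijective _ hT2).trans (Equiv.ofBijective _ hT1).symm
  have hB : ∀ m : M, T1.hom (B m) = (globTwist S hpS M).hom m := fun m =>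
    (Equiv.ofBijective _ hT1).apply_symm_apply _
  have hζinj : Injective (zetaHom (zetaES S hpS) (zetaES_smul S hpS)) :=
    zetaHom_injective _ _ (zetaES_ne_zero S hpS)
  have hval : ∀ (m : M) (x : N), K.i.hom ((B m) x) =
      zetaHom (zetaES S hpS) (zetaES_smul S hpS) ((e x : Module.Dual (ZMod p) M) m) := fun m x => by
    have h1 := LinearMap.congr_fun (hB m) (e x)
    rw [twistHom_apply, e.symm_apply_apply] at h1
    rw [h1]
    exact globTwist_apply S hpS M m _
  have hcc : ∀ (f : Module.Dual (ZMod p) M) (m : M),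
      ((NG.ρ complexConjugation f : NG) : Module.Dual (ZMod p) M) m =
        - f (M.ρ complexConjugation m) := fun f m => by
    show ((M.dualTwist (cycloChar p)).ρ complexConjugation f) m = _
    rw [Rep.dualTwist_ρ_apply, TW.cycloChar_complexConjugation, complexConjugation_inv]
    simp
  have hmem : ∀ m : M, M.ρ complexConjugation m = -m ↔
      B m ∈ invHom (Subgroup.zpowers (π complexConjugation)) N (muGlob p S) := fun m => by
    rw [mem_invHom_zpowers]
    constructor
    · intro hm x
      apply K.inj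
      rw [hval, hval, he, hcc, hm]
      simp only [map_neg, neg_neg]
    · intro h
      have h2 : ∀ f : Module.Dual (ZMod p) M, f (M.ρ complexConjugation m + m) = 0 := fun f => by
        obtain ⟨x, rfl⟩ := e.surjective f
        have h3 := congrArg K.i.hom (h x)
        rw [hval, hval, he, hcc] at h3
        have h4 := hζinj h3
        rw [map_add, ← h4, add_neg_cancel]
      have h5 := (Module.forall_dual_apply_eq_zero_iff (ZMod p) _).1 h2
      exact eq_neg_of_add_eq_zero_left h5
  have hcount : Nat.card (invHom (Subgroup.zpowers (π complexConjugation)) N (muGlob p S)) =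
      Nat.card {m : M // M.ρ complexConjugation m = -m} :=
    (Nat.card_congr (B.subtypeEquiv hmem)).symm
  have hsplit : Nat.card M = Nat.card {m : M // M.ρ complexConjugation m = m} *
      Nat.card {m : M // M.ρ complexConjugation m = -m} :=
    TW.card_eq_card_fixed_mul_card_anti p hp2 (ZModModule.char_nsmul_eq_zero p)
      (M.ρ complexConjugation).toAddMonoidHom (fun m => by
        show M.ρ complexConjugation (M.ρ complexConjugation m) = m
        rw [← Module.End.mul_apply, ← map_mul, complexConjugation_mul_self, map_one]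
        rfl)
  -- orders are powers of `p`
  haveI := H.fin
  haveI := H.finite_H0 N
  haveI := H.finite_H1 N
  haveI := H.finite_H2 N
  haveI : Finite (N →+ muGlob p S) :=
    Finite.of_injective (fun φ : N →+ muGlob p S => (φ : N → muGlob p S)) DFunLike.coe_injective
  have hhom : ∀ φ : homG π N (muGlob p S), p • φ = 0 := fun φ => by
    apply DFunLike.ext
    intro x
    exact H.tors ((φ : N →+ muGlob p S) x)
  have e0 := card_eq_pow_of_tors (nsmul_Hsm_eq_zero (basisS S) hhom 0)
  have e1 := card_eq_pow_of_tors (nsmul_Hsm_eq_zero (basisS S) hhom 1)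
  have e2 := card_eq_pow_of_tors (nsmul_Hsm_eq_zero (basisS S) hhom 2)
  haveI : Finite (invHom (Subgroup.zpowers (π complexConjugation)) N (muGlob p S)) :=
    Finite.of_injective (fun φ => (φ.1 : N →+ muGlob p S)) Subtype.val_injective
  have em := card_eq_pow_of_tors
    (X := invHom (Subgroup.zpowers (π complexConjugation)) N (muGlob p S))
    (fun φ => Subtype.ext (hhom φ.1))
  -- the interface groups
  have b0 : Nat.card M.ρ.invariants = Nat.card (Hsm (basisS S) A 0) := (Fin.hS_zero S M).symm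
  have b1 : Nat.card (H1S S M) = Nat.card (Hsm (basisS S) A 1) := (Fin.hS_one S M).symm
  have b2 : Nat.card (H2S S M) = Nat.card (Hsm (basisS S) A 2) := (Fin.hS_two S M hM).symm
  rw [b0, b1, b2, hc 0, hc 1, hc 2, hsplit, ← hcount]
  unfold chiN vH at hchi
  rw [e0, e1, e2, em]
  set a0 := padicValNat p (Nat.card (Hsm (basisS S) (homG π N (muGlob p S)) 0))
  set a1 := padicValNat p (Nat.card (Hsm (basisS S) (homG π N (muGlob p S)) 1))
  set a2 := padicValNat p (Nat.card (Hsm (basisS S) (homG π N (muGlob p S)) 2))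
  set l := padicValNat p
    (Nat.card (invHom (Subgroup.zpowers (π complexConjugation)) N (muGlob p S)))
  have h1 : a1 = a0 + a2 + l := by omega
  rw [h1]
  ring

/-- **(N3)** in the shape consumed by `Main.s56_of_inputs` (`c₀ := complexConjugation`) -/
theorem n3_of_wp5 (hp2 : p ≠ 2) (S : Finset Nat.Primes)
    (hpS : (⟨p, hp.out⟩ : Nat.Primes) ∈ S)
    (hWP5 : ∀ (Γ : Type) [Group Γ] [Finite Γ] (π : GQ →* Γ) (_hπ : Surjective π),
      (basisS S).IsOpen π.ker → (∀ u ∈ π.ker, ∀ μ : Qbar, μ ^ p = 1 → u μ = μ) →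
      PGood (ZG Γ) p (HMod π (basisS S) (ESrep S) 2) ∧
      ∀ ψ : AddInvariant (ZG Γ) p, delta (ZG Γ) p (HMod π (basisS S) (ESrep S) 2) ψ =
        ∑ q : S, ψ.val (PermMod Γ (ZMod p) (Γ ⧸ (π.comp (rloc q.1)).range))
          - ψ.val (PermMod Γ (ZMod p) (Γ ⧸ (⊤ : Subgroup Γ))))
    (M : Rep.{0} (ZMod p) GQ) [FiniteDimensional (ZMod p) M]
    (hM : Sm.IsSmooth (MonoidHom.id GQ) (LevelClass.unr S) M) :
    Nat.card (H1S S M) * Nat.card {m : M // M.ρ complexConjugation m = m} ≤
      Nat.card (H2S S M) * Nat.card M * Nat.card M.ρ.invariants :=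
  (card_global_euler hp2 S hpS hWP5 M hM).le

end Final

end Fermat.Agent.S56lib.Euler
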